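import Fermat.Agent.MU.S56.W4.C.Defs
import Fermat.Agent.MU.S56.W3.SO.Count
import Fermat.Agent.MU.S56.W3.TW.Gen
import Fermat.Agent.MU.Lib.TameInertia.Main

section MergeWrap_S56_W4_C_KN_Coh -- from S56/W4/C/KN/Coh.lean

set_option autoImplicit false

namespace Fermat.Agent.S56.SS.KNCoh

open Fermat.Agent.F4 ExtCitation Fermat.Agent.S56.SO Matrix
open scoped Pointwise

variable {p : ℕ} [Fact p.Prime] {k : Type} [Field k] {ρbar : ResidualGaloisRep k}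

/-! ### The characters on inertia -/

section Psi

variable (s : SSStruct p ρbar)

theorem b0_ne_zero : s.b 0 ≠ 0 := s.b.ne_zero 0

theorem b1_ne_zero : s.b 1 ≠ 0 := s.b.ne_zero 1

theorem psi_one : s.ψ 1 = 1 := by
  have h := s.diag0 1 (Subgroup.one_mem _)
  rw [map_one, Module.End.one_apply] at h
  have h2 : (1 : k) • s.b 0 = s.ψ 1 • s.b 0 := by rw [one_smul]; exact h
  exact (smul_left_injective k (b0_ne_zero s) h2).symm

theorem psi_mul {σ σ' : GQ} (hσ : σ ∈ Ip p) (hσ' : σ' ∈ Ip p) :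
    s.ψ (σ * σ') = s.ψ σ * s.ψ σ' := by
  have h := s.diag0 (σ * σ') (Subgroup.mul_mem _ hσ hσ')
  rw [map_mul, Module.End.mul_apply, s.diag0 σ' hσ', map_smul, s.diag0 σ hσ, smul_smul] at h
  have := smul_left_injective k (b0_ne_zero s) h
  rw [← this, mul_comm]

theorem psi_ne_zero {σ : GQ} (hσ : σ ∈ Ip p) : s.ψ σ ≠ 0 := by
  intro h0
  have h := psi_mul s hσ (Subgroup.inv_mem _ hσ)
  rw [mul_inv_cancel, psi_one, h0, zero_mul] at h
  exact one_ne_zero h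

theorem psi_inv {σ : GQ} (hσ : σ ∈ Ip p) : s.ψ σ⁻¹ = (s.ψ σ)⁻¹ := by
  have h := psi_mul s hσ (Subgroup.inv_mem _ hσ)
  rw [mul_inv_cancel, psi_one] at h
  exact eq_inv_of_mul_eq_one_right h.symm

theorem psi_pow {σ : GQ} (hσ : σ ∈ Ip p) (n : ℕ) : s.ψ (σ ^ n) = s.ψ σ ^ n := by
  induction n with
  | zero => rw [pow_zero, pow_zero, psi_one]
  | succ n ih => rw [pow_succ, psi_mul s (Subgroup.pow_mem _ hσ n) hσ, ih, pow_succ]

theorem one_le_p_sq : 1 ≤ p ^ 2 := Nat.one_le_pow _ _ (Fact.out : p.Prime).pos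

theorem psi_pow_N {σ : GQ} (hσ : σ ∈ Ip p) : s.ψ σ ^ (p ^ 2 - 1) = 1 := by
  have h := s.fp2 σ hσ
  have h2 : s.ψ σ ^ (p ^ 2 - 1) * s.ψ σ = 1 * s.ψ σ := by
    rw [← pow_succ, Nat.sub_add_cancel one_le_p_sq, h, one_mul]
  exact mul_right_cancel₀ (psi_ne_zero s hσ) h2

/-- `a = ψ(τ)` is not in `𝔽_p`. -/
theorem a_pow_ne : s.ψ s.τ ^ p ≠ s.ψ s.τ := by
  have hp : p.Prime := Fact.out
  intro h
  have h1 : s.ψ s.τ ^ (p - 1) = 1 := by
    have h2 : s.ψ s.τ ^ (p - 1) * s.ψ s.τ = 1 * s.ψ s.τ := by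
      rw [← pow_succ, Nat.sub_add_cancel hp.one_le, h, one_mul]
    exact mul_right_cancel₀ s.ne_zero h2
  have h3 := s.ord (p - 1) (Nat.sub_pos_of_lt hp.one_lt) h1
  have h4 : p < p ^ 2 := by
    calc p = p ^ 1 := (pow_one p).symm
      _ < p ^ 2 := Nat.pow_lt_pow_right hp.one_lt (by norm_num)
  have h5 := hp.one_lt
  generalize p ^ 2 = q at h3 h4
  omega

/-- The diagonal of `ρbar σ` for `σ` in inertia. -/
noncomputable def dg (σ : GQ) : Fin 2 → k := ![s.ψ σ, s.ψ σ ^ p]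

theorem mat_rho {σ : GQ} (hσ : σ ∈ Ip p) : mat s.b (ρbar.ρ σ) = Matrix.diagonal (dg s σ) := by
  ext i j
  rw [mat_apply]
  fin_cases j
  · show s.b.repr (ρbar.ρ σ (s.b 0)) i = _
    rw [s.diag0 σ hσ, map_smul, Finsupp.smul_apply, s.b.repr_self]
    fin_cases i <;> simp [dg, Matrix.diagonal]
  · show s.b.repr (ρbar.ρ σ (s.b 1)) i = _
    rw [s.diag1 σ hσ, map_smul, Finsupp.smul_apply, s.b.repr_self]
    fin_cases i <;> simp [dg, Matrix.diagonal]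

theorem dg_inv {σ : GQ} (hσ : σ ∈ Ip p) (j : Fin 2) : dg s σ⁻¹ j = (dg s σ j)⁻¹ := by
  fin_cases j
  · show s.ψ σ⁻¹ = (s.ψ σ)⁻¹
    exact psi_inv s hσ
  · show s.ψ σ⁻¹ ^ p = (s.ψ σ ^ p)⁻¹
    rw [psi_inv s hσ, inv_pow]

/-- The entries of a conjugate by an inertia element. -/
theorem mat_conj {σ : GQ} (hσ : σ ∈ Ip p) (X : Module.End k ρbar.V) (i j : Fin 2) :
    mat s.b (ρbar.ρ σ * X * ρbar.ρ σ⁻¹) i j = dg s σ i * mat s.b X i j * (dg s σ j)⁻¹ := by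
  rw [mat_mul, mat_mul, mat_rho s hσ, mat_rho s (Subgroup.inv_mem _ hσ), Matrix.mul_diagonal,
    Matrix.diagonal_mul, dg_inv s hσ]

theorem rho_eq_one_of_mem_I1 {γ : GQ} (hγ : γ ∈ I1 s) : ρbar.ρ γ = 1 := by
  apply mat_injective s.b
  rw [mat_rho s hγ.1, mat_one]
  ext i j
  fin_cases i <;> fin_cases j <;> simp [dg, Matrix.diagonal, hγ.2]

theorem mem_I1_of_rho_eq_one {γ : GQ} (hγ : γ ∈ Ip p) (h : ρbar.ρ γ = 1) : γ ∈ I1 s := by
  refine ⟨hγ, ?_⟩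
  have h1 := s.diag0 γ hγ
  rw [h, Module.End.one_apply] at h1
  have h2 : (1 : k) • s.b 0 = s.ψ γ • s.b 0 := by rw [one_smul]; exact h1
  exact (smul_left_injective k (b0_ne_zero s) h2).symm

end Psi

/-! ### Cocycles of `ad⁰ρbar` -/

section Coc

variable (ρbar)

theorem coc_mul (d : ↥(Z1 levelsAll (ad0 ρbar))) (σ τ : GQ) :
    (d : GQ → ad0 ρbar) (σ * τ) =
      (ad0 ρbar).ρ σ ((d : GQ → ad0 ρbar) τ) + (d : GQ → ad0 ρbar) σ :=
  (groupCohomology.mem_cocycles₁_iff (d : GQ → ad0 ρbar)).mp d.2.1 σ τ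

theorem coc_one (d : ↥(Z1 levelsAll (ad0 ρbar))) : (d : GQ → ad0 ρbar) 1 = 0 := by
  have h := coc_mul ρbar d 1 1
  rw [mul_one, map_one, Module.End.one_apply] at h
  exact left_eq_add.mp h

/-- The coboundary of `m` as a smooth cocycle. -/
noncomputable def cobZ (m : ad0 ρbar) : ↥(Z1 levelsAll (ad0 ρbar)) :=
  ⟨δ0 (ad0 ρbar) m, groupCohomology.d₀₁_apply_mem_cocycles₁ _,
    isLC₁_δ0 (isSmooth_ad0_all ρbar) _⟩

theorem cobZ_apply (m : ad0 ρbar) (σ : GQ) :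
    (cobZ ρbar m : GQ → ad0 ρbar) σ = (ad0 ρbar).ρ σ m - m := rfl

theorem sub_apply_Z1 (d d' : ↥(Z1 levelsAll (ad0 ρbar))) (σ : GQ) :
    ((d - d' : ↥(Z1 levelsAll (ad0 ρbar))) : GQ → ad0 ρbar) σ =
      (d : GQ → ad0 ρbar) σ - (d' : GQ → ad0 ρbar) σ := rfl

/-- The zero set of a cocycle is closed under products. -/
theorem coc_zero_mul (d : ↥(Z1 levelsAll (ad0 ρbar))) {σ τ : GQ}
    (hσ : (d : GQ → ad0 ρbar) σ = 0) (hτ : (d : GQ → ad0 ρbar) τ = 0) :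
    (d : GQ → ad0 ρbar) (σ * τ) = 0 := by
  rw [coc_mul, hσ, hτ, map_zero, add_zero]

theorem coc_zero_pow (d : ↥(Z1 levelsAll (ad0 ρbar))) {σ : GQ}
    (hσ : (d : GQ → ad0 ρbar) σ = 0) (n : ℕ) : (d : GQ → ad0 ρbar) (σ ^ n) = 0 := by
  induction n with
  | zero => rw [pow_zero]; exact coc_one ρbar d
  | succ n ih => rw [pow_succ]; exact coc_zero_mul ρbar d ih hσ

/-- An element of `ad⁰ρbar` from a trace-zero matrix. -/
noncomputable def ofMat (b : Module.Basis (Fin 2) k ρbar.V) (M : Matrix (Fin 2) (Fin 2) k)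
    (hM : M.trace = 0) : ad0 ρbar :=
  (⟨(LinearMap.toMatrix b b).symm M, by
    show LinearMap.trace k ρbar.V ((LinearMap.toMatrix b b).symm M) = 0
    rw [LinearMap.trace_eq_matrix_trace k b, LinearEquiv.apply_symm_apply, hM]⟩ :
      ↥(ad0Sub ρbar))

theorem mat_ofMat (b : Module.Basis (Fin 2) k ρbar.V) (M : Matrix (Fin 2) (Fin 2) k)
    (hM : M.trace = 0) : mat b (toEnd ρbar (ofMat ρbar b M hM)) = M :=
  LinearEquiv.apply_symm_apply _ _

theorem mat_trace (b : Module.Basis (Fin 2) k ρbar.V) (x : ad0 ρbar) :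
    mat b (toEnd ρbar x) 0 0 + mat b (toEnd ρbar x) 1 1 = 0 := by
  have h := trace_toEnd ρbar x
  rw [LinearMap.trace_eq_matrix_trace k b, Matrix.trace_fin_two] at h
  exact h

theorem ad0_ext (b : Module.Basis (Fin 2) k ρbar.V) {x y : ad0 ρbar}
    (h : ∀ i j, mat b (toEnd ρbar x) i j = mat b (toEnd ρbar y) i j) : x = y := by
  apply toEnd_injective ρbar
  apply mat_injective b
  ext i j
  exact h i j

theorem mat_toEnd_sub (b : Module.Basis (Fin 2) k ρbar.V) (x y : ad0 ρbar) (i j : Fin 2) :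
    mat b (toEnd ρbar (x - y)) i j = mat b (toEnd ρbar x) i j - mat b (toEnd ρbar y) i j := by
  rw [map_sub, mat, map_sub, Matrix.sub_apply]

theorem mat_toEnd_add (b : Module.Basis (Fin 2) k ρbar.V) (x y : ad0 ρbar) (i j : Fin 2) :
    mat b (toEnd ρbar (x + y)) i j = mat b (toEnd ρbar x) i j + mat b (toEnd ρbar y) i j := by
  rw [map_add, mat, map_add, Matrix.add_apply]

theorem mat_toEnd_zero (b : Module.Basis (Fin 2) k ρbar.V) (i j : Fin 2) :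
    mat b (toEnd ρbar (0 : ad0 ρbar)) i j = 0 := by
  rw [map_zero, mat, map_zero, Matrix.zero_apply]

end Coc

/-! ### The action of inertia on `ad⁰ρbar` in coordinates -/

section Act

variable (s : SSStruct p ρbar)

theorem mat_act {σ : GQ} (hσ : σ ∈ Ip p) (x : ad0 ρbar) (i j : Fin 2) :
    mat s.b (toEnd ρbar ((ad0 ρbar).ρ σ x)) i j =
      dg s σ i * mat s.b (toEnd ρbar x) i j * (dg s σ j)⁻¹ := by
  rw [toEnd_ρ]
  exact mat_conj s hσ _ i j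

theorem dg_ne_zero {σ : GQ} (hσ : σ ∈ Ip p) (i : Fin 2) : dg s σ i ≠ 0 := by
  fin_cases i
  · exact psi_ne_zero s hσ
  · exact pow_ne_zero _ (psi_ne_zero s hσ)

theorem act_of_mem_I1 {γ : GQ} (hγ : γ ∈ I1 s) (x : ad0 ρbar) : (ad0 ρbar).ρ γ x = x := by
  apply toEnd_injective ρbar
  rw [toEnd_ρ, rho_eq_one_of_mem_I1 s hγ]
  have h2 : ρbar.ρ γ⁻¹ = 1 := by
    have := ρ_mul_inv ρbar γ
    rwa [rho_eq_one_of_mem_I1 s hγ, one_mul] at this
  rw [h2, one_mul, mul_one]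

/-- Every inertia element is a power of `τ` times an element of `I₁`. -/
theorem exists_pow_mul_I1 {σ : GQ} (hσ : σ ∈ Ip p) :
    ∃ (n : ℕ) (γ : GQ), γ ∈ I1 s ∧ σ = s.τ ^ n * γ := by
  obtain ⟨n, hn⟩ := s.gen σ hσ
  have hτn : s.τ ^ n ∈ Ip p := Subgroup.pow_mem _ s.τ_mem n
  refine ⟨n, (s.τ ^ n)⁻¹ * σ, ⟨Subgroup.mul_mem _ (Subgroup.inv_mem _ hτn) hσ, ?_⟩, ?_⟩
  · rw [psi_mul s (Subgroup.inv_mem _ hτn) hσ, psi_inv s hτn, psi_pow s s.τ_mem, hn]
    exact inv_mul_cancel₀ (pow_ne_zero _ s.ne_zero)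
  · rw [mul_inv_cancel_left]

theorem tau_pow_N_mem_I1 : s.τ ^ (p ^ 2 - 1) ∈ I1 s :=
  ⟨Subgroup.pow_mem _ s.τ_mem _, by rw [psi_pow s s.τ_mem, psi_pow_N s s.τ_mem]⟩

end Act

/-! ### Step 1: the inertia group -/

section Inertia

variable (s : SSStruct p ρbar)

theorem natCast_N (hpk : (p : k) = 0) : ((p ^ 2 - 1 : ℕ) : k) = -1 := by
  rw [Nat.cast_sub one_le_p_sq, Nat.cast_pow, hpk]
  simp

theorem mat_pow_diag (d : ↥(Z1 levelsAll (ad0 ρbar))) (n : ℕ) :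
    mat s.b (toEnd ρbar ((d : GQ → ad0 ρbar) (s.τ ^ n))) 0 0 =
      n * mat s.b (toEnd ρbar ((d : GQ → ad0 ρbar) s.τ)) 0 0 := by
  induction n with
  | zero =>
    rw [pow_zero, coc_one, mat_toEnd_zero, Nat.cast_zero, zero_mul]
  | succ n ih =>
    rw [pow_succ, coc_mul, mat_toEnd_add, ih, mat_act s (Subgroup.pow_mem _ s.τ_mem n),
      Nat.cast_succ]
    have h := dg_ne_zero s (Subgroup.pow_mem _ s.τ_mem n) 0
    field_simp
    ring

/-- **Step 1**: a cocycle vanishing on `I₁` is a coboundary on the inertia group. -/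
theorem exists_cob_inertia (hpk : (p : k) = 0) (d : ↥(Z1 levelsAll (ad0 ρbar)))
    (h0 : ∀ γ ∈ I1 s, (d : GQ → ad0 ρbar) γ = 0) :
    ∃ m₀ : ad0 ρbar, ∀ σ ∈ Ip p, (d : GQ → ad0 ρbar) σ = (ad0 ρbar).ρ σ m₀ - m₀ := by
  set a : k := s.ψ s.τ with ha
  have ha0 : a ≠ 0 := s.ne_zero
  have hap : a ^ p ≠ a := a_pow_ne s
  have hap0 : a ^ p ≠ 0 := pow_ne_zero _ ha0
  set X : Matrix (Fin 2) (Fin 2) k := mat s.b (toEnd ρbar ((d : GQ → ad0 ρbar) s.τ)) with hX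
  have hX00 : X 0 0 = 0 := by
    have h1 := mat_pow_diag s d (p ^ 2 - 1)
    rw [h0 _ (tau_pow_N_mem_I1 s), mat_toEnd_zero, natCast_N hpk] at h1
    have h2 : -X 0 0 = 0 := by rw [← h1.symm]; ring
    exact neg_eq_zero.mp h2
  have hX11 : X 1 1 = 0 := by
    have h := mat_trace ρbar s.b ((d : GQ → ad0 ρbar) s.τ)
    rw [← hX, hX00, zero_add] at h
    exact h
  have hc1 : a * (a ^ p)⁻¹ - 1 ≠ 0 := by
    intro h
    apply hap
    have h2 : a * (a ^ p)⁻¹ = 1 := sub_eq_zero.mp h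
    field_simp at h2
    exact h2.symm
  have hc2 : a ^ p * a⁻¹ - 1 ≠ 0 := by
    intro h
    apply hap
    have h2 : a ^ p * a⁻¹ = 1 := sub_eq_zero.mp h
    field_simp at h2
    exact h2
  set M : Matrix (Fin 2) (Fin 2) k :=
    !![0, X 0 1 / (a * (a ^ p)⁻¹ - 1); X 1 0 / (a ^ p * a⁻¹ - 1), 0] with hM
  have hMtr : M.trace = 0 := by
    rw [Matrix.trace_fin_two, hM]
    simp
  set m₀ : ad0 ρbar := ofMat ρbar s.b M hMtr with hm₀
  have hτ : (d : GQ → ad0 ρbar) s.τ = (ad0 ρbar).ρ s.τ m₀ - m₀ := by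
    apply ad0_ext ρbar s.b
    intro i j
    rw [mat_toEnd_sub, mat_act s s.τ_mem, hm₀, mat_ofMat, ← hX]
    fin_cases i <;> fin_cases j
    · show X 0 0 = a * M 0 0 * a⁻¹ - M 0 0
      rw [hX00, hM]
      simp
    · show X 0 1 = a * M 0 1 * (a ^ p)⁻¹ - M 0 1
      rw [hM]
      simp only [Matrix.of_apply, Matrix.cons_val', Matrix.cons_val_zero, Matrix.cons_val_one,
        Matrix.cons_val_fin_one]
      field_simp
    · show X 1 0 = a ^ p * M 1 0 * a⁻¹ - M 1 0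
      rw [hM]
      simp only [Matrix.of_apply, Matrix.cons_val', Matrix.cons_val_zero, Matrix.cons_val_one,
        Matrix.cons_val_fin_one]
      field_simp
    · show X 1 1 = a ^ p * M 1 1 * (a ^ p)⁻¹ - M 1 1
      rw [hX11, hM]
      simp
  refine ⟨m₀, fun σ hσ => ?_⟩
  set D : ↥(Z1 levelsAll (ad0 ρbar)) := d - cobZ ρbar m₀ with hD
  have hDτ : (D : GQ → ad0 ρbar) s.τ = 0 := by
    rw [hD, sub_apply_Z1, cobZ_apply, hτ, sub_self]
  have hDγ : ∀ γ ∈ I1 s, (D : GQ → ad0 ρbar) γ = 0 := by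
    intro γ hγ
    rw [hD, sub_apply_Z1, cobZ_apply, h0 γ hγ, act_of_mem_I1 s hγ, sub_self, sub_self]
  obtain ⟨n, γ, hγ, rfl⟩ := exists_pow_mul_I1 s hσ
  have h := coc_zero_mul ρbar D (coc_zero_pow ρbar D hDτ n) (hDγ γ hγ)
  rw [hD, sub_apply_Z1, cobZ_apply] at h
  exact sub_eq_zero.mp h

end Inertia

/-! ### Step 2: a Frobenius element -/

section Frob

variable (s : SSStruct p ρbar)

include s in
theorem rho_pow_N {σ : GQ} (hσ : σ ∈ Ip p) : ρbar.ρ σ ^ (p ^ 2 - 1) = 1 := by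
  rw [← map_pow]
  apply mat_injective s.b
  rw [mat_rho s (Subgroup.pow_mem _ hσ _), mat_one]
  ext i j
  fin_cases i <;> fin_cases j <;>
    simp [dg, Matrix.diagonal, psi_pow s hσ, psi_pow_N s hσ]

theorem isOpen_ker_toHomUnits : IsOpen ((ρbar.ρ.toHomUnits).ker : Set GQ) := by
  obtain ⟨F, hF, -, hU⟩ := ker_mem_levelsAll ρbar
  have := hF
  have hker : (ρbar.ρ.toHomUnits).ker = ρbar.ρ.ker := by
    ext σ
    rw [MonoidHom.mem_ker, MonoidHom.mem_ker]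
    constructor
    · intro h
      have := congrArg Units.val h
      simpa using this
    · intro h
      apply Units.ext
      simpa using h
  rw [hker, hU]
  exact IntermediateField.fixingSubgroup_isOpen F

/-- Tame inertia: a Frobenius element conjugates `ρbar τ` into its `p`-th power. -/
theorem rho_frob_conj {Φ : GQ} (hΦ : (Pp p).IsFrobeniusAt Φ p) :
    ρbar.ρ Φ * ρbar.ρ s.τ = ρbar.ρ s.τ ^ p * ρbar.ρ Φ := by
  have hp : p.Prime := Fact.out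
  have hcop : ∀ σ ∈ (Pp p).inertiaSubgroupIn ℚ,
      (orderOf (ρbar.ρ.toHomUnits σ)).Coprime p := by
    intro σ hσ
    have h1 : ρbar.ρ.toHomUnits σ ^ (p ^ 2 - 1) = 1 := by
      apply Units.ext
      rw [Units.val_pow_eq_pow_val, Units.val_one]
      exact rho_pow_N s hσ
    have h2 := orderOf_dvd_of_pow_eq_one h1
    have h3 : (p ^ 2 - 1).Coprime p := by
      rw [Nat.coprime_comm, Nat.Prime.coprime_iff_not_dvd hp]
      intro hdvd
      have h4 : p ∣ p ^ 2 := dvd_pow_self p (by norm_num)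
      have h5 : p ∣ 1 := by
        have := (Nat.dvd_sub h4 hdvd)
        rwa [Nat.sub_sub_self one_le_p_sq] at this
      exact hp.one_lt.ne' (Nat.dvd_one.mp h5)
    exact Nat.Coprime.coprime_dvd_left h2 h3
  have h := (Fermat.Agent.TameInertia.tame_inertia (ρbar.ρ.toHomUnits) isOpen_ker_toHomUnits p hp
    (Pp p) (primeLocalPlace_liesOverPrime (pPrime p)) hcop).2 Φ hΦ s.τ s.τ_mem
  have h2 := congrArg Units.val h
  rw [Units.val_pow_eq_pow_val] at h2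
  have h3 : ρbar.ρ (Φ * s.τ * Φ⁻¹) = ρbar.ρ s.τ ^ p := h2
  have h4 : ρbar.ρ Φ * ρbar.ρ s.τ = ρbar.ρ (Φ * s.τ * Φ⁻¹) * ρbar.ρ Φ := by
    rw [← map_mul, ← map_mul, inv_mul_cancel_right]
  rw [h4, h3]

/-- A Frobenius element swaps the eigenlines of inertia. -/
theorem rho_frob_antidiag {Φ : GQ} (hΦ : (Pp p).IsFrobeniusAt Φ p) :
    mat s.b (ρbar.ρ Φ) 0 0 = 0 ∧ mat s.b (ρbar.ρ Φ) 1 1 = 0 := by
  set a : k := s.ψ s.τ with ha
  have hap : a ^ p ≠ a := a_pow_ne s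
  have h := congrArg (mat s.b) (rho_frob_conj s hΦ)
  rw [mat_mul, mat_mul, ← map_pow, mat_rho s s.τ_mem,
    mat_rho s (Subgroup.pow_mem _ s.τ_mem p)] at h
  have e00 := congrFun (congrFun h 0) 0
  have e11 := congrFun (congrFun h 1) 1
  rw [Matrix.mul_diagonal, Matrix.diagonal_mul] at e00 e11
  have d0 : dg s s.τ 0 = a := rfl
  have d1 : dg s s.τ 1 = a ^ p := rfl
  have d0' : dg s (s.τ ^ p) 0 = a ^ p := by
    show s.ψ (s.τ ^ p) = a ^ p
    rw [psi_pow s s.τ_mem]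
  have d1' : dg s (s.τ ^ p) 1 = a := by
    show s.ψ (s.τ ^ p) ^ p = a
    rw [psi_pow s s.τ_mem, ← pow_mul, ← pow_two]
    exact s.fp2 s.τ s.τ_mem
  rw [d0, d0'] at e00
  rw [d1, d1'] at e11
  constructor
  · have h1 : mat s.b (ρbar.ρ Φ) 0 0 * (a ^ p - a) = 0 := by
      rw [mul_sub, mul_comm _ (a ^ p), ← e00, sub_self]
    rcases mul_eq_zero.mp h1 with h2 | h2
    · exact h2
    · exact absurd (sub_eq_zero.mp h2) hap
  · have h1 : mat s.b (ρbar.ρ Φ) 1 1 * (a ^ p - a) = 0 := by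
      rw [mul_sub, e11, mul_comm, sub_self]
    rcases mul_eq_zero.mp h1 with h2 | h2
    · exact h2
    · exact absurd (sub_eq_zero.mp h2) hap

theorem two_ne_zero_of_char (hp2 : p ≠ 2) (hpk : (p : k) = 0) : (2 : k) ≠ 0 := by
  have hp : p.Prime := Fact.out
  intro h2
  rcases hp.eq_two_or_odd with h | h
  · exact hp2 h
  · have h3 : p = 2 * (p / 2) + 1 := by omega
    have h4 : (p : k) = 2 * ((p / 2 : ℕ) : k) + 1 := by
      conv_lhs => rw [h3]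
      push_cast
      ring
    rw [hpk, h2, zero_mul, zero_add] at h4
    exact zero_ne_one h4

theorem conj_tau_mem {Φ : GQ} (hΦ : (Pp p).IsFrobeniusAt Φ p) : Φ⁻¹ * s.τ * Φ ∈ Ip p := by
  have hD : Φ⁻¹ ∈ (Pp p).decompositionSubgroup ℚ :=
    Subgroup.inv_mem _ hΦ.mem_decompositionSubgroup
  have h := Fermat.Agent.KFin.kf_conj_mem_inertiaSubgroupIn (K := ℚ) (Pp p) Φ⁻¹ s.τ s.τ_mem
  rw [inv_inv] at h
  have h2 : Φ⁻¹ • Pp p = Pp p := hD
  rwa [h2] at h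

include s in
/-- **Step 2**: a cocycle vanishing on inertia is, at a Frobenius element, the coboundary of an
inertia-invariant element. -/
theorem exists_cob_frob (hp2 : p ≠ 2) (hpk : (p : k) = 0) (d : ↥(Z1 levelsAll (ad0 ρbar)))
    (hI : ∀ σ ∈ Ip p, (d : GQ → ad0 ρbar) σ = 0) {Φ : GQ} (hΦ : (Pp p).IsFrobeniusAt Φ p) :
    ∃ m₁ : ad0 ρbar, (∀ σ ∈ Ip p, (ad0 ρbar).ρ σ m₁ = m₁) ∧
      (d : GQ → ad0 ρbar) Φ = (ad0 ρbar).ρ Φ m₁ - m₁ := by
  set a : k := s.ψ s.τ with ha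
  have ha0 : a ≠ 0 := s.ne_zero
  have hap : a ^ p ≠ a := a_pow_ne s
  have hap0 : a ^ p ≠ 0 := pow_ne_zero _ ha0
  have h2k : (2 : k) ≠ 0 := two_ne_zero_of_char hp2 hpk
  -- invariance of `d Φ` under `τ`
  have hinv : (ad0 ρbar).ρ s.τ ((d : GQ → ad0 ρbar) Φ) = (d : GQ → ad0 ρbar) Φ := by
    have h1 := coc_mul ρbar d Φ (Φ⁻¹ * s.τ * Φ)
    rw [hI _ (conj_tau_mem s hΦ), map_zero, zero_add] at h1
    have h2 := coc_mul ρbar d s.τ Φ
    rw [hI _ s.τ_mem, add_zero] at h2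
    have e : Φ * (Φ⁻¹ * s.τ * Φ) = s.τ * Φ := by group
    rw [e] at h1
    rw [← h2, h1]
  set Y : Matrix (Fin 2) (Fin 2) k := mat s.b (toEnd ρbar ((d : GQ → ad0 ρbar) Φ)) with hY
  have hY01 : Y 0 1 = 0 := by
    have h := mat_act s s.τ_mem ((d : GQ → ad0 ρbar) Φ) 0 1
    rw [hinv, ← hY] at h
    have d0 : dg s s.τ 0 = a := rfl
    have d1 : dg s s.τ 1 = a ^ p := rfl
    rw [d0, d1] at h
    have h1 : Y 0 1 * (a ^ p - a) = 0 := by
      field_simp at h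
      linear_combination h
    rcases mul_eq_zero.mp h1 with h2 | h2
    · exact h2
    · exact absurd (sub_eq_zero.mp h2) hap
  have hY10 : Y 1 0 = 0 := by
    have h := mat_act s s.τ_mem ((d : GQ → ad0 ρbar) Φ) 1 0
    rw [hinv, ← hY] at h
    have d0 : dg s s.τ 0 = a := rfl
    have d1 : dg s s.τ 1 = a ^ p := rfl
    rw [d0, d1] at h
    have h1 : Y 1 0 * (a ^ p - a) = 0 := by
      field_simp at h
      linear_combination -h
    rcases mul_eq_zero.mp h1 with h2 | h2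
    · exact h2
    · exact absurd (sub_eq_zero.mp h2) hap
  have hY11 : Y 1 1 = -Y 0 0 := by
    have h := mat_trace ρbar s.b ((d : GQ → ad0 ρbar) Φ)
    rw [← hY] at h
    linear_combination h
  set M : Matrix (Fin 2) (Fin 2) k := !![-(Y 0 0 / 2), 0; 0, Y 0 0 / 2] with hM
  have hMtr : M.trace = 0 := by
    rw [Matrix.trace_fin_two, hM]
    simp
  have hM00 : M 0 0 = -(Y 0 0 / 2) := rfl
  have hM01 : M 0 1 = 0 := rfl
  have hM10 : M 1 0 = 0 := rfl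
  have hM11 : M 1 1 = Y 0 0 / 2 := rfl
  set m₁ : ad0 ρbar := ofMat ρbar s.b M hMtr with hm₁
  refine ⟨m₁, fun σ hσ => ?_, ?_⟩
  · apply ad0_ext ρbar s.b
    intro i j
    rw [mat_act s hσ, hm₁, mat_ofMat]
    have hi := dg_ne_zero s hσ
    fin_cases i <;> fin_cases j
    · show dg s σ 0 * M 0 0 * (dg s σ 0)⁻¹ = M 0 0
      have := hi 0
      field_simp
    · show dg s σ 0 * M 0 1 * (dg s σ 1)⁻¹ = M 0 1
      rw [hM01]; simp
    · show dg s σ 1 * M 1 0 * (dg s σ 0)⁻¹ = M 1 0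
      rw [hM10]; simp
    · show dg s σ 1 * M 1 1 * (dg s σ 1)⁻¹ = M 1 1
      have := hi 1
      field_simp
  · obtain ⟨hF00, hF11⟩ := rho_frob_antidiag s hΦ
    set F : Matrix (Fin 2) (Fin 2) k := mat s.b (ρbar.ρ Φ) with hF
    set G : Matrix (Fin 2) (Fin 2) k := mat s.b (ρbar.ρ Φ⁻¹) with hG
    have hFG : F * G = 1 := by rw [hF, hG, ← mat_mul, ρ_mul_inv, mat_one]
    have e00 := congrFun (congrFun hFG 0) 0
    have e01 := congrFun (congrFun hFG 0) 1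
    have e10 := congrFun (congrFun hFG 1) 0
    have e11 := congrFun (congrFun hFG 1) 1
    rw [mul_apply_two] at e00 e01 e10 e11
    simp only [hF00, hF11, zero_mul, zero_add, add_zero, Matrix.one_apply_eq,
      Matrix.one_apply_ne, ne_eq, one_ne_zero, zero_ne_one, not_false_eq_true] at e00 e01 e10 e11
    have hF01 : F 0 1 ≠ 0 := by
      intro h; rw [h, zero_mul] at e00; exact zero_ne_one e00
    have hF10 : F 1 0 ≠ 0 := by
      intro h; rw [h, zero_mul] at e11; exact zero_ne_one e11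
    have hG11 : G 1 1 = 0 := by
      rcases mul_eq_zero.mp e01 with h | h
      · exact absurd h hF01
      · exact h
    have hG00 : G 0 0 = 0 := by
      rcases mul_eq_zero.mp e10 with h | h
      · exact absurd h hF10
      · exact h
    have hhalf : Y 0 0 / 2 + Y 0 0 / 2 = Y 0 0 := by
      field_simp
      ring
    apply ad0_ext ρbar s.b
    intro i j
    rw [mat_toEnd_sub, toEnd_ρ, mat_mul, mat_mul, hm₁, mat_ofMat, ← hY, ← hF, ← hG,
      mul_apply_two, mul_apply_two, mul_apply_two]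
    fin_cases i <;> fin_cases j
    · show Y 0 0 = (F 0 0 * M 0 0 + F 0 1 * M 1 0) * G 0 0 +
        (F 0 0 * M 0 1 + F 0 1 * M 1 1) * G 1 0 - M 0 0
      rw [hF00, hG00, hM00, hM01, hM10, hM11]
      linear_combination (-(Y 0 0 / 2)) * e00 - hhalf
    · show Y 0 1 = (F 0 0 * M 0 0 + F 0 1 * M 1 0) * G 0 1 +
        (F 0 0 * M 0 1 + F 0 1 * M 1 1) * G 1 1 - M 0 1
      rw [hF00, hG11, hM00, hM01, hM10, hM11, hY01]
      ring
    · show Y 1 0 = (F 1 0 * M 0 0 + F 1 1 * M 1 0) * G 0 0 +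
        (F 1 0 * M 0 1 + F 1 1 * M 1 1) * G 1 0 - M 1 0
      rw [hF11, hG00, hM00, hM01, hM10, hM11, hY10]
      ring
    · show Y 1 1 = (F 1 0 * M 0 0 + F 1 1 * M 1 0) * G 0 1 +
        (F 1 0 * M 0 1 + F 1 1 * M 1 1) * G 1 1 - M 1 1
      rw [hF11, hG11, hM00, hM01, hM10, hM11, hY11]
      linear_combination (Y 0 0 / 2) * e11 + hhalf

end Frob

/-! ### Step 3: the local group -/

section Local

variable (s : SSStruct p ρbar)

/-- A cocycle vanishing on inertia and at a Frobenius generator vanishes on the local group. -/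
theorem coc_zero_of_gen (d : ↥(Z1 levelsAll (ad0 ρbar))) (φ : Gp p)
    (hgen : ∀ U ∈ levelsAll.sets, ∀ g : Gp p, ∃ (n : ℕ) (τ : Gp p),
      locp p τ ∈ Ip p ∧ locp p (g⁻¹ * (φ ^ n * τ)) ∈ U)
    (hI : ∀ σ ∈ Ip p, (d : GQ → ad0 ρbar) σ = 0)
    (hφ : (d : GQ → ad0 ρbar) (locp p φ) = 0) (g : Gp p) :
    (d : GQ → ad0 ρbar) (locp p g) = 0 := by
  obtain ⟨U, hU, hlc⟩ := d.2.2
  obtain ⟨n, τ, hτ, hmem⟩ := hgen U hU g
  have h1 := hlc (locp p g) _ hmem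
  have e : locp p g * locp p (g⁻¹ * (φ ^ n * τ)) = locp p φ ^ n * locp p τ := by
    rw [← map_mul, mul_inv_cancel_left, map_mul, map_pow]
  rw [e] at h1
  rw [← h1]
  exact coc_zero_mul ρbar d (coc_zero_pow ρbar d hφ n) (hI _ hτ)

include s in
/-- **KN-COH**: a smooth cocycle of `ad⁰ρbar` vanishing on `I₁` is a coboundary on the local
Galois group at `p`. -/
theorem exists_cob_local (hp2 : p ≠ 2) (hpk : (p : k) = 0) (d : ↥(Z1 levelsAll (ad0 ρbar)))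
    (h0 : ∀ γ ∈ I1 s, (d : GQ → ad0 ρbar) γ = 0) :
    ∃ m : ad0 ρbar, ∀ g : Gp p,
      (d : GQ → ad0 ρbar) (locp p g) = (ad0 ρbar).ρ (locp p g) m - m := by
  obtain ⟨m₀, hm₀⟩ := exists_cob_inertia s hpk d h0
  obtain ⟨φ, hφ, hgen⟩ := Fermat.Agent.S56.TWGen.exists_frob_gen (pPrime p)
  set D₁ : ↥(Z1 levelsAll (ad0 ρbar)) := d - cobZ ρbar m₀ with hD₁
  have hD₁I : ∀ σ ∈ Ip p, (D₁ : GQ → ad0 ρbar) σ = 0 := by
    intro σ hσ
    rw [hD₁, sub_apply_Z1, cobZ_apply, hm₀ σ hσ, sub_self]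
  obtain ⟨m₁, hm₁I, hm₁Φ⟩ := exists_cob_frob s hp2 hpk D₁ hD₁I hφ
  set D₂ : ↥(Z1 levelsAll (ad0 ρbar)) := D₁ - cobZ ρbar m₁ with hD₂
  have hD₂I : ∀ σ ∈ Ip p, (D₂ : GQ → ad0 ρbar) σ = 0 := by
    intro σ hσ
    rw [hD₂, sub_apply_Z1, cobZ_apply, hD₁I σ hσ, hm₁I σ hσ, sub_self, sub_self]
  have hD₂Φ : (D₂ : GQ → ad0 ρbar) (locp p φ) = 0 := by
    rw [hD₂, sub_apply_Z1, cobZ_apply]
    exact sub_eq_zero.mpr hm₁Φ
  refine ⟨m₀ + m₁, fun g => ?_⟩
  have h := coc_zero_of_gen D₂ φ hgen hD₂I hD₂Φ g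
  rw [hD₂, sub_apply_Z1, hD₁, sub_apply_Z1, cobZ_apply, cobZ_apply] at h
  rw [map_add]
  have h' : (d : GQ → ad0 ρbar) (locp p g) =
      ((ad0 ρbar).ρ (locp p g) m₀ - m₀) + ((ad0 ρbar).ρ (locp p g) m₁ - m₁) := by
    rw [sub_sub] at h
    exact sub_eq_zero.mp h
  rw [h']
  abel

/-- **KN-COH**, class form: two smooth cocycles of `ad⁰ρbar` which agree on `I₁` have the same
local class at `p`. -/
theorem resLoc_eq_of_eq_on_I1 (hp2 : p ≠ 2) (hpk : (p : k) = 0)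
    (c c' : ↥(Z1 levelsAll (ad0 ρbar)))
    (h : ∀ γ ∈ I1 s, (c : GQ → ad0 ρbar) γ = (c' : GQ → ad0 ρbar) γ) :
    resLoc (ad0 ρbar) (pPrime p) (H1smπ levelsAll (ad0 ρbar) c) =
      resLoc (ad0 ρbar) (pPrime p) (H1smπ levelsAll (ad0 ρbar) c') := by
  obtain ⟨m, hm⟩ := exists_cob_local s hp2 hpk (c - c') (fun γ hγ => by
    rw [sub_apply_Z1, h γ hγ, sub_self])
  rw [← sub_eq_zero, ← map_sub, ← map_sub]
  show H1smπ (locLevelsAll (pPrime p)) (Mloc p ρbar)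
    (Z1res levelsAll (ad0 ρbar) (primeLocalToGlobal (pPrime p)) (c - c')) = 0
  rw [H1smπ, Submodule.mkQ_apply, Submodule.Quotient.mk_eq_zero, Submodule.mem_comap]
  refine ⟨m, ?_⟩
  funext g
  exact (hm g).symm

end Local

/-! ### Equivariance of the restriction to `I₁` (for the leading-coefficient map) -/

section Equiv

variable (s : SSStruct p ρbar)

/-- `I₁` is stable under conjugation by the decomposition group. -/
theorem conj_mem_I1 {g γ : GQ} (hg : g ∈ Dp p) (hγ : γ ∈ I1 s) : g * γ * g⁻¹ ∈ I1 s := by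
  have h := Fermat.Agent.KFin.kf_conj_mem_inertiaSubgroupIn (K := ℚ) (Pp p) g γ hγ.1
  have h2 : g • Pp p = Pp p := hg
  rw [h2] at h
  refine mem_I1_of_rho_eq_one s h ?_
  rw [map_mul, map_mul, rho_eq_one_of_mem_I1 s hγ, mul_one, ← map_mul, mul_inv_cancel, map_one]

/-- On `I₁` a cocycle is equivariant for conjugation: `d(g γ g⁻¹) = g · d(γ)`. -/
theorem coc_conj (d : ↥(Z1 levelsAll (ad0 ρbar))) (g : GQ) {γ : GQ} (hγ : γ ∈ I1 s) :
    (d : GQ → ad0 ρbar) (g * γ * g⁻¹) = (ad0 ρbar).ρ g ((d : GQ → ad0 ρbar) γ) := by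
  have h1 := coc_mul ρbar d (g * γ) g⁻¹
  have h2 := coc_mul ρbar d g γ
  have h3 := coc_mul ρbar d g g⁻¹
  rw [mul_inv_cancel, coc_one] at h3
  rw [h1, h2, map_mul, Module.End.mul_apply, act_of_mem_I1 s hγ]
  have h4 : (ad0 ρbar).ρ g ((d : GQ → ad0 ρbar) g⁻¹) = -(d : GQ → ad0 ρbar) g :=
    eq_neg_of_add_eq_zero_left h3.symm
  rw [h4]
  abel

/-- The entries of `d` on `I₁` are eigenfunctions for conjugation by inertia. -/
theorem ent_conj_inertia (d : ↥(Z1 levelsAll (ad0 ρbar))) {σ γ : GQ} (hσ : σ ∈ Ip p)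
    (hγ : γ ∈ I1 s) (i j : Fin 2) :
    ent s (fun g => ((d : GQ → ad0 ρbar) g : ↥(ad0Sub ρbar)).1) i j (σ * γ * σ⁻¹) =
      dg s σ i * ent s (fun g => ((d : GQ → ad0 ρbar) g : ↥(ad0Sub ρbar)).1) i j γ *
        (dg s σ j)⁻¹ := by
  have h := mat_act s hσ ((d : GQ → ad0 ρbar) γ) i j
  rw [← coc_conj s d σ hγ, mat_apply, mat_apply] at h
  exact h

/-- The action of a Frobenius element on `ad⁰ρbar` in coordinates: it swaps the diagonal entries
and exchanges the off-diagonal entries up to the factor `F₁₀ / F₀₁`, `F` the matrix of `ρbar Φ`. -/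
theorem mat_act_frob {Φ : GQ} (hΦ : (Pp p).IsFrobeniusAt Φ p) (x : ad0 ρbar) :
    mat s.b (ρbar.ρ Φ) 0 1 ≠ 0 ∧ mat s.b (ρbar.ρ Φ) 1 0 ≠ 0 ∧
    mat s.b (toEnd ρbar ((ad0 ρbar).ρ Φ x)) 0 0 = mat s.b (toEnd ρbar x) 1 1 ∧
    mat s.b (toEnd ρbar ((ad0 ρbar).ρ Φ x)) 1 1 = mat s.b (toEnd ρbar x) 0 0 ∧
    mat s.b (toEnd ρbar ((ad0 ρbar).ρ Φ x)) 0 1 * mat s.b (ρbar.ρ Φ) 1 0 =
      mat s.b (ρbar.ρ Φ) 0 1 * mat s.b (toEnd ρbar x) 1 0 ∧
    mat s.b (toEnd ρbar ((ad0 ρbar).ρ Φ x)) 1 0 * mat s.b (ρbar.ρ Φ) 0 1 =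
      mat s.b (ρbar.ρ Φ) 1 0 * mat s.b (toEnd ρbar x) 0 1 := by
  obtain ⟨hF00, hF11⟩ := rho_frob_antidiag s hΦ
  set F : Matrix (Fin 2) (Fin 2) k := mat s.b (ρbar.ρ Φ) with hF
  set G : Matrix (Fin 2) (Fin 2) k := mat s.b (ρbar.ρ Φ⁻¹) with hG
  set X : Matrix (Fin 2) (Fin 2) k := mat s.b (toEnd ρbar x) with hX
  have hFG : F * G = 1 := by rw [hF, hG, ← mat_mul, ρ_mul_inv, mat_one]
  have e00 := congrFun (congrFun hFG 0) 0
  have e01 := congrFun (congrFun hFG 0) 1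
  have e10 := congrFun (congrFun hFG 1) 0
  have e11 := congrFun (congrFun hFG 1) 1
  rw [mul_apply_two] at e00 e01 e10 e11
  simp only [hF00, hF11, zero_mul, zero_add, add_zero, Matrix.one_apply_eq,
    Matrix.one_apply_ne, ne_eq, one_ne_zero, zero_ne_one, not_false_eq_true] at e00 e01 e10 e11
  have hF01 : F 0 1 ≠ 0 := by
    intro h; rw [h, zero_mul] at e00; exact zero_ne_one e00
  have hF10 : F 1 0 ≠ 0 := by
    intro h; rw [h, zero_mul] at e11; exact zero_ne_one e11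
  have hG11 : G 1 1 = 0 := by
    rcases mul_eq_zero.mp e01 with h | h
    · exact absurd h hF01
    · exact h
  have hG00 : G 0 0 = 0 := by
    rcases mul_eq_zero.mp e10 with h | h
    · exact absurd h hF10
    · exact h
  have key : ∀ i j, mat s.b (toEnd ρbar ((ad0 ρbar).ρ Φ x)) i j =
      (F i 0 * X 0 0 + F i 1 * X 1 0) * G 0 j + (F i 0 * X 0 1 + F i 1 * X 1 1) * G 1 j := by
    intro i j
    rw [toEnd_ρ, mat_mul, mat_mul, ← hF, ← hG, ← hX, mul_apply_two, mul_apply_two,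
      mul_apply_two]
  refine ⟨hF01, hF10, ?_, ?_, ?_, ?_⟩
  · rw [key, hF00, hG00]
    linear_combination (X 1 1) * e00
  · rw [key, hF11, hG11]
    linear_combination (X 0 0) * e11
  · rw [key, hF00, hG11]
    linear_combination (F 0 1 * X 1 0) * e11
  · rw [key, hF11, hG00]
    linear_combination (F 1 0 * X 0 1) * e00

end Equiv

end Fermat.Agent.S56.SS.KNCoh
end MergeWrap_S56_W4_C_KN_Coh
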