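import Mathlib
import Fermat.Agent.MU.S56.W4.C.Defs

section MergeWrap_Lib_FFL_FB_SemiFix -- from Lib/FFL/FB/SemiFix.lean

set_option autoImplicit false

namespace Fermat.Agent.FFL.FB

open Polynomial

/-- The solutions of `x ^ q = x` in a field: at most `q` of them. -/
theorem semiFix_roots_finite {κ : Type*} [Field κ] (q : ℕ) (hq : 2 ≤ q) :
    {x : κ | x ^ q = x}.Finite ∧ {x : κ | x ^ q = x}.ncard ≤ q := by
  classical
  have hne : (X ^ q - X : κ[X]) ≠ 0 := by
    intro h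
    have h1 := congrArg (fun f : κ[X] => f.coeff q) h
    simp only [coeff_sub, coeff_X_pow, coeff_X, coeff_zero] at h1
    rw [if_pos trivial, if_neg (by omega)] at h1
    simp at h1
  have hdeg : (X ^ q - X : κ[X]).natDegree ≤ q := by
    refine (natDegree_sub_le _ _).trans ?_
    rw [natDegree_X_pow, natDegree_X]
    exact max_le le_rfl (by omega)
  have hsub : {x : κ | x ^ q = x} ⊆ ((X ^ q - X : κ[X]).roots.toFinset : Set κ) := by
    intro x hx
    rw [Finset.mem_coe, Multiset.mem_toFinset, mem_roots hne]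
    simp only [IsRoot, eval_sub, eval_pow, eval_X]
    have hx' : x ^ q = x := hx
    rw [hx', sub_self]
  refine ⟨(Finset.finite_toSet _).subset hsub, ?_⟩
  calc {x : κ | x ^ q = x}.ncard
      ≤ ((X ^ q - X : κ[X]).roots.toFinset : Set κ).ncard :=
        Set.ncard_le_ncard hsub (Finset.finite_toSet _)
    _ = (X ^ q - X : κ[X]).roots.toFinset.card := Set.ncard_coe_finset _
    _ ≤ Multiset.card (X ^ q - X : κ[X]).roots := Multiset.toFinset_card_le _
    _ ≤ (X ^ q - X : κ[X]).natDegree := card_roots' _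
    _ ≤ q := hdeg

variable {κ E : Type*} [Field κ] [AddCommGroup E] [Module κ E]

theorem semiFix_map_sum (q : ℕ) (T : E → E) (hadd : ∀ x y, T (x + y) = T x + T y)
    (hsemi : ∀ (a : κ) (e : E), T (a • e) = a ^ q • T e) {ι : Type*} (s : Finset ι) (c : ι → κ)
    (v : ι → E) : T (∑ i ∈ s, c i • v i) = ∑ i ∈ s, c i ^ q • T (v i) := by
  classical
  have h0 : T 0 = 0 := by
    have := hadd 0 0
    rw [add_zero] at this
    exact left_eq_add.mp this
  induction s using Finset.induction_on with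
  | empty => simpa using h0
  | insert a s ha ih =>
    rw [Finset.sum_insert ha, Finset.sum_insert ha, hadd, ih, hsemi]

/-- **Fixed points of a `q`-semilinear map**: at most `q ^ dim` of them. -/
theorem semiFix_ncard_le [FiniteDimensional κ E] (q : ℕ) (hq : 2 ≤ q) (T : E → E)
    (hadd : ∀ x y, T (x + y) = T x + T y)
    (hsemi : ∀ (a : κ) (e : E), T (a • e) = a ^ q • T e) :
    {e : E | T e = e}.Finite ∧ {e : E | T e = e}.ncard ≤ q ^ Module.finrank κ E := by
  classical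
  obtain ⟨b, hbF, hspan, hli⟩ := exists_linearIndependent κ {e : E | T e = e}
  have hbfin : b.Finite := hli.setFinite
  have : Fintype b := hbfin.fintype
  have hcard : Fintype.card b ≤ Module.finrank κ E := hli.fintype_card_le_finrank
  obtain ⟨hRfin, hRcard⟩ := semiFix_roots_finite (κ := κ) q hq
  have : Fintype {x : κ | x ^ q = x} := hRfin.fintype
  have hRcard' : Fintype.card {x : κ | x ^ q = x} ≤ q := by
    rw [← Nat.card_eq_fintype_card, Nat.card_coe_set_eq]
    exact hRcard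
  let Φ : (b → {x : κ | x ^ q = x}) → E := fun c => ∑ e : b, ((c e : κ)) • (e : E)
  have hsub : {e : E | T e = e} ⊆ Set.range Φ := by
    intro f hf
    have hfspan : f ∈ Submodule.span κ (Set.range ((↑) : b → E)) := by
      rw [Subtype.range_coe, hspan]
      exact Submodule.subset_span hf
    obtain ⟨c, hc⟩ := (Submodule.mem_span_range_iff_exists_fun κ).1 hfspan
    have hTf : T f = ∑ e : b, c e ^ q • (e : E) := by
      rw [← hc, semiFix_map_sum q T hadd hsemi]
      refine Finset.sum_congr rfl fun e _ => ?_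
      rw [show T (e : E) = e from hbF e.2]
    have hzero : ∑ e : b, (c e ^ q - c e) • (e : E) = 0 := by
      simp only [sub_smul, Finset.sum_sub_distrib]
      rw [← hTf, hc, hf, sub_self]
    have hall := (Fintype.linearIndependent_iff.1 hli) (fun e => c e ^ q - c e) hzero
    refine ⟨fun e => ⟨c e, sub_eq_zero.1 (hall e)⟩, ?_⟩
    show ∑ e : b, c e • (e : E) = f
    exact hc
  have hfinR : (Set.range Φ).Finite := Set.finite_range Φ
  refine ⟨hfinR.subset hsub, ?_⟩
  calc {e : E | T e = e}.ncard ≤ (Set.range Φ).ncard := Set.ncard_le_ncard hsub hfinR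
    _ ≤ Nat.card (b → {x : κ | x ^ q = x}) := by
        rw [← Set.image_univ]
        calc (Φ '' Set.univ).ncard ≤ (Set.univ : Set (b → {x : κ | x ^ q = x})).ncard :=
              Set.ncard_image_le Set.finite_univ
          _ = Nat.card (b → {x : κ | x ^ q = x}) := Set.ncard_univ _
    _ = Fintype.card {x : κ | x ^ q = x} ^ Fintype.card b := by
        rw [Nat.card_eq_fintype_card, Fintype.card_fun]
    _ ≤ q ^ Fintype.card b := Nat.pow_le_pow_left hRcard' _
    _ ≤ q ^ Module.finrank κ E := Nat.pow_le_pow_right (by omega) hcard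

/-- **Solutions of a semilinear system** `T e = S e` (`T` `q`-semilinear, `S` linear and
bijective): at most `q ^ dim` of them. -/
theorem semiFix_ncard_le_eq [FiniteDimensional κ E] (q : ℕ) (hq : 2 ≤ q) (T : E → E)
    (hadd : ∀ x y, T (x + y) = T x + T y)
    (hsemi : ∀ (a : κ) (e : E), T (a • e) = a ^ q • T e) (S : E ≃ₗ[κ] E) :
    {e : E | T e = S e}.Finite ∧ {e : E | T e = S e}.ncard ≤ q ^ Module.finrank κ E := by
  have h := semiFix_ncard_le q hq (fun e => S.symm (T e))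
    (fun x y => by rw [hadd, map_add])
    (fun a e => by rw [hsemi, map_smul])
  have heq : {e : E | T e = S e} = {e : E | S.symm (T e) = e} := by
    ext e
    show T e = S e ↔ S.symm (T e) = e
    constructor
    · intro h1
      rw [h1, LinearEquiv.symm_apply_apply]
    · intro h1
      have := congrArg S h1
      rwa [LinearEquiv.apply_symm_apply] at this
  rw [heq]
  exact h

end Fermat.Agent.FFL.FB
end MergeWrap_Lib_FFL_FB_SemiFix

section MergeWrap_Lib_FFL_FB_CountCore -- from Lib/FFL/FB/CountCore.lean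

set_option autoImplicit false

namespace Fermat.Agent.FFL.FB

variable {k κ : Type*} [Field k] [Field κ]

/-- The additive maps `h : k → κ` with `h (ν x) = z h x`. -/
def eigSpace (ν : k) (z : κ) : Submodule κ (k → κ) where
  carrier := {h | (∀ x y, h (x + y) = h x + h y) ∧ ∀ x, h (ν * x) = z * h x}
  add_mem' := by
    rintro h h' ⟨h1, h2⟩ ⟨h1', h2'⟩
    refine ⟨fun x y => ?_, fun x => ?_⟩
    · simp only [Pi.add_apply, h1, h1']; ring
    · simp only [Pi.add_apply, h2, h2']; ring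
  zero_mem' := ⟨fun _ _ => by simp, fun _ => by simp⟩
  smul_mem' := by
    rintro a h ⟨h1, h2⟩
    refine ⟨fun x y => ?_, fun x => ?_⟩
    · simp only [Pi.smul_apply, smul_eq_mul, h1]; ring
    · simp only [Pi.smul_apply, smul_eq_mul, h2]; ring

theorem mem_eigSpace {ν : k} {z : κ} {h : k → κ} :
    h ∈ eigSpace ν z ↔ (∀ x y, h (x + y) = h x + h y) ∧ ∀ x, h (ν * x) = z * h x := Iff.rfl

/-- The solutions of the semilinear system. -/
def semiSol (ν β : k) (z c : κ) (q : ℕ) : Set (k → κ) :=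
  {h | (∀ x y, h (x + y) = h x + h y) ∧ (∀ x, h (ν * x) = z * h x) ∧
    ∀ x, h (β * x) = c * h x ^ q}

theorem eigSpace_apply_zero {ν : k} {z : κ} {h : k → κ} (hh : h ∈ eigSpace ν z) : h 0 = 0 := by
  have := hh.1 0 0
  rw [add_zero] at this
  exact left_eq_add.mp this

theorem eigSpace_apply_pow {ν : k} {z : κ} {h : k → κ} (hh : h ∈ eigSpace ν z) (n : ℕ) (x : k) :
    h (ν ^ n * x) = z ^ n * h x := by
  induction n with
  | zero => simp
  | succ n ih => rw [pow_succ, mul_assoc, mul_comm ν x, ← mul_assoc, mul_comm _ ν, hh.2, ih]; ring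

theorem eigSpace_apply_neg {ν : k} {z : κ} {h : k → κ} (hh : h ∈ eigSpace ν z) (x : k) :
    h (-x) = -h x := by
  have := hh.1 x (-x)
  rw [add_neg_cancel, eigSpace_apply_zero hh] at this
  exact eq_neg_of_add_eq_zero_right this.symm

/-- An element of `eigSpace` which vanishes on the `x j` vanishes on the subgroup generated by
the `ν ^ n * x j`. -/
theorem eigSpace_eq_zero_of_gen {ν : k} {z : κ} {g : ℕ} (x : Fin g → k)
    (hgen : AddSubgroup.closure {y : k | ∃ (n : ℕ) (j : Fin g), y = ν ^ n * x j} = ⊤)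
    {h : k → κ} (hh : h ∈ eigSpace ν z) (h0 : ∀ j, h (x j) = 0) : h = 0 := by
  funext y
  have hy : y ∈ AddSubgroup.closure {y : k | ∃ (n : ℕ) (j : Fin g), y = ν ^ n * x j} := by
    rw [hgen]; trivial
  show h y = 0
  induction hy using AddSubgroup.closure_induction with
  | mem y hy =>
    obtain ⟨n, j, rfl⟩ := hy
    rw [eigSpace_apply_pow hh, h0, mul_zero]
  | zero => exact eigSpace_apply_zero hh
  | add a b _ _ ha hb => rw [hh.1, ha, hb, add_zero]
  | neg a _ ha => rw [eigSpace_apply_neg hh, ha, neg_zero]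

/-- `dim eigSpace ≤ g` if `k` is generated by the `ν ^ n * x j`, `j : Fin g`. -/
theorem finrank_eigSpace_le [Finite k] {ν : k} {z : κ} {g : ℕ} (x : Fin g → k)
    (hgen : AddSubgroup.closure {y : k | ∃ (n : ℕ) (j : Fin g), y = ν ^ n * x j} = ⊤) :
    Module.finrank κ (eigSpace ν z) ≤ g := by
  classical
  have : Fintype k := Fintype.ofFinite k
  let ev : eigSpace ν z →ₗ[κ] (Fin g → κ) :=
    { toFun := fun h j => (h : k → κ) (x j)
      map_add' := fun h h' => by funext j; rfl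
      map_smul' := fun a h => by funext j; rfl }
  have hinj : Function.Injective ev := by
    rw [← LinearMap.ker_eq_bot, LinearMap.ker_eq_bot']
    intro h hh
    apply Subtype.ext
    exact eigSpace_eq_zero_of_gen x hgen h.2 (fun j => congrFun hh j)
  calc Module.finrank κ (eigSpace ν z) ≤ Module.finrank κ (Fin g → κ) :=
        LinearMap.finrank_le_finrank_of_injective hinj
    _ = g := by simp

/-- **The count**: the semilinear system has at most `q ^ g` solutions. -/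
theorem countCore_ncard_le [Finite k] (p : ℕ) [Fact p.Prime] [CharP κ p] (d : ℕ) (hd : d ≠ 0)
    (ν β : k) (hβ : β ≠ 0) (z c : κ) (hz : z ^ (p ^ d) = z) {g : ℕ} (x : Fin g → k)
    (hgen : AddSubgroup.closure {y : k | ∃ (n : ℕ) (j : Fin g), y = ν ^ n * x j} = ⊤) :
    (semiSol ν β z c (p ^ d)).Finite ∧ (semiSol ν β z c (p ^ d)).ncard ≤ (p ^ d) ^ g := by
  classical
  have : Fintype k := Fintype.ofFinite k
  have hq2 : 2 ≤ p ^ d := by
    have h1 : 2 ≤ p := (Fact.out : p.Prime).two_le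
    calc 2 ≤ p := h1
      _ = p ^ 1 := (pow_one p).symm
      _ ≤ p ^ d := Nat.pow_le_pow_right (by omega) (Nat.one_le_iff_ne_zero.2 hd)
  -- the semilinear operator on `eigSpace`
  have hTmem : ∀ h : eigSpace ν z, (fun y => c * (h : k → κ) (β⁻¹ * y) ^ (p ^ d)) ∈ eigSpace ν z := by
    intro h
    refine ⟨fun a b => ?_, fun a => ?_⟩
    · show c * (h : k → κ) (β⁻¹ * (a + b)) ^ (p ^ d) = _
      rw [mul_add, h.2.1, add_pow_char_pow, mul_add]
    · show c * (h : k → κ) (β⁻¹ * (ν * a)) ^ (p ^ d) = _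
      rw [← mul_assoc, mul_comm β⁻¹ ν, mul_assoc, h.2.2, mul_pow, hz]
      ring
  let T : eigSpace ν z → eigSpace ν z := fun h => ⟨_, hTmem h⟩
  have hTadd : ∀ h h' : eigSpace ν z, T (h + h') = T h + T h' := by
    intro h h'
    apply Subtype.ext
    funext y
    show c * ((h : k → κ) (β⁻¹ * y) + (h' : k → κ) (β⁻¹ * y)) ^ (p ^ d) = _
    rw [add_pow_char_pow, mul_add]
    rfl
  have hTsemi : ∀ (a : κ) (h : eigSpace ν z), T (a • h) = a ^ (p ^ d) • T h := by
    intro a h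
    apply Subtype.ext
    funext y
    show c * (a * (h : k → κ) (β⁻¹ * y)) ^ (p ^ d) = a ^ (p ^ d) * (c * _)
    rw [mul_pow]; ring
  obtain ⟨hfin, hcard⟩ := semiFix_ncard_le (κ := κ) (E := eigSpace ν z) (p ^ d) hq2 T hTadd hTsemi
  -- `semiSol` is the image of the fixed points
  have hsub : semiSol ν β z c (p ^ d) ⊆ (fun h : eigSpace ν z => (h : k → κ)) '' {e | T e = e} := by
    intro h hh
    refine ⟨⟨h, hh.1, hh.2.1⟩, ?_, rfl⟩
    apply Subtype.ext
    funext y
    show c * h (β⁻¹ * y) ^ (p ^ d) = h y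
    rw [← hh.2.2, ← mul_assoc, mul_inv_cancel₀ hβ, one_mul]
  have hfin' : ((fun h : eigSpace ν z => (h : k → κ)) '' {e | T e = e}).Finite := hfin.image _
  refine ⟨hfin'.subset hsub, ?_⟩
  calc (semiSol ν β z c (p ^ d)).ncard
      ≤ ((fun h : eigSpace ν z => (h : k → κ)) '' {e | T e = e}).ncard :=
        Set.ncard_le_ncard hsub hfin'
    _ ≤ {e | T e = e}.ncard := Set.ncard_image_le hfin
    _ ≤ (p ^ d) ^ Module.finrank κ (eigSpace ν z) := hcard
    _ ≤ (p ^ d) ^ g := Nat.pow_le_pow_right (by omega) (finrank_eigSpace_le x hgen)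

end Fermat.Agent.FFL.FB
end MergeWrap_Lib_FFL_FB_CountCore

section MergeWrap_S56_W4_C_KN_Defs -- from S56/W4/C/KN/Defs.lean

set_option autoImplicit false

namespace Fermat.Agent.S56.SS

open Fermat.Agent.F4 ExtCitation Fermat.Agent.FFL Fermat.Agent.FlatMod

local notation "Kb" => AlgebraicClosure ℚ
local notation "GK" => (AlgebraicClosure ℚ ≃ₐ[ℚ] AlgebraicClosure ℚ)

/-! ### Definitions -/

/-- The residue field of the place at `p`. -/
abbrev Kres (p : ℕ) [Fact p.Prime] : Type := IsLocalRing.ResidueField ↥(Pp p)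

variable {p : ℕ} [Fact p.Prime] {k : Type} [Field k]

/-- `a` is the residue class of `x ∈ P`. -/
def IsRes (x : Kb) (a : Kres p) : Prop :=
  ∃ h : x ∈ Pp p, IsLocalRing.residue ↥(Pp p) ⟨x, h⟩ = a

/-- The endomorphism-valued function of a cocycle. -/
def cE {ρbar : ResidualGaloisRep k} (c : ↥(Z1 levelsAll (ad0 ρbar))) :
    GK → Module.End k ρbar.V :=
  fun σ => ((c : GQ → ad0 ρbar) σ : ↥(ad0Sub ρbar)).1

/-- `β` is a Kummer generator of `χ` on `I₁` with `v(β - 1) ≥ n / (p (p² - 1))`. -/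
def KumGE {ρbar : ResidualGaloisRep k} (s : SSStruct p ρbar) (n : ℕ) (χ : GK → ZMod p)
    (β : Kb) : Prop :=
  β ≠ 0 ∧ (∀ γ ∈ I1 s, γ β = zetaP p ^ (χ γ).val * β) ∧
    ValGE p (Pp p) (β - 1) n (p * (p ^ 2 - 1))

/-- `χ` has a Kummer generator of depth `≥ n / (p (p² - 1))`. -/
def GoodAt {ρbar : ResidualGaloisRep k} (s : SSStruct p ρbar) (n : ℕ) (χ : GK → ZMod p) : Prop :=
  ∃ β : Kb, KumGE s n χ β

theorem goodChar_iff_goodAt {ρbar : ResidualGaloisRep k} (s : SSStruct p ρbar)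
    (χ : GK → ZMod p) : GoodChar s χ ↔ GoodAt s (p ^ 2 + 1) χ := Iff.rfl

/-- The leading coefficient at level `n` of (the Kummer class of) `χ` is `a`. -/
def LcIs {ρbar : ResidualGaloisRep k} (s : SSStruct p ρbar) (n : ℕ) (χ : GK → ZMod p)
    (a : Kres p) : Prop :=
  ∃ β : Kb, KumGE s n χ β ∧ IsRes ((β ^ p - 1) / s.ϖ ^ n) a

variable (p)

/-- The hypotheses common to all leaves. -/
def DetCyc (ρbar : ResidualGaloisRep k) : Prop :=
  (GaloisRepAdic.ofResidualGaloisRep ρbar).DetIsCyclotomic p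

/-! ### LEV-A: valuation arithmetic -/

/-- **L0**: the trivial character has leading coefficient `0` (`β = 1`). -/
def LevZeroProp : Prop :=
  ∀ (k : Type) [Field k] [Finite k] (ρbar : ResidualGaloisRep k) (s : SSStruct p ρbar),
    p ≠ 2 → ∀ n : ℕ, LcIs s n (fun _ => 0) 0

/-- **L0'**: `GoodAt` is stable under negation (`β⁻¹`). -/
def LevNegProp : Prop :=
  ∀ (k : Type) [Field k] [Finite k] (ρbar : ResidualGaloisRep k) (s : SSStruct p ρbar),
    p ≠ 2 → ∀ (n : ℕ) (χ : GK → ZMod p), 0 < n → GoodAt s n χ → GoodAt s n (fun γ => -χ γ)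

/-- **L1**: leading coefficients exist: `v(β - 1) ≥ n/(pN)`, `n ≤ p² + p` ⟹ `v(β^p - 1) ≥ n/N`. -/
def LevExistsProp : Prop :=
  ∀ (k : Type) [Field k] [Finite k] (ρbar : ResidualGaloisRep k) (s : SSStruct p ρbar),
    p ≠ 2 → ∀ (n : ℕ) (χ : GK → ZMod p), 0 < n → n ≤ p ^ 2 + p →
      GoodAt s n χ → ∃ a : Kres p, LcIs s n χ a

/-- **L3**: leading coefficients are additive (`β β'`). -/
def LevAddProp : Prop :=
  ∀ (k : Type) [Field k] [Finite k] (ρbar : ResidualGaloisRep k) (s : SSStruct p ρbar),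
    p ≠ 2 → ∀ (n : ℕ) (χ χ' : GK → ZMod p) (a a' : Kres p), 0 < n →
      LcIs s n χ a → LcIs s n χ' a' → LcIs s n (fun γ => χ γ + χ' γ) (a + a')

/-- **L6**: Galois action.  `σ` in the decomposition group acting on the residue field as
`x ↦ x^q` (`q = 1` for `σ` in inertia, `q = p^m` for `σ = φ^m`, `φ` a Frobenius element),
`e` the residue of `σ ϖ / ϖ`: the character `γ ↦ cyc(σ) · χ(σ⁻¹ γ σ)` (Kummer generator `σ β`)
has leading coefficient `e^n a^q`. -/
def LevConjProp : Prop :=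
  ∀ (k : Type) [Field k] [Finite k] (ρbar : ResidualGaloisRep k) (s : SSStruct p ρbar),
    p ≠ 2 → ∀ σ ∈ Dp p, ∀ (q : ℕ) (e : Kres p),
      (∀ x ∈ Pp p, σ x - x ^ q ∈ (Pp p).nonunits) → IsRes (σ s.ϖ / s.ϖ) e →
      ∀ (n : ℕ) (χ : GK → ZMod p) (a : Kres p), LcIs s n χ a →
        LcIs s n (fun γ => ((cycloChar p σ : (ZMod p)ˣ) : ZMod p) * χ (σ⁻¹ * γ * σ))
          (e ^ n * a ^ q)

/-! ### LEV-B: `ϖ` is a uniformiser of `K₁` -/

/-- **UNIF**: an `I₁`-fixed nonunit of `P` is divisible by `ϖ`.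
[`∏_{j<N} τ^j x` is inertia-fixed (`I = ⋃ τ^j I₁`, `I₁` normal in `I`) and a nonunit, so divisible
by `p` (`unrProp`); `τ^j x / x` is a unit; so `x^N / p ∈ P`, and `p / ϖ^N ∈ P`.] -/
def UnifProp : Prop :=
  ∀ (k : Type) [Field k] [Finite k] (ρbar : ResidualGaloisRep k) (s : SSStruct p ρbar),
    p ≠ 2 → ∀ x ∈ (Pp p).nonunits, (∀ γ ∈ I1 s, γ x = x) → x / s.ϖ ∈ Pp p

/-- **L2**: leading coefficients at the levels `p² + 1 ≤ n < p² + p` are unique.
[`w = β/β'` is `I₁`-fixed, `v(w - 1) ≥ n/(pN) > p/N`, so `v(w - 1) ≥ (p+1)/N` (UNIF) and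
`v(w^p - 1) ≥ (p² + p)/N > n/N`.] -/
def LevUniqueProp : Prop :=
  ∀ (k : Type) [Field k] [Finite k] (ρbar : ResidualGaloisRep k) (s : SSStruct p ρbar),
    p ≠ 2 → DetCyc p ρbar → ∀ (n : ℕ) (χ : GK → ZMod p) (a a' : Kres p),
      p ^ 2 + 1 ≤ n → n < p ^ 2 + p → LcIs s n χ a → LcIs s n χ a' → a = a'

/-- **L4**: leading coefficient `0` at level `n` ⟹ good at level `n + 1`.
[`u = β^p` is `I₁`-fixed with `(u - 1)/ϖ^n ∈ 𝔪`, so `(u - 1)/ϖ^(n+1) ∈ P` (UNIF); then
`u - 1 = y^p + p y · unit`, `y = β - 1`: if `y^(p-1)/p ∈ P` then `v(y) ≥ 1/(p-1) ≥ (n+1)/(pN)`,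
otherwise `u - 1 = y^p · unit`.] -/
def LevNextProp : Prop :=
  ∀ (k : Type) [Field k] [Finite k] (ρbar : ResidualGaloisRep k) (s : SSStruct p ρbar),
    p ≠ 2 → DetCyc p ρbar → ∀ (n : ℕ) (χ : GK → ZMod p),
      p ^ 2 + 1 ≤ n → n < p ^ 2 + p → LcIs s n χ 0 → GoodAt s (n + 1) χ

/-! ### LEV-C: the top level -/

/-- **L5**: a character with a Kummer generator `β`, `v(β - 1) ≥ 1/(p-1)`, is trivial on `I₁`.
[`ζ` is `I₁`-fixed (determinant cyclotomic and `ψ^(p+1) = det`); `β = 1 + (ζ - 1) y`, `y ∈ P`;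
`(ζ^c - 1) β = γ β - β = (ζ - 1)(γ y - y)` with `γ y - y ∈ 𝔪`, and `(ζ^c - 1)/(ζ - 1) ≡ c`.] -/
def LevTopProp : Prop :=
  ∀ (k : Type) [Field k] [Finite k] (ρbar : ResidualGaloisRep k) (s : SSStruct p ρbar),
    p ≠ 2 → DetCyc p ρbar → ∀ χ : GK → ZMod p,
      GoodAt s (p ^ 2 + p) χ → ∀ γ ∈ I1 s, χ γ = 0

/-! ### TAME: the residue of `τ ϖ / ϖ` -/

/-- **TAME**: the residue `lam` of `τ ϖ / ϖ` satisfies `lam^N = 1`, has exact order `N`,
`lam^(p+1)` is the cyclotomic character of `τ`, and with `ν = (ψ τ)^(2p)`,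
`f = Y² - t' Y + n'` (`t' = t² - 2n`, `n' = n²` for `t, n` as in `ϖ_char`):
`f(ν) = 0` in `k`, `f(lam^m) = (lam^m - lam²)(lam^m - lam^(2p)) ≠ 0` for `p² + 2 ≤ m < p² + p`. -/
def TameProp : Prop :=
  ∀ (k : Type) [Field k] [Finite k] (ρbar : ResidualGaloisRep k) (s : SSStruct p ρbar),
    p ≠ 2 → DetCyc p ρbar →
    ∃ lam : Kres p, IsRes (s.τ s.ϖ / s.ϖ) lam ∧ lam ^ (p ^ 2 - 1) = 1 ∧
      (∀ m : ℕ, p ^ 2 + 1 ≤ m → m < p ^ 2 + p →
        ((((cycloChar p s.τ : (ZMod p)ˣ) : ZMod p).val : ℕ) : Kres p) ≠ lam ^ m) ∧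
      ∃ t' n' : ℤ,
        ((s.ψ s.τ) ^ (2 * p)) ^ 2 - (t' : k) * (s.ψ s.τ) ^ (2 * p) + (n' : k) = 0 ∧
        ∀ m : ℕ, p ^ 2 + 2 ≤ m → m < p ^ 2 + p →
          (lam ^ m) ^ 2 - (t' : Kres p) * lam ^ m + (n' : Kres p) ≠ 0

/-! ### GEN: generators of `k` over `𝔽_p[ν]` (pure algebra) -/

/-- **GEN**: if `ν ∈ k` generates the subfield with `p²` elements (`ν^(p²) = ν`, `ν^p ≠ ν`), then
`k` is generated as an additive group by the `ν^n x_j` for `g` elements `x_j`, `(p²)^g = #k`.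
[`F = 𝔽_p(ν)` has `p²` elements and is the additive span of the powers of `ν`; `x` = a basis of
`k` over `F`.] -/
def FieldGenProp : Prop :=
  ∀ (k : Type) [Field k] [Finite k], (p : k) = 0 → ∀ ν : k, ν ^ (p ^ 2) = ν → ν ^ p ≠ ν →
    ∃ (g : ℕ) (x : Fin g → k),
      AddSubgroup.closure {y : k | ∃ (n : ℕ) (j : Fin g), y = ν ^ n * x j} = ⊤ ∧
      (p ^ 2) ^ g = Nat.card k

/-! ### FAM: the intermediate statements -/

/-- **GRP**: the good cocycles form a group. -/
def GoodGrpProp : Prop :=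
  ∀ (k : Type) [Field k] [Finite k] (ρbar : ResidualGaloisRep k) (s : SSStruct p ρbar),
    p ≠ 2 → DetCyc p ρbar →
    GoodCoc s (fun _ => (0 : Module.End k ρbar.V)) ∧
    (∀ c c' : GK → Module.End k ρbar.V, GoodCoc s c → GoodCoc s c' →
      GoodCoc s (fun σ => c σ + c' σ)) ∧
    ∀ c : GK → Module.End k ρbar.V, GoodCoc s c → GoodCoc s (fun σ => -c σ)

/-- **DIAG**: the diagonal entries of a good cocycle vanish on `I₁`. -/
def DiagProp : Prop :=
  ∀ (k : Type) [Field k] [Finite k] (ρbar : ResidualGaloisRep k) (s : SSStruct p ρbar),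
    p ≠ 2 → DetCyc p ρbar → ∀ c : ↥(Z1 levelsAll (ad0 ρbar)), GoodCoc s (cE c) →
      ∀ γ ∈ I1 s, ent s (cE c) 0 0 γ = 0

/-- **KEY**: the leading coefficient map of the entry `(0, 1)`: a map `K` from cocycles to a set
`S` of at most `#k` functions `k → κ`, which determines the entry `(0, 1)` on `I₁` of a good
cocycle. -/
def KeyProp : Prop :=
  ∀ (k : Type) [Field k] [Finite k] (ρbar : ResidualGaloisRep k) (s : SSStruct p ρbar),
    p ≠ 2 → DetCyc p ρbar →
    ∃ (S : Set (k → Kres p)) (K : ↥(Z1 levelsAll (ad0 ρbar)) → (k → Kres p)),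
      S.Finite ∧ S.ncard ≤ Nat.card k ∧
      (∀ c, GoodCoc s (cE c) → K c ∈ S) ∧
      ∀ c c', GoodCoc s (cE c) → GoodCoc s (cE c') → K c = K c' →
        ∀ γ ∈ I1 s, ent s (cE c) 0 1 γ = ent s (cE c') 0 1 γ

end Fermat.Agent.S56.SS
end MergeWrap_S56_W4_C_KN_Defs
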