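import Mathlib
import Fermat.Agent.MU.S56.W4.C.KN.Defs
import Fermat.Agent.MU.S56.W4.C.KN.Coh
import Fermat.Agent.MU.S56.W4.C.S.Main
import Fermat.Agent.MU.S56.W3.SO.CycLoc
import Fermat.Agent.S56.W3.SO.Place

section MergeWrap_S56_W4_C_KN_Tame -- from S56/W4/C/KN/Tame.lean

set_option autoImplicit false

namespace Fermat.Agent.S56.SS

open Fermat.Agent.F4 ExtCitation Fermat.Agent.FFL Fermat.Agent.FlatMod Polynomial

local notation "Kb" => AlgebraicClosure ℚ
local notation "GK" => (AlgebraicClosure ℚ ≃ₐ[ℚ] AlgebraicClosure ℚ)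

/-! ### Pure algebra: roots of `X² - t X + n` in characteristic `p` -/

/-- the polynomial `X² - t X + n`. -/
noncomputable def tameQuad (t n : ℤ) : ℤ[X] := X ^ 2 - C t * X + C n

theorem tameQuad_monic (t n : ℤ) : (tameQuad t n).Monic := by
  unfold tameQuad
  have h : (X ^ 2 - C t * X + C n : ℤ[X]) = X ^ 2 + (-(C t) * X + C n) := by ring
  rw [h]
  apply Polynomial.monic_X_pow_add
  have h1 : (-(C t) * X + C n : ℤ[X]).degree ≤ 1 := by
    have : (-(C t) * X + C n : ℤ[X]) = C (-t) * X + C n := by simp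
    rw [this]
    exact Polynomial.degree_linear_le
  exact lt_of_le_of_lt h1 (by norm_num)

theorem tameQuad_natDegree (t n : ℤ) : (tameQuad t n).natDegree = 2 := by
  unfold tameQuad
  have h : (X ^ 2 - C t * X + C n : ℤ[X]) = X ^ 2 + (-(C t) * X + C n) := by ring
  rw [h]
  have h1 : (-(C t) * X + C n : ℤ[X]).degree ≤ 1 := by
    have : (-(C t) * X + C n : ℤ[X]) = C (-t) * X + C n := by simp
    rw [this]
    exact Polynomial.degree_linear_le
  have h2 : (-(C t) * X + C n : ℤ[X]).degree < ((X : ℤ[X]) ^ 2).degree := by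
    rw [Polynomial.degree_X_pow]
    exact lt_of_le_of_lt h1 (by norm_num)
  rw [Polynomial.natDegree_add_eq_left_of_degree_lt h2, Polynomial.natDegree_X_pow]

theorem aeval_tameQuad {R : Type} [CommRing R] (t n : ℤ) (x : R) :
    aeval x (tameQuad t n) = x ^ 2 - (t : R) * x + (n : R) := by
  unfold tameQuad
  simp

/-- reduction of an integer polynomial modulo `X² - t X + n`. -/
theorem tame_exists_reduce (t n : ℤ) (g : ℤ[X]) :
    ∃ A B : ℤ, ∀ {R : Type} [CommRing R] (x : R), x ^ 2 - (t : R) * x + (n : R) = 0 →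
      aeval x g = (A : R) * x + (B : R) := by
  obtain ⟨r, hr⟩ : ∃ r : ℤ[X], r = g %ₘ tameQuad t n := ⟨_, rfl⟩
  refine ⟨r.coeff 1, r.coeff 0, fun {R} _ x hx => ?_⟩
  have h1 : g = r + tameQuad t n * (g /ₘ tameQuad t n) := by
    rw [hr]
    exact (Polynomial.modByMonic_add_div g (tameQuad t n)).symm
  have h2 : r.natDegree ≤ 1 := by
    have := Polynomial.natDegree_modByMonic_lt g (tameQuad_monic t n)
      (by
        intro h
        have := tameQuad_natDegree t n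
        rw [h] at this
        simp at this)
    rw [tameQuad_natDegree, ← hr] at this
    omega
  have h3 : r = C (r.coeff 1) * X + C (r.coeff 0) :=
    Polynomial.eq_X_add_C_of_natDegree_le_one h2
  have h4 : aeval x g = aeval x r := by
    conv_lhs => rw [h1]
    rw [map_add, map_mul, aeval_tameQuad, hx, zero_mul, add_zero]
  rw [h4]
  conv_lhs => rw [h3]
  simp

/-- an element outside the prime field is linearly independent of `1` over the prime field. -/
theorem tame_indep {K : Type} [Field K] {p : ℕ} [Fact p.Prime] (hpK : (p : K) = 0) {x : K}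
    (hx : x ^ p ≠ x) {A B : ℤ} (h : (A : K) * x + (B : K) = 0) :
    (p : ℤ) ∣ A ∧ (p : ℤ) ∣ B := by
  have : CharP K p := (CharP.charP_iff_prime_eq_zero (Fact.out : p.Prime)).mpr hpK
  have hA : (A : K) = 0 := by
    by_contra hA
    apply hx
    have hxe : x = -(B : K) / (A : K) := by
      field_simp
      linear_combination h
    have hfr : ∀ m : ℤ, ((m : K)) ^ p = (m : K) := fun m => by
      have := map_intCast (frobenius K p) m
      rw [frobenius_def] at this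
      exact this
    rw [hxe, div_pow, neg_pow, hfr, hfr]
    have hodd : (-1 : K) ^ p = -1 := by
      rcases (Fact.out : p.Prime).eq_two_or_odd' with h2 | hodd
      · subst h2
        have h20 : (2 : K) = 0 := by exact_mod_cast hpK
        have : (-1 : K) = 1 := by linear_combination -h20
        rw [this, one_pow]
      · exact hodd.neg_one_pow
    rw [hodd]
    ring
  have hB : (B : K) = 0 := by
    rw [hA, zero_mul, zero_add] at h
    exact h
  exact ⟨(CharP.intCast_eq_zero_iff K p A).mp hA, (CharP.intCast_eq_zero_iff K p B).mp hB⟩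

/-- **Transfer**: an integer polynomial which vanishes at a root of `X² - t X + n` outside the
prime field vanishes at every root of `X² - t X + n` in characteristic `p`. -/
theorem tame_transfer {K : Type} [Field K] {R : Type} [CommRing R] {p : ℕ} [Fact p.Prime]
    (hpK : (p : K) = 0) (hpR : (p : R) = 0) (t n : ℤ) {x : K} {y : R}
    (hx : x ^ 2 - (t : K) * x + (n : K) = 0) (hxp : x ^ p ≠ x)
    (hy : y ^ 2 - (t : R) * y + (n : R) = 0) (g : ℤ[X]) (hg : aeval x g = 0) :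
    aeval y g = 0 := by
  obtain ⟨A, B, hAB⟩ := tame_exists_reduce t n g
  rw [hAB x hx] at hg
  obtain ⟨⟨a, rfl⟩, ⟨b, rfl⟩⟩ := tame_indep hpK hxp hg
  rw [hAB y hy]
  push_cast
  rw [hpR]
  ring


/-! ### The residue of `τ ϖ / ϖ` -/

namespace KNTame

variable {p : ℕ} [Fact p.Prime] {k : Type} [Field k] {ρbar : ResidualGaloisRep k}

theorem p_mem_nonunits : (p : Kb) ∈ (Pp p).nonunits := Fermat.Agent.S56.SO.so_liesOver p

/-- the residue field has characteristic `p`. -/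
theorem natCast_kres : ((p : ℕ) : Kres p) = 0 := by
  have h : (p : Kb) ∈ (Pp p).nonunits := p_mem_nonunits
  obtain ⟨hm, hmax⟩ := (ValuationSubring.mem_nonunits_iff_exists_mem_maximalIdeal).1 h
  have h2 : IsLocalRing.residue ↥(Pp p) ⟨(p : Kb), hm⟩ = 0 :=
    (IsLocalRing.residue_eq_zero_iff _).2 hmax
  have h3 : (⟨(p : Kb), hm⟩ : ↥(Pp p)) = ((p : ℕ) : ↥(Pp p)) := Subtype.ext (by simp)
  rw [h3, map_natCast] at h2
  exact h2

theorem mem_of_pow_mem {z : Kb} {n : ℕ} (hn : n ≠ 0) (h : z ^ n ∈ Pp p) : z ∈ Pp p := by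
  rw [← (Pp p).valuation_le_one_iff] at h ⊢
  rw [map_pow] at h
  by_contra hlt
  rw [not_le] at hlt
  exact absurd h (not_le.2 (one_lt_pow₀ hlt hn))

theorem inertia_le_decomp {σ : GK} (hσ : σ ∈ Ip p) : σ ∈ Dp p := by
  obtain ⟨x, -, rfl⟩ := Subgroup.mem_map.mp hσ
  exact x.2

theorem two_p_le : 2 * p ≤ p ^ 2 := by
  have h2 : 2 ≤ p := (Fact.out : p.Prime).two_le
  nlinarith

variable (s : SSStruct p ρbar)

/-- `τ ϖ / ϖ` is integral at `P`. -/
theorem tau_varpi_div_mem : s.τ s.ϖ / s.ϖ ∈ Pp p := by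
  have h2p : 2 * p ≤ p ^ 2 := two_p_le
  have h2 : 2 ≤ p := (Fact.out : p.Prime).two_le
  have hN : p ^ 2 - 1 ≠ 0 := by omega
  have hD : s.τ ∈ Dp p := inertia_le_decomp s.τ_mem
  have h1 : s.ϖ ^ (p ^ 2 - 1) / (p : Kb) ^ 1 ∈ Pp p := s.ϖ_ge
  have h2 : (p : Kb) ^ 1 / s.ϖ ^ (p ^ 2 - 1) ∈ Pp p := s.ϖ_le.2
  have h3 : s.τ (s.ϖ ^ (p ^ 2 - 1) / (p : Kb) ^ 1) ∈ Pp p :=
    Fermat.Agent.S56.TWGen.apply_mem (Pp p) hD h1
  have hp0 : (p : Kb) ≠ 0 := Nat.cast_ne_zero.2 (Fact.out : p.Prime).ne_zero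
  have hϖ : s.ϖ ≠ 0 := s.ϖ_le.1
  have h4 : (s.τ s.ϖ / s.ϖ) ^ (p ^ 2 - 1) =
      s.τ (s.ϖ ^ (p ^ 2 - 1) / (p : Kb) ^ 1) * ((p : Kb) ^ 1 / s.ϖ ^ (p ^ 2 - 1)) := by
    rw [map_div₀, map_pow, map_pow, map_natCast, div_pow]
    field_simp
  refine mem_of_pow_mem hN ?_
  rw [h4]
  exact mul_mem h3 h2

/-- the residue of `τ ϖ / ϖ` is a root of `X² - t X + n`. -/
theorem res_quad (hx : s.τ s.ϖ / s.ϖ ∈ Pp p) {t n : ℤ}
    (h : ((s.τ s.ϖ) ^ 2 - (t : Kb) * (s.τ s.ϖ) * s.ϖ + (n : Kb) * s.ϖ ^ 2) / s.ϖ ^ 2 ∈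
      (Pp p).nonunits) :
    (IsLocalRing.residue ↥(Pp p) ⟨s.τ s.ϖ / s.ϖ, hx⟩) ^ 2 -
      (t : Kres p) * IsLocalRing.residue ↥(Pp p) ⟨s.τ s.ϖ / s.ϖ, hx⟩ + (n : Kres p) = 0 := by
  have hϖ : s.ϖ ≠ 0 := s.ϖ_le.1
  obtain ⟨hm, hmax⟩ := (ValuationSubring.mem_nonunits_iff_exists_mem_maximalIdeal).1 h
  have h2 := (IsLocalRing.residue_eq_zero_iff _).2 hmax
  have h3 : (⟨_, hm⟩ : ↥(Pp p)) =
      (⟨s.τ s.ϖ / s.ϖ, hx⟩ : ↥(Pp p)) ^ 2 - (t : ↥(Pp p)) * ⟨s.τ s.ϖ / s.ϖ, hx⟩ +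
        (n : ↥(Pp p)) := by
    apply Subtype.ext
    push_cast
    field_simp
  rw [h3, map_add, map_sub, map_mul, map_pow, map_intCast, map_intCast] at h2
  exact h2

/-- the cyclotomic character of `τ` is `(ψ τ)^(p+1)`. -/
theorem cyc_eq (hdet : DetCyc p ρbar) :
    ((((cycloChar p s.τ : (ZMod p)ˣ) : ZMod p).val : ℕ) : k) = s.ψ s.τ ^ (p + 1) := by
  have hpk : (p : k) = 0 := ss_char_zero p ρbar hdet
  have hd := hdet.2 1 s.τ ((cycloChar p s.τ : (ZMod p)ˣ) : ZMod p).val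
    (fun μ hμ => Fermat.Agent.S56.SO.cycloc_apply_root p s.τ μ (by simpa using hμ))
  have h0 : ((p ^ 1 : ℕ) : k) = 0 := by rw [pow_one]; exact hpk
  rw [h0, Ideal.span_singleton_eq_bot.2 rfl, Ideal.mem_bot, sub_eq_zero] at hd
  rw [← hd]
  show LinearMap.det (ρbar.ρ s.τ) = _
  rw [← LinearMap.det_toMatrix s.b]
  have hm := KNCoh.mat_rho s s.τ_mem
  rw [show LinearMap.toMatrix s.b s.b (ρbar.ρ s.τ) = Matrix.diagonal (KNCoh.dg s s.τ) from hm,
    Matrix.det_diagonal, Fin.prod_univ_two]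
  simp [KNCoh.dg, pow_succ, mul_comm]

end KNTame

/-! ### TAME -/

/-- **TAME**. -/
theorem tameProp (p : ℕ) [Fact p.Prime] : TameProp p := by
  intro k _ _ ρbar s hp2 hdet
  have hpk : (p : k) = 0 := ss_char_zero p ρbar hdet
  have hpκ : ((p : ℕ) : Kres p) = 0 := KNTame.natCast_kres
  have h2p : 2 * p ≤ p ^ 2 := KNTame.two_p_le
  have hp2' : 2 ≤ p := (Fact.out : p.Prime).two_le
  obtain ⟨t, n, ht, hn, hchar⟩ := s.ϖ_char
  have hx := KNTame.tau_varpi_div_mem s
  obtain ⟨a, ha⟩ : ∃ a : k, a = s.ψ s.τ := ⟨_, rfl⟩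
  obtain ⟨lam, hlam⟩ : ∃ lam : Kres p,
      lam = IsLocalRing.residue ↥(Pp p) ⟨s.τ s.ϖ / s.ϖ, hx⟩ := ⟨_, rfl⟩
  have ha0 : a ≠ 0 := ha ▸ s.ne_zero
  have ht' : (t : k) = a + a ^ p := ha ▸ ht
  have hn' : (n : k) = a ^ (p + 1) := ha ▸ hn
  have ha2 : a ^ 2 - (t : k) * a + (n : k) = 0 := by rw [ht', hn']; ring
  have hl2 : lam ^ 2 - (t : Kres p) * lam + (n : Kres p) = 0 := by
    rw [hlam]; exact KNTame.res_quad s hx hchar
  have hap : a ^ p ≠ a := ha ▸ KNCoh.a_pow_ne s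
  have haN : a ^ (p ^ 2 - 1) = 1 := ha ▸ KNCoh.psi_pow_N s s.τ_mem
  have hord : ∀ j : ℕ, 0 < j → a ^ j = 1 → p ^ 2 - 1 ≤ j := ha ▸ s.ord
  -- forward transfer
  have fwd : ∀ g : ℤ[X], aeval a g = 0 → aeval lam g = 0 :=
    fun g hg => tame_transfer hpk hpκ t n ha2 hap hl2 g hg
  -- `lam ∉ 𝔽_p`
  have hlp : lam ^ p ≠ lam := by
    intro h
    have h1 := fwd (X ^ p + X - C t) (by
      simp only [map_sub, map_add, map_pow, aeval_X, eq_intCast, map_intCast]
      rw [ht']; ring)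
    simp only [map_sub, map_add, map_pow, aeval_X, eq_intCast, map_intCast] at h1
    rw [h] at h1
    have h2 : ((4 * n - t ^ 2 : ℤ) : Kres p) = 0 := by
      push_cast
      linear_combination 4 * hl2 + ((t : Kres p) - 2 * lam) * h1
    have hcp : CharP (Kres p) p := (CharP.charP_iff_prime_eq_zero (Fact.out : p.Prime)).mpr hpκ
    obtain ⟨c, hc⟩ := (CharP.intCast_eq_zero_iff (Kres p) p _).1 h2
    have h4 : ((4 * n - t ^ 2 : ℤ) : k) = 0 := by
      rw [hc]; push_cast; rw [hpk]; ring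
    push_cast at h4
    rw [ht', hn'] at h4
    have h5 : (a - a ^ p) ^ 2 = 0 := by linear_combination -h4
    have h6 : a - a ^ p = 0 := by simpa using h5
    exact hap (sub_eq_zero.1 h6).symm
  -- backward transfer
  have bwd : ∀ g : ℤ[X], aeval lam g = 0 → aeval a g = 0 :=
    fun g hg => tame_transfer hpκ hpk t n hl2 hlp ha2 g hg
  refine ⟨lam, ⟨hx, hlam.symm⟩, ?_, ?_, t ^ 2 - 2 * n, n ^ 2, ?_, ?_⟩
  · -- `lam^N = 1`
    have h1 := fwd (X ^ (p ^ 2 - 1) - 1) (by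
      simp only [map_sub, map_pow, aeval_X, map_one]
      rw [haN, sub_self])
    simp only [map_sub, map_pow, aeval_X, map_one] at h1
    exact sub_eq_zero.1 h1
  · -- the cyclotomic character
    intro m hm1 hm2 hc
    have hcyc : ((((cycloChar p s.τ : (ZMod p)ˣ) : ZMod p).val : ℕ) : k) = a ^ (p + 1) :=
      ha ▸ KNTame.cyc_eq s hdet
    have h1 := bwd (X ^ m - C ((((cycloChar p s.τ : (ZMod p)ˣ) : ZMod p).val : ℕ) : ℤ))
      (by
        simp only [map_sub, map_pow, aeval_X, eq_intCast, map_natCast]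
        rw [hc, sub_self])
    simp only [map_sub, map_pow, aeval_X, eq_intCast, map_natCast] at h1
    rw [hcyc, sub_eq_zero] at h1
    have hle : p + 1 ≤ m := by omega
    have h3 : a ^ (m - (p + 1)) = 1 := by
      have h4 : a ^ (m - (p + 1)) * a ^ (p + 1) = 1 * a ^ (p + 1) := by
        rw [← pow_add, Nat.sub_add_cancel hle, one_mul, h1]
      exact mul_right_cancel₀ (pow_ne_zero _ ha0) h4
    have h5 := hord _ (by omega) h3
    omega
  · -- `f(ν) = 0`
    rw [← ha]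
    push_cast
    rw [ht', hn']
    ring
  · -- `f(lam^m) ≠ 0`
    intro m hm1 hm2 hc
    have h1 := bwd (X ^ (2 * m) - C (t ^ 2 - 2 * n) * X ^ m + C (n ^ 2)) (by
      simp only [map_sub, map_add, map_mul, map_pow, aeval_X, eq_intCast, map_intCast]
      push_cast at hc ⊢
      linear_combination hc)
    simp only [map_sub, map_add, map_mul, map_pow, aeval_X, eq_intCast,
      map_intCast] at h1
    push_cast at h1
    rw [ht', hn'] at h1
    have h2 : (a ^ m - a ^ 2) * (a ^ m - a ^ (2 * p)) = 0 := by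
      linear_combination h1
    rcases mul_eq_zero.1 h2 with h | h
    · rw [sub_eq_zero] at h
      have hle : 2 + (p ^ 2 - 1) ≤ m := by omega
      have h3 : a ^ (m - (2 + (p ^ 2 - 1))) = 1 := by
        have h4 : a ^ (m - (2 + (p ^ 2 - 1))) * a ^ 2 = 1 * a ^ 2 := by
          have h5 : a ^ m = a ^ (m - (2 + (p ^ 2 - 1))) * a ^ 2 * a ^ (p ^ 2 - 1) := by
            rw [← pow_add, ← pow_add]
            congr 1
            omega
          rw [haN, mul_one] at h5
          rw [← h5, h, one_mul]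
        exact mul_right_cancel₀ (pow_ne_zero _ ha0) h4
      have h5 := hord _ (by omega) h3
      omega
    · rw [sub_eq_zero] at h
      have hle : 2 * p ≤ m := by omega
      have h3 : a ^ (m - 2 * p) = 1 := by
        have h4 : a ^ (m - 2 * p) * a ^ (2 * p) = 1 * a ^ (2 * p) := by
          rw [← pow_add, Nat.sub_add_cancel hle, one_mul, h]
        exact mul_right_cancel₀ (pow_ne_zero _ ha0) h4
      have h5 := hord _ (by omega) h3
      omega

end Fermat.Agent.S56.SS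
end MergeWrap_S56_W4_C_KN_Tame
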