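import Mathlib
import Fermat.Agent.MU.S56.W4.C.KN.Defs
import Fermat.Agent.MU.S56.W4.C.KN.Coh
import Fermat.Agent.MU.S56.W3.SO.CycLoc
import Fermat.Agent.S56.W3.SO.Place
import Fermat.Agent.MU.S56.W3.TW.Gen
import Fermat.Agent.MU.Lib.FFL.Arith
import Fermat.Agent.MU.S56.W4.C.TR.Val
import Fermat.Agent.MU.Lib.FFL.FB.PeuMono
import Fermat.Agent.MU.S56.W3.Arch
import Fermat.Agent.MU.Lib.FFL.FB.FieldRoot
import Fermat.Agent.MU.Lib.FFL.Red
import Fermat.Agent.Lib.Cyclo.RootsReduce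
import Fermat.Agent.MU.S56.W4.C.KN.Tame

section MergeWrap_S56_W4_C_KN_FamCore -- from S56/W4/C/KN/FamCore.lean

set_option autoImplicit false

namespace Fermat.Agent.S56.SS.KNFam

variable {X κ : Type*} [AddCommGroup X] [Field κ]

/-- A functional, total, additive relation between `X` and `κ`. -/
structure IsAddRel (R : X → κ → Prop) : Prop where
  tot : ∀ x, ∃ a, R x a
  uniq : ∀ x a a', R x a → R x a' → a = a'
  add : ∀ x y a b, R x a → R y b → R (x + y) (a + b)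

/-- The function of a functional total relation. -/
noncomputable def famFun {R : X → κ → Prop} (hR : IsAddRel R) (x : X) : κ :=
  Classical.choose (hR.tot x)

theorem famFun_spec {R : X → κ → Prop} (hR : IsAddRel R) (x : X) : R x (famFun hR x) :=
  Classical.choose_spec (hR.tot x)

theorem famFun_eq {R : X → κ → Prop} (hR : IsAddRel R) {x : X} {a : κ} (h : R x a) :
    famFun hR x = a :=
  hR.uniq x _ _ (famFun_spec hR x) h

theorem famFun_add {R : X → κ → Prop} (hR : IsAddRel R) (x y : X) :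
    famFun hR (x + y) = famFun hR x + famFun hR y :=
  famFun_eq hR (hR.add x y _ _ (famFun_spec hR x) (famFun_spec hR y))

/-- The function of the relation as an additive map. -/
noncomputable def famHom {R : X → κ → Prop} (hR : IsAddRel R) : X →+ κ :=
  AddMonoidHom.mk' (famFun hR) (famFun_add hR)

theorem famHom_apply {R : X → κ → Prop} (hR : IsAddRel R) (x : X) :
    famHom hR x = famFun hR x := rfl

theorem famFun_zsmul {R : X → κ → Prop} (hR : IsAddRel R) (m : ℤ) (x : X) :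
    famFun hR (m • x) = (m : κ) * famFun hR x := by
  have := map_zsmul (famHom hR) m x
  rw [famHom_apply, famHom_apply, zsmul_eq_mul] at this
  exact this

theorem famFun_zero {R : X → κ → Prop} (hR : IsAddRel R) : famFun hR 0 = 0 := by
  have := map_zero (famHom hR)
  rwa [famHom_apply] at this

/-- **Vanishing by equivariance** (the polynomial trick). -/
theorem fam_vanish {R : X → κ → Prop} (hR : IsAddRel R) (T : X → X) (z : κ) (t' n' : ℤ)
    (heq : ∀ x a, R x a → R (T x) (z * a))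
    (hrel : ∀ x, T (T x) + n' • x = t' • T x)
    (hne : z ^ 2 - (t' : κ) * z + (n' : κ) ≠ 0) (x : X) : R x 0 := by
  have h1 : famFun hR (T x) = z * famFun hR x := famFun_eq hR (heq x _ (famFun_spec hR x))
  have h2 : famFun hR (T (T x)) = z * (z * famFun hR x) := by
    rw [famFun_eq hR (heq (T x) _ (famFun_spec hR (T x))), h1]
  have h3 := congrArg (famFun hR) (hrel x)
  rw [famFun_add, famFun_zsmul, famFun_zsmul, h1, h2] at h3
  have h4 : (z ^ 2 - (t' : κ) * z + (n' : κ)) * famFun hR x = 0 := by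
    linear_combination h3
  have h5 : famFun hR x = 0 := by
    rcases mul_eq_zero.1 h4 with h | h
    · exact absurd h hne
    · exact h
  have := famFun_spec hR x
  rwa [h5] at this

/-- **Induction over the levels.**  `G n x`: "`χ_x` is good at level `n`"; `R n x a`: "the leading
coefficient of `χ_x` at level `n` is `a`".  If all `x` are good at level `n₀`, and at every level
`n₀ ≤ n < n₁` at which all `x` are good all leading coefficients vanish, then all `x` are good at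
level `n₁`. -/
theorem fam_induction (G : ℕ → X → Prop) (R : ℕ → X → κ → Prop) (n₀ n₁ : ℕ)
    (hbase : ∀ x, G n₀ x)
    (hnext : ∀ n x, n₀ ≤ n → n < n₁ → R n x 0 → G (n + 1) x)
    (hvan : ∀ n, n₀ ≤ n → n < n₁ → (∀ x, G n x) → ∀ x, R n x 0)
    (n : ℕ) (hn0 : n₀ ≤ n) (hn1 : n ≤ n₁) : ∀ x, G n x := by
  induction n, hn0 using Nat.le_induction with
  | base => exact hbase
  | succ m hm ih =>
    intro x
    have hm1 : m < n₁ := hn1
    exact hnext m x hm hm1 (hvan m hm hm1 (ih (le_of_lt hm1)) x)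

end Fermat.Agent.S56.SS.KNFam
end MergeWrap_S56_W4_C_KN_FamCore

section MergeWrap_S56_W4_C_KN_Fam -- from S56/W4/C/KN/Fam.lean

set_option autoImplicit false

namespace Fermat.Agent.S56.SS.KNFam

open Fermat.Agent.F4 ExtCitation Fermat.Agent.FFL Fermat.Agent.FlatMod Fermat.Agent.S56.SO
open Fermat.Agent.S56.SS.KNCoh Fermat.Agent.FFL.FB

local notation "Kb" => AlgebraicClosure ℚ
local notation "GK" => (AlgebraicClosure ℚ ≃ₐ[ℚ] AlgebraicClosure ℚ)

variable {p : ℕ} [Fact p.Prime] {k : Type} [Field k] {ρbar : ResidualGaloisRep k}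

/-! ### Preliminaries -/

theorem kumGE_congr (s : SSStruct p ρbar) {n : ℕ} {χ χ' : GK → ZMod p} {β : Kb}
    (h : ∀ γ ∈ I1 s, χ γ = χ' γ) (hβ : KumGE s n χ β) : KumGE s n χ' β :=
  ⟨hβ.1, fun γ hγ => by rw [← h γ hγ]; exact hβ.2.1 γ hγ, hβ.2.2⟩

theorem goodAt_congr (s : SSStruct p ρbar) {n : ℕ} {χ χ' : GK → ZMod p}
    (h : ∀ γ ∈ I1 s, χ γ = χ' γ) (hχ : GoodAt s n χ) : GoodAt s n χ' := by
  obtain ⟨β, hβ⟩ := hχ
  exact ⟨β, kumGE_congr s h hβ⟩

theorem lcIs_congr (s : SSStruct p ρbar) {n : ℕ} {χ χ' : GK → ZMod p} {a : Kres p}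
    (h : ∀ γ ∈ I1 s, χ γ = χ' γ) (hχ : LcIs s n χ a) : LcIs s n χ' a := by
  obtain ⟨β, hβ, hres⟩ := hχ
  exact ⟨β, kumGE_congr s h hβ, hres⟩

theorem LcIs.goodAt {s : SSStruct p ρbar} {n : ℕ} {χ : GK → ZMod p} {a : Kres p}
    (h : LcIs s n χ a) : GoodAt s n χ := by
  obtain ⟨β, hβ, -⟩ := h
  exact ⟨β, hβ⟩

/-- The character `γ ↦ l (x · c_ij(γ))`. -/
noncomputable def chiX (s : SSStruct p ρbar) (l : k →+ ZMod p) (c : GK → Module.End k ρbar.V) (i j : Fin 2)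
    (x : k) : GK → ZMod p :=
  fun γ => l (x * ent s c i j γ)

theorem goodCoc_chiX {s : SSStruct p ρbar} {c : GK → Module.End k ρbar.V} (hc : GoodCoc s c)
    (l : k →+ ZMod p) (i j : Fin 2) (x : k) : GoodAt s (p ^ 2 + 1) (chiX s l c i j x) :=
  hc i j (l.comp (AddMonoidHom.mulLeft x))

theorem ent_add (s : SSStruct p ρbar) (c c' : GK → Module.End k ρbar.V) (i j : Fin 2) (γ : GK) :
    ent s (fun σ => c σ + c' σ) i j γ = ent s c i j γ + ent s c' i j γ := by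
  simp [ent]

theorem ent_neg (s : SSStruct p ρbar) (c : GK → Module.End k ρbar.V) (i j : Fin 2) (γ : GK) :
    ent s (fun σ => -c σ) i j γ = -ent s c i j γ := by
  simp [ent]

theorem ent_zero (s : SSStruct p ρbar) (i j : Fin 2) (γ : GK) :
    ent s (fun _ => (0 : Module.End k ρbar.V)) i j γ = 0 := by
  simp [ent]

omit [Fact p.Prime] in
theorem one_le_level : 0 < p ^ 2 + 1 := Nat.succ_pos _

theorem level_le : p ^ 2 + 1 ≤ p ^ 2 + p :=
  Nat.add_le_add_left (Fact.out : p.Prime).one_lt.le _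

/-! ### GRP -/

theorem goodGrpProp (h0 : LevZeroProp p) (hneg : LevNegProp p) (hex : LevExistsProp p)
    (hadd : LevAddProp p) : GoodGrpProp p := by
  intro k _ _ ρbar s hp2 _
  refine ⟨?_, ?_, ?_⟩
  · intro i j l
    have h := LcIs.goodAt (h0 k ρbar s hp2 (p ^ 2 + 1))
    refine goodAt_congr s (fun γ _ => ?_) h
    rw [ent_zero, map_zero]
  · intro c c' hc hc' i j l
    obtain ⟨a, ha⟩ := hex k ρbar s hp2 _ _ one_le_level level_le (hc i j l)
    obtain ⟨a', ha'⟩ := hex k ρbar s hp2 _ _ one_le_level level_le (hc' i j l)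
    have h := LcIs.goodAt (hadd k ρbar s hp2 _ _ _ _ _ one_le_level ha ha')
    refine goodAt_congr s (fun γ _ => ?_) h
    rw [ent_add, map_add]
  · intro c hc i j l
    have h := hneg k ρbar s hp2 _ _ one_le_level (hc i j l)
    refine goodAt_congr s (fun γ _ => ?_) h
    rw [ent_neg, map_neg]

/-! ### Machinery -/

omit [Fact p.Prime] in
theorem hpk_of_det (hdet : DetCyc p ρbar) : (p : k) = 0 := by
  have h1 := hdet.1
  rw [IsLocalRing.mem_maximalIdeal, mem_nonunits_iff, isUnit_iff_ne_zero, not_not] at h1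
  exact h1

/-- The cyclotomic character of `σ`, as a natural number. -/
noncomputable def cycN (p : ℕ) [Fact p.Prime] (σ : GK) : ℕ :=
  ((cycloChar p σ : (ZMod p)ˣ) : ZMod p).val

theorem cycN_cast_zmod (σ : GK) : ((cycN p σ : ℕ) : ZMod p) = ((cycloChar p σ : (ZMod p)ˣ) : ZMod p) := by
  have : NeZero p := ⟨(Fact.out : p.Prime).ne_zero⟩
  rw [cycN, ZMod.natCast_val, ZMod.cast_id]

/-- `det ρbar σ` is the cyclotomic character. -/
theorem det_eq_cycN (hdet : DetCyc p ρbar) (σ : GK) :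
    LinearMap.det (ρbar.ρ σ) = ((cycN p σ : ℕ) : k) := by
  have h := hdet.2 1 σ (cycN p σ) (fun μ hμ => by
    rw [pow_one] at hμ
    exact cycloc_apply_root p σ μ hμ)
  have h0 : (((p ^ 1 : ℕ) : ℕ) : k) = 0 := by
    rw [pow_one]; exact hpk_of_det hdet
  rw [h0] at h
  have h2 : (Ideal.span {(0 : k)} : Ideal k) = ⊥ := by simp
  rw [h2, Ideal.mem_bot, sub_eq_zero] at h
  exact h

theorem cycN_cast_ne_zero (hdet : DetCyc p ρbar) (σ : GK) : ((cycN p σ : ℕ) : k) ≠ 0 := by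
  rw [← det_eq_cycN hdet σ]
  intro h0
  have h1 : LinearMap.det (ρbar.ρ σ * ρbar.ρ σ⁻¹) = 1 := by
    rw [← map_mul, mul_inv_cancel, map_one, map_one]
  rw [map_mul, h0, zero_mul] at h1
  exact zero_ne_one h1

/-- `cyc(σ) · l(y) = l(cyc(σ) y)`. -/
theorem cyc_mul_apply (l : k →+ ZMod p) (σ : GK) (y : k) :
    ((cycloChar p σ : (ZMod p)ˣ) : ZMod p) * l y = l (((cycN p σ : ℕ) : k) * y) := by
  rw [← cycN_cast_zmod, ← nsmul_eq_mul, ← map_nsmul, nsmul_eq_mul]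

theorem det_rho_tau (s : SSStruct p ρbar) : LinearMap.det (ρbar.ρ s.τ) = s.ψ s.τ ^ (p + 1) := by
  rw [← LinearMap.det_toMatrix s.b]
  have h := mat_rho s s.τ_mem
  rw [mat] at h
  rw [h, Matrix.det_diagonal, Fin.prod_univ_two]
  simp [dg, pow_succ, mul_comm]

/-- The general equivariance step. -/
theorem lcIs_equiv (hconj : LevConjProp p) [Finite k] (s : SSStruct p ρbar) (hp2 : p ≠ 2)
    (c : GK → Module.End k ρbar.V) (l : k →+ ZMod p) (i j : Fin 2)
    {σ : GK} (hσ : σ ∈ Dp p) (q : ℕ) (e : Kres p)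
    (hq : ∀ x ∈ Pp p, σ x - x ^ q ∈ (Pp p).nonunits) (he : IsRes (σ s.ϖ / s.ϖ) e) (t0 : k)
    (ht0 : ∀ γ ∈ I1 s, ((cycN p σ : ℕ) : k) * ent s c i j (σ⁻¹ * γ * σ) = t0 * ent s c i j γ)
    (n : ℕ) (x : k) (a : Kres p) (h : LcIs s n (chiX s l c i j x) a) :
    LcIs s n (chiX s l c i j (t0 * x)) (e ^ n * a ^ q) := by
  have h1 := hconj k ρbar s hp2 σ hσ q e hq he n _ a h
  refine lcIs_congr s (fun γ hγ => ?_) h1
  show ((cycloChar p σ : (ZMod p)ˣ) : ZMod p) * l (x * ent s c i j (σ⁻¹ * γ * σ)) =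
    l (t0 * x * ent s c i j γ)
  rw [cyc_mul_apply]
  congr 1
  have := ht0 γ hγ
  calc ((cycN p σ : ℕ) : k) * (x * ent s c i j (σ⁻¹ * γ * σ))
      = x * (((cycN p σ : ℕ) : k) * ent s c i j (σ⁻¹ * γ * σ)) := by ring
    _ = x * (t0 * ent s c i j γ) := by rw [this]
    _ = t0 * x * ent s c i j γ := by ring

/-- Conjugation by `τ⁻¹` on the entries. -/
theorem ent_conj_tau (s : SSStruct p ρbar) (d : ↥(Z1 levelsAll (ad0 ρbar))) (i j : Fin 2)
    {γ : GK} (hγ : γ ∈ I1 s) :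
    ent s (cE d) i j (s.τ⁻¹ * γ * s.τ) = (dg s s.τ i)⁻¹ * ent s (cE d) i j γ * dg s s.τ j := by
  have h := ent_conj_inertia s d (Subgroup.inv_mem _ s.τ_mem) hγ i j
  rw [inv_inv, dg_inv s s.τ_mem, dg_inv s s.τ_mem, inv_inv] at h
  exact h

theorem inertia_frobLike {σ : GK} (hσ : σ ∈ Ip p) :
    ∀ x ∈ Pp p, σ x - x ^ 1 ∈ (Pp p).nonunits := by
  intro x hx
  rw [pow_one]
  exact Fermat.Agent.Cyclo.inertia_sub_mem_nonunits (A := Pp p) hσ hx

theorem Ip_le_Dp {σ : GK} (hσ : σ ∈ Ip p) : σ ∈ Dp p := by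
  obtain ⟨d, -, rfl⟩ := hσ
  exact d.2

/-- Additive maps to `ℤ/p` separate the points of `k`. -/
theorem exists_addHom_ne (hpk : (p : k) = 0) {y : k} (hy : y ≠ 0) : ∃ l : k →+ ZMod p, l y ≠ 0 := by
  haveI : CharP k p := (CharP.charP_iff_prime_eq_zero (Fact.out : p.Prime)).2 hpk
  letI : Algebra (ZMod p) k := ZMod.algebra k p
  obtain ⟨f, hf⟩ := Module.Projective.exists_dual_ne_zero (ZMod p) hy
  exact ⟨f.toAddMonoidHom, hf⟩

/-- The leading coefficient relation of a family at a level where all its members are good. -/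
theorem isAddRel_level (hex : LevExistsProp p) (huniq : LevUniqueProp p) (hadd : LevAddProp p)
    [Finite k] (s : SSStruct p ρbar) (hp2 : p ≠ 2) (hdet : DetCyc p ρbar)
    (c : GK → Module.End k ρbar.V) (l : k →+ ZMod p) (i j : Fin 2) (n : ℕ)
    (hn1 : p ^ 2 + 1 ≤ n) (hn2 : n < p ^ 2 + p)
    (hG : ∀ x, GoodAt s n (chiX s l c i j x)) :
    IsAddRel (fun (x : k) (a : Kres p) => LcIs s n (chiX s l c i j x) a) where
  tot := fun x => hex k ρbar s hp2 n _ (lt_of_lt_of_le one_le_level hn1) hn2.le (hG x)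
  uniq := fun x a a' h h' => huniq k ρbar s hp2 hdet n _ a a' hn1 hn2 h h'
  add := fun x y a b h h' => by
    have h1 := hadd k ρbar s hp2 n _ _ a b (lt_of_lt_of_le one_le_level hn1) h h'
    refine lcIs_congr s (fun γ _ => ?_) h1
    show l (x * ent s c i j γ) + l (y * ent s c i j γ) = l ((x + y) * ent s c i j γ)
    rw [add_mul, map_add]

/-! ### DIAG -/

theorem diagProp (hex : LevExistsProp p) (huniq : LevUniqueProp p) (hadd : LevAddProp p)
    (hnext : LevNextProp p) (htop : LevTopProp p) (hconj : LevConjProp p) (htame : TameProp p) :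
    DiagProp p := by
  intro k _ _ ρbar s hp2 hdet c hc γ hγ
  by_contra hne
  obtain ⟨l, hl⟩ := exists_addHom_ne (hpk_of_det hdet) hne
  obtain ⟨lam, hlam, hlamN, hcyc, -⟩ := htame k ρbar s hp2 hdet
  have hlam0 : lam ≠ 0 := by
    intro h0
    rw [h0, zero_pow] at hlamN
    · exact zero_ne_one hlamN
    · have := (Fact.out : p.Prime).two_le
      have : 4 ≤ p ^ 2 := by nlinarith
      omega
  have key : ∀ n, p ^ 2 + 1 ≤ n → n ≤ p ^ 2 + p → ∀ x, GoodAt s n (chiX s l (cE c) 0 0 x) := by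
    intro n hn1 hn2
    refine fam_induction (κ := Kres p) (fun n x => GoodAt s n (chiX s l (cE c) 0 0 x))
      (fun n x a => LcIs s n (chiX s l (cE c) 0 0 x) a) (p ^ 2 + 1) (p ^ 2 + p)
      (fun x => goodCoc_chiX hc l 0 0 x)
      (fun n x h1 h2 h => hnext k ρbar s hp2 hdet n _ h1 h2 h) ?_ n hn1 hn2
    intro n h1 h2 hG x
    refine fam_vanish (isAddRel_level hex huniq hadd s hp2 hdet (cE c) l 0 0 n h1 h2 hG)
      (fun x => ((cycN p s.τ : ℕ) : k) * x) (lam ^ n) (cycN p s.τ : ℤ) 0 ?_ ?_ ?_ x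
    · intro x a ha
      have h := lcIs_equiv hconj s hp2 (cE c) l 0 0 (Ip_le_Dp s.τ_mem) 1 lam
        (inertia_frobLike s.τ_mem) hlam ((cycN p s.τ : ℕ) : k) (fun γ hγ => by
          rw [ent_conj_tau s c 0 0 hγ]
          have h0 := dg_ne_zero s s.τ_mem 0
          field_simp) n x a ha
      rwa [pow_one] at h
    · intro x
      simp only [zero_smul, add_zero, zsmul_eq_mul, Int.cast_natCast]
    · have hz : lam ^ n ≠ 0 := pow_ne_zero _ hlam0
      have hz2 := hcyc n h1 h2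
      have : (lam ^ n) ^ 2 - ((cycN p s.τ : ℤ) : Kres p) * lam ^ n + ((0 : ℤ) : Kres p) =
          lam ^ n * (lam ^ n - ((cycN p s.τ : ℕ) : Kres p)) := by
        push_cast; ring
      rw [this]
      refine mul_ne_zero hz (sub_ne_zero.2 (Ne.symm ?_))
      exact hz2
  have h := htop k ρbar s hp2 hdet _ (key (p ^ 2 + p) level_le le_rfl 1) γ hγ
  apply hl
  have h' : l (1 * ent s (cE c) 0 0 γ) = 0 := h
  rwa [one_mul] at h'

end Fermat.Agent.S56.SS.KNFam
end MergeWrap_S56_W4_C_KN_Fam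

section MergeWrap_S56_W4_C_KN_Key -- from S56/W4/C/KN/Key.lean

set_option autoImplicit false

namespace Fermat.Agent.S56.SS.KNFam

open Fermat.Agent.F4 ExtCitation Fermat.Agent.FFL Fermat.Agent.FlatMod Fermat.Agent.S56.SO
open Fermat.Agent.S56.SS.KNCoh Fermat.Agent.FFL.FB

local notation "Kb" => AlgebraicClosure ℚ
local notation "GK" => (AlgebraicClosure ℚ ≃ₐ[ℚ] AlgebraicClosure ℚ)

variable {p : ℕ} [Fact p.Prime] {k : Type} [Field k] {ρbar : ResidualGaloisRep k}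

/-- Frobenius² acts trivially on the entry `(0,1)` of a cocycle on `I₁`. -/
theorem ent_conj_frob2' (s : SSStruct p ρbar) {φ : GK} (hφ : (Pp p).IsFrobeniusAt φ p)
    (d : ↥(Z1 levelsAll (ad0 ρbar))) {γ : GK} (hγ : γ ∈ I1 s) :
    ent s (cE d) 0 1 ((φ * φ)⁻¹ * γ * (φ * φ)) = ent s (cE d) 0 1 γ := by
  have hφD : φ ∈ Dp p := hφ.mem_decompositionSubgroup
  have hΦD : (φ * φ)⁻¹ ∈ Dp p := Subgroup.inv_mem _ (Subgroup.mul_mem _ hφD hφD)
  have hγ' : (φ * φ)⁻¹ * γ * (φ * φ) ∈ I1 s := by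
    have := conj_mem_I1 s hΦD hγ
    rwa [inv_inv] at this
  set γ' := (φ * φ)⁻¹ * γ * (φ * φ) with hγ'def
  have hγeq : γ = (φ * φ) * γ' * (φ * φ)⁻¹ := by
    rw [hγ'def]; group
  have h1 : (d : GQ → ad0 ρbar) γ =
      (ad0 ρbar).ρ φ ((ad0 ρbar).ρ φ ((d : GQ → ad0 ρbar) γ')) := by
    conv_lhs => rw [hγeq]
    rw [coc_conj s d (φ * φ) hγ', map_mul, Module.End.mul_apply]
  obtain ⟨hF01, hF10, -, -, -, hA⟩ := mat_act_frob s hφ ((d : GQ → ad0 ρbar) γ')
  obtain ⟨-, -, -, -, hB, -⟩ := mat_act_frob s hφ ((ad0 ρbar).ρ φ ((d : GQ → ad0 ρbar) γ'))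
  rw [← h1] at hB
  have e1 : ent s (cE d) 0 1 γ = mat s.b (toEnd ρbar ((d : GQ → ad0 ρbar) γ)) 0 1 :=
    (mat_apply _ _ _ _).symm
  have e2 : ent s (cE d) 0 1 γ' = mat s.b (toEnd ρbar ((d : GQ → ad0 ρbar) γ')) 0 1 :=
    (mat_apply _ _ _ _).symm
  rw [e1, e2]
  have h2 : mat s.b (toEnd ρbar ((d : GQ → ad0 ρbar) γ)) 0 1 * (mat s.b (ρbar.ρ φ) 1 0 *
      mat s.b (ρbar.ρ φ) 0 1) = mat s.b (toEnd ρbar ((d : GQ → ad0 ρbar) γ')) 0 1 *
      (mat s.b (ρbar.ρ φ) 1 0 * mat s.b (ρbar.ρ φ) 0 1) := by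
    linear_combination (mat s.b (ρbar.ρ φ) 0 1) * hB + (mat s.b (ρbar.ρ φ) 0 1) * hA
  exact (mul_right_cancel₀ (mul_ne_zero hF10 hF01) h2).symm

/-- `σ ϖ / ϖ` is integral for `σ` in the decomposition group. -/
theorem exists_isRes_conj' (s : SSStruct p ρbar) {σ : GK} (hσ : σ ∈ Dp p) :
    ∃ e : Kres p, IsRes (σ s.ϖ / s.ϖ) e := by
  have hp0 : (p : Kb) ≠ 0 := by
    exact_mod_cast (Fact.out : p.Prime).ne_zero
  have hϖ0 : s.ϖ ≠ 0 := s.ϖ_le.1
  have hN : p ^ 2 - 1 ≠ 0 := by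
    have := (Fact.out : p.Prime).two_le
    have : 4 ≤ p ^ 2 := by nlinarith
    omega
  have h1 : s.ϖ ^ (p ^ 2 - 1) / (p : Kb) ^ 1 ∈ Pp p := s.ϖ_ge
  have h2 : (p : Kb) ^ 1 / s.ϖ ^ (p ^ 2 - 1) ∈ Pp p := s.ϖ_le.2
  have h3 : σ (s.ϖ ^ (p ^ 2 - 1) / (p : Kb) ^ 1) ∈ Pp p :=
    Fermat.Agent.S56.TWGen.apply_mem (Pp p) hσ h1
  have h4 : (σ s.ϖ / s.ϖ) ^ (p ^ 2 - 1) =
      σ (s.ϖ ^ (p ^ 2 - 1) / (p : Kb) ^ 1) * ((p : Kb) ^ 1 / s.ϖ ^ (p ^ 2 - 1)) := by
    rw [map_div₀, map_pow, map_pow, map_natCast, div_pow]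
    field_simp
  have h5 : (σ s.ϖ / s.ϖ) ^ (p ^ 2 - 1) ∈ Pp p := by
    rw [h4]; exact (Pp p).mul_mem _ _ h3 h2
  have h6 : σ s.ϖ / s.ϖ ∈ Pp p := by
    rw [← (Pp p).valuation_le_one_iff] at h5 ⊢
    rw [map_pow] at h5
    by_contra hlt
    rw [not_le] at hlt
    exact absurd h5 (not_le.2 (one_lt_pow₀ hlt hN))
  exact ⟨_, h6, rfl⟩

/-- The residue field has characteristic `p`. -/
theorem kres_charP' (p : ℕ) [Fact p.Prime] : CharP (Kres p) p := by
  refine (CharP.charP_iff_prime_eq_zero (Fact.out : p.Prime)).2 ?_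
  have h1 : (p : Kb) ∈ (Pp p).nonunits := so_liesOver p
  obtain ⟨hp, hmem⟩ := ((Pp p).mem_nonunits_iff_exists_mem_maximalIdeal).1 h1
  have h2 : IsLocalRing.residue ↥(Pp p) ⟨(p : Kb), hp⟩ = 0 :=
    (IsLocalRing.residue_eq_zero_iff _).2 hmem
  have h3 : (⟨(p : Kb), hp⟩ : ↥(Pp p)) = ((p : ℕ) : ↥(Pp p)) := by
    apply Subtype.ext; simp
  rw [h3, map_natCast] at h2
  exact h2

/-! ### KEY -/

theorem keyProp (h0 : LevZeroProp p) (hneg : LevNegProp p) (hex : LevExistsProp p)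
    (huniq : LevUniqueProp p) (hadd : LevAddProp p) (hnext : LevNextProp p)
    (htop : LevTopProp p) (hconj : LevConjProp p) (htame : TameProp p)
    (hgen : FieldGenProp p) : KeyProp p := by
  intro k _ _ ρbar s hp2 hdet
  classical
  have hpk := hpk_of_det hdet
  have : CharP (Kres p) p := kres_charP' p
  have hp := (Fact.out : p.Prime)
  have hp2le := hp.two_le
  have hp4 : 4 ≤ p ^ 2 := by nlinarith
  obtain ⟨l1, hl1⟩ := exists_addHom_ne (p := p) hpk (one_ne_zero : (1 : k) ≠ 0)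
  obtain ⟨lam, hlam, hlamN, -, t', n', hrel0, hne0⟩ := htame k ρbar s hp2 hdet
  obtain ⟨φ, hφ⟩ := Fermat.Agent.S56.TWGen.exists_isFrobeniusAt (Pp p) p hp (so_liesOver p)
  have hφD : φ ∈ Dp p := hφ.mem_decompositionSubgroup
  have hΦD : φ * φ ∈ Dp p := Subgroup.mul_mem _ hφD hφD
  obtain ⟨eΦ, heΦ⟩ := exists_isRes_conj' s hΦD
  have hΦq : ∀ x ∈ Pp p, (φ * φ) x - x ^ (p ^ 2) ∈ (Pp p).nonunits := by
    intro x hx
    have := Fermat.Agent.S56.TWGen.frob_pow_sub_pow_mem (Pp p) φ p hφ 2 hx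
    rwa [pow_two] at this
  have hβ0 : ((cycN p (φ * φ) : ℕ) : k) ≠ 0 := cycN_cast_ne_zero hdet _
  have hlamp : lam ^ (p ^ 2) = lam := by
    have e : p ^ 2 = (p ^ 2 - 1) + 1 := by omega
    rw [e, pow_succ, hlamN, one_mul]
  have hz : (lam ^ (p ^ 2 + 1)) ^ (p ^ 2) = lam ^ (p ^ 2 + 1) := by
    rw [← pow_mul, mul_comm, pow_mul, hlamp]
  have hψ0 : s.ψ s.τ ≠ 0 := s.ne_zero
  have hν1 : (s.ψ s.τ ^ (2 * p)) ^ (p ^ 2) = s.ψ s.τ ^ (2 * p) := by
    rw [← pow_mul, mul_comm, pow_mul, s.fp2 s.τ s.τ_mem]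
  have hν2 : (s.ψ s.τ ^ (2 * p)) ^ p ≠ s.ψ s.τ ^ (2 * p) := by
    intro h
    have h1 : s.ψ s.τ ^ (2 * p * p) = s.ψ s.τ ^ (2 * p) := by rw [pow_mul]; exact h
    have h2 : s.ψ s.τ ^ (2 * p * p) = s.ψ s.τ ^ 2 := by
      have e : 2 * p * p = p ^ 2 * 2 := by ring
      rw [e, pow_mul, s.fp2 s.τ s.τ_mem]
    rw [h2] at h1
    have e : 2 * p = 2 + (2 * p - 2) := by omega
    rw [e, pow_add] at h1
    have h3 : s.ψ s.τ ^ (2 * p - 2) = 1 := by
      have h4 : s.ψ s.τ ^ 2 * 1 = s.ψ s.τ ^ 2 * s.ψ s.τ ^ (2 * p - 2) := by rw [mul_one]; exact h1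
      exact (mul_left_cancel₀ (pow_ne_zero 2 hψ0) h4).symm
    have h5 := s.ord (2 * p - 2) (by omega) h3
    have h6 : 2 * p ≤ p ^ 2 := by nlinarith
    have h7 : p ^ 2 + 1 ≤ 2 * p := by omega
    nlinarith
  obtain ⟨g, x, hgenx, hcard⟩ := hgen k hpk _ hν1 hν2
  obtain ⟨hSfin, hScard⟩ := countCore_ncard_le p 2 (by norm_num) (s.ψ s.τ ^ (2 * p))
    ((cycN p (φ * φ) : ℕ) : k) hβ0 (lam ^ (p ^ 2 + 1)) (eΦ ^ (p ^ 2 + 1)) hz x hgenx
  have hlev : p ^ 2 + 1 < p ^ 2 + p := by have := hp.one_lt; omega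
  have hR : ∀ c : ↥(Z1 levelsAll (ad0 ρbar)), GoodCoc s (cE c) →
      IsAddRel (fun (x : k) (a : Kres p) => LcIs s (p ^ 2 + 1) (chiX s l1 (cE c) 0 1 x) a) :=
    fun c hc => isAddRel_level hex huniq hadd s hp2 hdet (cE c) l1 0 1 (p ^ 2 + 1) le_rfl hlev
      (goodCoc_chiX hc l1 0 1)
  -- equivariance for `τ`
  have hτ : ∀ (c : ↥(Z1 levelsAll (ad0 ρbar))) (n : ℕ) (x : k) (a : Kres p),
      LcIs s n (chiX s l1 (cE c) 0 1 x) a →
      LcIs s n (chiX s l1 (cE c) 0 1 (s.ψ s.τ ^ (2 * p) * x)) (lam ^ n * a) := by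
    intro c n x a ha
    have h := lcIs_equiv hconj s hp2 (cE c) l1 0 1 (Ip_le_Dp s.τ_mem) 1 lam
      (inertia_frobLike s.τ_mem) hlam (s.ψ s.τ ^ (2 * p)) (fun γ hγ => by
        rw [ent_conj_tau s c 0 1 hγ, ← det_eq_cycN hdet, det_rho_tau]
        have e0 : dg s s.τ 0 = s.ψ s.τ := rfl
        have e1 : dg s s.τ 1 = s.ψ s.τ ^ p := rfl
        rw [e0, e1]
        field_simp
        ring) n x a ha
    rwa [pow_one] at h
  -- equivariance for `φ²`
  have hΦ : ∀ (c : ↥(Z1 levelsAll (ad0 ρbar))) (n : ℕ) (x : k) (a : Kres p),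
      LcIs s n (chiX s l1 (cE c) 0 1 x) a →
      LcIs s n (chiX s l1 (cE c) 0 1 (((cycN p (φ * φ) : ℕ) : k) * x))
        (eΦ ^ n * a ^ (p ^ 2)) := by
    intro c n x a ha
    exact lcIs_equiv hconj s hp2 (cE c) l1 0 1 hΦD (p ^ 2) eΦ hΦq heΦ _
      (fun γ hγ => by rw [ent_conj_frob2' s hφ c hγ]) n x a ha
  refine ⟨semiSol (s.ψ s.τ ^ (2 * p)) ((cycN p (φ * φ) : ℕ) : k) (lam ^ (p ^ 2 + 1))
      (eΦ ^ (p ^ 2 + 1)) (p ^ 2),
    fun c => if hc : GoodCoc s (cE c) then famFun (hR c hc) else 0, hSfin, ?_, ?_, ?_⟩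
  · rw [← hcard]; exact hScard
  · intro c hc
    beta_reduce
    rw [dif_pos hc]
    refine ⟨fun x y => famFun_add _ x y, fun x => ?_, fun x => ?_⟩
    · exact famFun_eq _ (hτ c _ x _ (famFun_spec _ x))
    · exact famFun_eq _ (hΦ c _ x _ (famFun_spec _ x))
  · intro c c' hc hc' hK γ hγ
    beta_reduce at hK
    rw [dif_pos hc, dif_pos hc'] at hK
    obtain ⟨-, hgadd, hgneg⟩ := goodGrpProp h0 hneg hex hadd k ρbar s hp2 hdet
    have hdE : ∀ σ, cE (c - c') σ = cE c σ + -cE c' σ := fun σ => by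
      rw [← sub_eq_add_neg]; rfl
    have hdent : ∀ (i j : Fin 2) (γ : GK),
        ent s (cE (c - c')) i j γ = ent s (cE c) i j γ - ent s (cE c') i j γ := by
      intro i j γ
      have e : cE (c - c') = fun σ => cE c σ + (fun σ => -cE c' σ) σ := funext hdE
      rw [e, ent_add, ent_neg, sub_eq_add_neg]
    have hd : GoodCoc s (cE (c - c')) := by
      have e : cE (c - c') = fun σ => cE c σ + -cE c' σ := funext hdE
      rw [e]
      exact hgadd _ _ hc (hgneg _ hc')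
    -- at the base level all leading coefficients of `c - c'` vanish
    have hbase0 : ∀ x, LcIs s (p ^ 2 + 1) (chiX s l1 (cE (c - c')) 0 1 x) 0 := by
      intro x
      have ha : LcIs s (p ^ 2 + 1) (chiX s l1 (cE c) 0 1 x) (famFun (hR c' hc') x) := by
        rw [← hK]; exact famFun_spec (hR c hc) x
      have ha' := famFun_spec (hR c' hc') x
      have hgn : GoodAt s (p ^ 2 + 1) (fun γ => -chiX s l1 (cE c') 0 1 x γ) :=
        hneg k ρbar s hp2 _ _ one_le_level (LcIs.goodAt ha')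
      obtain ⟨b, hb⟩ := hex k ρbar s hp2 _ _ one_le_level level_le hgn
      have hsum := hadd k ρbar s hp2 _ _ _ _ b one_le_level ha' hb
      have hzero : LcIs s (p ^ 2 + 1) (fun _ => 0) (famFun (hR c' hc') x + b) :=
        lcIs_congr s (fun γ _ => by simp) hsum
      have hab : famFun (hR c' hc') x + b = 0 :=
        huniq k ρbar s hp2 hdet _ _ _ _ le_rfl hlev hzero (h0 k ρbar s hp2 _)
      have hsum2 := hadd k ρbar s hp2 _ _ _ _ b one_le_level ha hb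
      rw [hab] at hsum2
      refine lcIs_congr s (fun γ _ => ?_) hsum2
      show l1 (x * ent s (cE c) 0 1 γ) + -l1 (x * ent s (cE c') 0 1 γ) =
        l1 (x * ent s (cE (c - c')) 0 1 γ)
      rw [hdent, mul_sub, map_sub, sub_eq_add_neg]
    have key : ∀ n, p ^ 2 + 1 ≤ n → n ≤ p ^ 2 + p →
        ∀ x, GoodAt s n (chiX s l1 (cE (c - c')) 0 1 x) := by
      intro n hn1 hn2
      refine fam_induction (κ := Kres p)
        (fun n x => GoodAt s n (chiX s l1 (cE (c - c')) 0 1 x))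
        (fun n x a => LcIs s n (chiX s l1 (cE (c - c')) 0 1 x) a) (p ^ 2 + 1) (p ^ 2 + p)
        (fun x => goodCoc_chiX hd l1 0 1 x)
        (fun n x h1 h2 h => hnext k ρbar s hp2 hdet n _ h1 h2 h) ?_ n hn1 hn2
      intro n h1 h2 hG x
      rcases eq_or_lt_of_le h1 with h | h
      · rw [← h]; exact hbase0 x
      · refine fam_vanish (isAddRel_level hex huniq hadd s hp2 hdet (cE (c - c')) l1 0 1 n h1 h2 hG)
          (fun x => s.ψ s.τ ^ (2 * p) * x) (lam ^ n) t' n'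
          (fun x a ha => hτ (c - c') n x a ha) ?_ (hne0 n h h2) x
        intro x
        rw [zsmul_eq_mul, zsmul_eq_mul]
        linear_combination x * hrel0
    have htop' := fun x => htop k ρbar s hp2 hdet _ (key (p ^ 2 + p) level_le le_rfl x) γ hγ
    by_contra hne
    have hd0 : ent s (cE (c - c')) 0 1 γ ≠ 0 := by
      rw [hdent]; exact sub_ne_zero.2 hne
    apply hl1
    have h1 : l1 ((ent s (cE (c - c')) 0 1 γ)⁻¹ * ent s (cE (c - c')) 0 1 γ) = 0 :=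
      htop' (ent s (cE (c - c')) 0 1 γ)⁻¹
    rwa [inv_mul_cancel₀ hd0] at h1

end Fermat.Agent.S56.SS.KNFam
end MergeWrap_S56_W4_C_KN_Key

section MergeWrap_S56_W4_C_KN_Asm -- from S56/W4/C/KN/Asm.lean

set_option autoImplicit false

namespace Fermat.Agent.S56.SS.KNAsm

open Fermat.Agent.F4 ExtCitation Fermat.Agent.S56.SO Fermat.Agent.S56.SS.KNCoh Matrix

variable {p : ℕ} [Fact p.Prime] {k : Type} [Field k] {ρbar : ResidualGaloisRep k}

/-! ### The entries of a cocycle -/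

theorem ent_cE (s : SSStruct p ρbar) (c : ↥(Z1 levelsAll (ad0 ρbar))) (i j : Fin 2) (γ : GQ) :
    ent s (cE c) i j γ = mat s.b (toEnd ρbar ((c : GQ → ad0 ρbar) γ)) i j := by
  rw [mat_apply]
  rfl

theorem cE_zero : cE (0 : ↥(Z1 levelsAll (ad0 ρbar))) = fun _ => (0 : Module.End k ρbar.V) := rfl

theorem cE_add (c c' : ↥(Z1 levelsAll (ad0 ρbar))) :
    cE (c + c') = fun σ => cE c σ + cE c' σ := rfl

theorem cE_neg (c : ↥(Z1 levelsAll (ad0 ρbar))) : cE (-c) = fun σ => -cE c σ := rfl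

omit [Fact p.Prime] in
/-- `(p : k) = 0` from the determinant condition. -/
theorem natCast_eq_zero_of_detCyc (hdet : DetCyc p ρbar) : (p : k) = 0 := by
  have h := hdet.1
  rwa [IsLocalRing.mem_maximalIdeal, mem_nonunits_iff, isUnit_iff_ne_zero, not_not] at h

/-! ### Two good cocycles with the same entry `(0, 1)` on `I₁` agree on `I₁` -/

/-- If the entries `(0, 0)` and `(0, 1)` of `c` and `c'` agree on `I₁`, then `c = c'` on `I₁`. -/
theorem eq_on_I1 (s : SSStruct p ρbar) (c c' : ↥(Z1 levelsAll (ad0 ρbar)))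
    (h00 : ∀ γ ∈ I1 s, ent s (cE c) 0 0 γ = ent s (cE c') 0 0 γ)
    (h01 : ∀ γ ∈ I1 s, ent s (cE c) 0 1 γ = ent s (cE c') 0 1 γ) :
    ∀ γ ∈ I1 s, (c : GQ → ad0 ρbar) γ = (c' : GQ → ad0 ρbar) γ := by
  obtain ⟨φ, hΦ, -⟩ := Fermat.Agent.S56.TWGen.exists_frob_gen (pPrime p)
  have hΦ' : (Pp p).IsFrobeniusAt (locp p φ) p := hΦ
  have hΦD : locp p φ ∈ Dp p := hΦ'.mem_decompositionSubgroup
  intro γ hγ
  have e00 := h00 γ hγ
  have e01 := h01 γ hγ
  rw [ent_cE, ent_cE] at e00 e01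
  have t := mat_trace ρbar s.b ((c : GQ → ad0 ρbar) γ)
  have t' := mat_trace ρbar s.b ((c' : GQ → ad0 ρbar) γ)
  -- the entry (1, 0), by conjugation with the Frobenius element
  have e10 : mat s.b (toEnd ρbar ((c : GQ → ad0 ρbar) γ)) 1 0 =
      mat s.b (toEnd ρbar ((c' : GQ → ad0 ρbar) γ)) 1 0 := by
    have hγ' : locp p φ * γ * (locp p φ)⁻¹ ∈ I1 s := conj_mem_I1 s hΦD hγ
    have f01 := h01 _ hγ'
    rw [ent_cE, ent_cE, coc_conj s c _ hγ, coc_conj s c' _ hγ] at f01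
    obtain ⟨hF01, hF10, -, -, m1, -⟩ := mat_act_frob s hΦ' ((c : GQ → ad0 ρbar) γ)
    obtain ⟨-, -, -, -, m1', -⟩ := mat_act_frob s hΦ' ((c' : GQ → ad0 ρbar) γ)
    rw [f01, m1'] at m1
    exact (mul_left_cancel₀ hF01 m1).symm
  refine ad0_ext ρbar s.b fun i j => ?_
  fin_cases i <;> fin_cases j
  · exact e00
  · exact e01
  · exact e10
  · show mat s.b (toEnd ρbar ((c : GQ → ad0 ρbar) γ)) 1 1 =
      mat s.b (toEnd ρbar ((c' : GQ → ad0 ρbar) γ)) 1 1
    rw [eq_neg_of_add_eq_zero_right t, eq_neg_of_add_eq_zero_right t', e00]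

end Fermat.Agent.S56.SS.KNAsm

/-! ### The assembly -/

namespace Fermat.Agent.S56.SS

open Fermat.Agent.F4 ExtCitation Fermat.Agent.S56.SO Fermat.Agent.S56.SS.KNCoh
open Fermat.Agent.S56.SS.KNAsm

/-- **Block KN**, assembly. -/
theorem countProp (p : ℕ) [Fact p.Prime] (hG : GoodGrpProp p) (hD : DiagProp p) (hK : KeyProp p) : CountProp p := by
  intro k _ _ ρbar s hp2 hdet
  have hpk : (p : k) = 0 := natCast_eq_zero_of_detCyc hdet
  obtain ⟨g0, gadd, gneg⟩ := hG k ρbar s hp2 hdet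
  obtain ⟨S, K, hSfin, hScard, hKS, hKinj⟩ := hK k ρbar s hp2 hdet
  -- the subgroup of good cocycles
  let Gd : AddSubgroup ↥(Z1 levelsAll (ad0 ρbar)) :=
    { carrier := {c | GoodCoc s (cE c)}
      zero_mem' := g0
      add_mem' := fun {c c'} hc hc' => gadd (cE c) (cE c') hc hc'
      neg_mem' := fun {c} hc => gneg (cE c) hc }
  let Φ : ↥(Z1 levelsAll (ad0 ρbar)) →+ H1loc (ad0 ρbar) (pPrime p) :=
    (resLoc (ad0 ρbar) (pPrime p)).toAddMonoidHom.comp
      (H1smπ levelsAll (ad0 ρbar)).toAddMonoidHom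
  have hΦ : ∀ c, Φ c = resLoc (ad0 ρbar) (pPrime p) (H1smπ levelsAll (ad0 ρbar) c) :=
    fun _ => rfl
  refine ⟨Gd.map Φ, ?_, ?_⟩
  · rintro x ⟨c, rfl, hc⟩
    exact ⟨c, hc, rfl⟩
  -- the count
  have hex : ∀ y : ↥(Gd.map Φ), ∃ c : ↥(Z1 levelsAll (ad0 ρbar)),
      GoodCoc s (cE c) ∧ Φ c = y.1 := fun y => y.2
  choose rep hrep_good hrep using hex
  have : Finite ↥S := hSfin.to_subtype
  let f : ↥(Gd.map Φ) → ↥S := fun y => ⟨K (rep y), hKS _ (hrep_good y)⟩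
  have hf : Function.Injective f := by
    intro y y' hyy'
    have hKeq : K (rep y) = K (rep y') := congrArg Subtype.val hyy'
    have h01 := hKinj _ _ (hrep_good y) (hrep_good y') hKeq
    have h00 : ∀ γ ∈ I1 s, ent s (cE (rep y)) 0 0 γ = ent s (cE (rep y')) 0 0 γ := by
      intro γ hγ
      rw [hD k ρbar s hp2 hdet (rep y) (hrep_good y) γ hγ,
        hD k ρbar s hp2 hdet (rep y') (hrep_good y') γ hγ]
    have hloc := resLoc_eq_of_eq_on_I1 s hp2 hpk (rep y) (rep y')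
      (eq_on_I1 s (rep y) (rep y') h00 h01)
    apply Subtype.ext
    rw [← hrep y, ← hrep y', hΦ, hΦ, hloc]
  refine ⟨Finite.of_injective f hf, ?_⟩
  calc Nat.card ↥(Gd.map Φ) ≤ Nat.card ↥S := Nat.card_le_card_of_injective f hf
    _ = S.ncard := Nat.card_coe_set_eq S
    _ ≤ Nat.card k := hScard

end Fermat.Agent.S56.SS
end MergeWrap_S56_W4_C_KN_Asm

section MergeWrap_S56_W4_C_KN_LevA_Val -- from S56/W4/C/KN/LevA/Val.lean

set_option autoImplicit false

namespace Fermat.Agent.S56.SS.LevA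

variable {K : Type*} [Field K] (P : ValuationSubring K)

/-- `v(x) ≥ a / b` for `v(π) = 1`. -/
def VGe (π x : K) (a b : ℕ) : Prop := x ^ b / π ^ a ∈ P

variable {P}

lemma vge_iff {π : K} (hπ : π ≠ 0) (x : K) (a b : ℕ) :
    VGe P π x a b ↔ P.valuation x ^ b ≤ P.valuation π ^ a := by
  unfold VGe
  rw [← P.valuation_le_one_iff, map_div₀, map_pow, map_pow]
  have h0 : P.valuation π ^ a ≠ 0 := pow_ne_zero _ ((Valuation.ne_zero_iff _).2 hπ)
  rw [div_le_one₀ (zero_lt_iff.2 h0)]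

lemma val_pow_le_pow_iff {x y : K} {n : ℕ} (hn : n ≠ 0) :
    P.valuation x ^ n ≤ P.valuation y ^ n ↔ P.valuation x ≤ P.valuation y :=
  pow_le_pow_iff_left₀ zero_le zero_le hn

lemma mem_of_pow_mem {x : K} {n : ℕ} (hn : n ≠ 0) (h : x ^ n ∈ P) : x ∈ P := by
  rw [← P.valuation_le_one_iff] at h ⊢
  rw [map_pow] at h
  have := (val_pow_le_pow_iff (P := P) (x := x) (y := 1) hn).1 (by rwa [map_one, one_pow])
  rwa [map_one] at this

lemma mem_nonunits_of_pow_mem {x : K} {n : ℕ} (h : x ^ n ∈ P.nonunits) :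
    x ∈ P.nonunits := by
  rw [ValuationSubring.mem_nonunits_iff] at h ⊢
  rw [map_pow] at h
  by_contra hx
  rw [not_lt] at hx
  have := one_le_pow₀ (n := n) hx
  exact absurd h (not_lt.2 this)

lemma vge_mem_nonunits {π : K} (hπ0 : π ≠ 0) (hπ : π ∈ P.nonunits) {x : K} {a b : ℕ}
    (ha : a ≠ 0) (h : VGe P π x a b) : x ∈ P.nonunits := by
  rw [vge_iff hπ0] at h
  rw [ValuationSubring.mem_nonunits_iff] at hπ ⊢
  have h1 : P.valuation π ^ a < 1 := pow_lt_one₀ zero_le hπ ha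
  have h2 : P.valuation x ^ b < 1 := lt_of_le_of_lt h h1
  by_contra hx
  rw [not_lt] at hx
  exact absurd h2 (not_lt.2 (one_le_pow₀ hx))

lemma vge_add {π : K} (hπ0 : π ≠ 0) {x y : K} {a b : ℕ} (hx : VGe P π x a b)
    (hy : VGe P π y a b) : VGe P π (x + y) a b := by
  rw [vge_iff hπ0] at hx hy ⊢
  rcases le_total (P.valuation x) (P.valuation y) with h | h
  · have h1 : P.valuation (x + y) ≤ P.valuation y :=
      (P.valuation.map_add x y).trans (max_le h le_rfl)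
    exact (pow_le_pow_left₀ zero_le h1 b).trans hy
  · have h1 : P.valuation (x + y) ≤ P.valuation x :=
      (P.valuation.map_add x y).trans (max_le le_rfl h)
    exact (pow_le_pow_left₀ zero_le h1 b).trans hx

lemma vge_mul_mem {π : K} {x y : K} {a b : ℕ} (hx : VGe P π x a b) (hy : y ∈ P) :
    VGe P π (x * y) a b := by
  unfold VGe at hx ⊢
  have : (x * y) ^ b / π ^ a = x ^ b / π ^ a * y ^ b := by
    rw [mul_pow]; ring
  rw [this]
  exact P.mul_mem _ _ hx (P.pow_mem hy b)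

lemma vge_neg {π : K} {x : K} {a b : ℕ} (hx : VGe P π x a b) : VGe P π (-x) a b := by
  have h := vge_mul_mem (y := -1) hx (P.neg_mem _ P.one_mem)
  rwa [mul_neg_one] at h

lemma vge_zero {π : K} (a : ℕ) {b : ℕ} (hb : b ≠ 0) : VGe P π 0 a b := by
  unfold VGe
  rw [zero_pow hb, zero_div]
  exact P.zero_mem

lemma vge_sub {π : K} (hπ0 : π ≠ 0) {x y : K} {a b : ℕ} (hx : VGe P π x a b)
    (hy : VGe P π y a b) : VGe P π (x - y) a b := by
  rw [sub_eq_add_neg]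
  exact vge_add hπ0 hx (vge_neg hy)

/-- Units: `1 + 𝔪 ⊆ Pˣ`. -/
lemma one_add_unit {y : K} (hy : y ∈ P.nonunits) :
    1 + y ∈ P ∧ (1 + y)⁻¹ ∈ P ∧ 1 + y ≠ 0 := by
  have hv : P.valuation y < 1 := (ValuationSubring.mem_nonunits_iff P).1 hy
  have h1 : P.valuation (1 + y) = 1 := by
    have := Valuation.map_add_eq_of_lt_left P.valuation (x := 1) (y := y) (by rwa [map_one])
    rw [this, map_one]
  refine ⟨(P.valuation_le_one_iff _).1 h1.le, ?_, ?_⟩
  · rw [← P.valuation_le_one_iff, map_inv₀, h1, inv_one]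
  · intro h0
    rw [h0, map_zero] at h1
    exact zero_ne_one h1

/-! ### Residues -/

variable (P) in
/-- `a` is the residue class of `x ∈ P`. -/
def ResIs (x : K) (a : IsLocalRing.ResidueField ↥P) : Prop :=
  ∃ h : x ∈ P, IsLocalRing.residue ↥P ⟨x, h⟩ = a

lemma resIs_zero : ResIs P 0 0 := ⟨P.zero_mem, map_zero _⟩

lemma resIs_one : ResIs P 1 1 := ⟨P.one_mem, map_one _⟩

lemma ResIs.add {x y : K} {a b : IsLocalRing.ResidueField ↥P} (hx : ResIs P x a)
    (hy : ResIs P y b) : ResIs P (x + y) (a + b) := by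
  obtain ⟨h1, rfl⟩ := hx
  obtain ⟨h2, rfl⟩ := hy
  exact ⟨P.add_mem _ _ h1 h2, map_add (IsLocalRing.residue ↥P) ⟨x, h1⟩ ⟨y, h2⟩⟩

lemma ResIs.mul {x y : K} {a b : IsLocalRing.ResidueField ↥P} (hx : ResIs P x a)
    (hy : ResIs P y b) : ResIs P (x * y) (a * b) := by
  obtain ⟨h1, rfl⟩ := hx
  obtain ⟨h2, rfl⟩ := hy
  exact ⟨P.mul_mem _ _ h1 h2, map_mul (IsLocalRing.residue ↥P) ⟨x, h1⟩ ⟨y, h2⟩⟩

lemma ResIs.pow {x : K} {a : IsLocalRing.ResidueField ↥P} (hx : ResIs P x a) (n : ℕ) :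
    ResIs P (x ^ n) (a ^ n) := by
  induction n with
  | zero => simpa using resIs_one
  | succ n ih =>
    rw [pow_succ, pow_succ]
    exact ih.mul hx

lemma resIs_of_mem_nonunits {x : K} (hx : x ∈ P.nonunits) : ResIs P x 0 := by
  have hx' : x ∈ P := ValuationSubring.nonunits_le hx
  refine ⟨hx', ?_⟩
  rw [IsLocalRing.residue_eq_zero_iff]
  exact (ValuationSubring.mem_nonunits_iff_exists_mem_maximalIdeal).1 hx |>.choose_spec

lemma ResIs.congr {x y : K} {a : IsLocalRing.ResidueField ↥P} (hx : ResIs P x a)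
    (h : y - x ∈ P.nonunits) : ResIs P y a := by
  have h1 := (resIs_of_mem_nonunits h).add hx
  rwa [sub_add_cancel, zero_add] at h1

lemma resIs_one_of_sub_mem {x : K} (h : x - 1 ∈ P.nonunits) : ResIs P x 1 :=
  resIs_one.congr h

/-! ### The `p`-th power of `1 + y` -/

section Pth

variable {p : ℕ}

lemma exists_pow_p (hp : p.Prime) {y : K} (hy : y ∈ P) :
    ∃ r ∈ P, (1 + y) ^ p - 1 = y ^ p + (p : K) * y * r := by
  have : Fact p.Prime := ⟨hp⟩
  obtain ⟨r, hr⟩ := exists_add_pow_prime_eq hp (1 : ↥P) ⟨y, hy⟩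
  refine ⟨(r : K), r.2, ?_⟩
  have h := congrArg (fun z : ↥P => (z : K)) hr
  have h' : (1 + y) ^ p = 1 ^ p + y ^ p + (p : K) * 1 * y * (r : K) := h
  rw [h', one_pow, mul_one]
  ring

lemma nat_ineq {p n : ℕ} (hp : 1 ≤ p) (hn : n ≤ p ^ 2 + p) :
    n * p ≤ p * (p ^ 2 - 1) + n := by
  obtain ⟨m, rfl⟩ : ∃ m, p = m + 1 := ⟨p - 1, by omega⟩
  have h1 : (m + 1) ^ 2 - 1 = m * (m + 2) := by
    have : (m + 1) ^ 2 = m * (m + 2) + 1 := by ring
    omega
  rw [h1]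
  have h2 : n * (m + 1) = n * m + n := by ring
  rw [h2]
  have h3 : n * m ≤ ((m + 1) ^ 2 + (m + 1)) * m := Nat.mul_le_mul_right m hn
  have h4 : ((m + 1) ^ 2 + (m + 1)) * m = (m + 1) * (m * (m + 2)) := by ring
  omega

/-- **L1 core**: `v(y) ≥ n/(pN)`, `0 < n ≤ p² + p`, `v(ϖ) = 1/N` ⟹ `v((1+y)^p - 1) ≥ n/N`. -/
lemma pow_p_sub_one_div_mem (hp : p.Prime) (hp0 : (p : K) ≠ 0) (hpm : (p : K) ∈ P.nonunits)
    {ϖ y : K} {n : ℕ} (hn : 0 < n) (hn' : n ≤ p ^ 2 + p)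
    (hge : VGe P (p : K) ϖ 1 (p ^ 2 - 1))
    (hle : ϖ ≠ 0 ∧ (p : K) ^ 1 / ϖ ^ (p ^ 2 - 1) ∈ P)
    (hy : VGe P (p : K) y n (p * (p ^ 2 - 1))) :
    ((1 + y) ^ p - 1) / ϖ ^ n ∈ P := by
  have hN : p ^ 2 - 1 ≠ 0 := by
    have := hp.two_le
    have : 4 ≤ p ^ 2 := by nlinarith
    omega
  have hpN : p * (p ^ 2 - 1) ≠ 0 := mul_ne_zero hp.ne_zero hN
  have hym : y ∈ P.nonunits := vge_mem_nonunits hp0 hpm hn.ne' hy
  have hyP : y ∈ P := ValuationSubring.nonunits_le hym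
  obtain ⟨r, hr, hZ⟩ := exists_pow_p hp hyP
  set w := P.valuation with hw
  have wp_lt : w (p : K) < 1 := (ValuationSubring.mem_nonunits_iff P).1 hpm
  have wr : w r ≤ 1 := (P.valuation_le_one_iff r).2 hr
  -- `w ϖ ^ N = w p`
  have h1 : w ϖ ^ (p ^ 2 - 1) ≤ w (p : K) := by
    have := (vge_iff hp0 ϖ 1 (p ^ 2 - 1)).1 hge
    rwa [pow_one] at this
  have h2 : w (p : K) ≤ w ϖ ^ (p ^ 2 - 1) := by
    have h := hle.2
    rw [← P.valuation_le_one_iff, map_div₀, map_pow, map_pow, pow_one] at h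
    have h0 : w ϖ ^ (p ^ 2 - 1) ≠ 0 := pow_ne_zero _ ((Valuation.ne_zero_iff _).2 hle.1)
    rwa [div_le_one₀ (zero_lt_iff.2 h0)] at h
  have hϖN : w ϖ ^ (p ^ 2 - 1) = w (p : K) := le_antisymm h1 h2
  have hyv : w y ^ (p * (p ^ 2 - 1)) ≤ w (p : K) ^ n := (vge_iff hp0 y n _).1 hy
  -- the goal in terms of valuations
  rw [← P.valuation_le_one_iff, map_div₀, map_pow]
  have h0 : w ϖ ^ n ≠ 0 := pow_ne_zero _ ((Valuation.ne_zero_iff _).2 hle.1)
  rw [div_le_one₀ (zero_lt_iff.2 h0)]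
  -- compare `pN`-th powers
  have key : w ((1 + y) ^ p - 1) ^ (p * (p ^ 2 - 1)) ≤ (w ϖ ^ n) ^ (p * (p ^ 2 - 1)) := by
    have hR : (w ϖ ^ n) ^ (p * (p ^ 2 - 1)) = w (p : K) ^ (n * p) := by
      rw [← pow_mul, show n * (p * (p ^ 2 - 1)) = (p ^ 2 - 1) * (n * p) by ring, pow_mul, hϖN]
    rw [hR, hZ]
    have hmax : w (y ^ p + (p : K) * y * r) ≤ max (w y ^ p) (w (p : K) * w y) := by
      refine (w.map_add _ _).trans (max_le_max ?_ ?_)
      · rw [map_pow]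
      · rw [map_mul, map_mul]
        calc w (p : K) * w y * w r ≤ w (p : K) * w y * 1 := by gcongr
          _ = w (p : K) * w y := mul_one _
    refine (pow_le_pow_left₀ zero_le hmax _).trans ?_
    rcases le_total (w y ^ p) (w (p : K) * w y) with h | h
    · rw [max_eq_right h, mul_pow]
      calc w (p : K) ^ (p * (p ^ 2 - 1)) * w y ^ (p * (p ^ 2 - 1))
          ≤ w (p : K) ^ (p * (p ^ 2 - 1)) * w (p : K) ^ n := by gcongr
        _ = w (p : K) ^ (p * (p ^ 2 - 1) + n) := (pow_add _ _ _).symm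
        _ ≤ w (p : K) ^ (n * p) :=
          pow_le_pow_of_le_one zero_le wp_lt.le (nat_ineq hp.one_le hn')
    · rw [max_eq_left h]
      have e1 : (w y ^ p) ^ (p * (p ^ 2 - 1)) = (w y ^ (p * (p ^ 2 - 1))) ^ p := by
        rw [← pow_mul, ← pow_mul, mul_comm]
      have e2 : w (p : K) ^ (n * p) = (w (p : K) ^ n) ^ p := by rw [← pow_mul]
      rw [e1, e2]
      exact pow_le_pow_left₀ zero_le hyv p
  exact (pow_le_pow_iff_left₀ zero_le zero_le hpN).1 key

end Pth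

end Fermat.Agent.S56.SS.LevA
end MergeWrap_S56_W4_C_KN_LevA_Val

section MergeWrap_S56_W4_C_KN_LevA -- from S56/W4/C/KN/LevA.lean

set_option autoImplicit false

namespace Fermat.Agent.S56.SS

open Fermat.Agent.F4 ExtCitation Fermat.Agent.FFL Fermat.Agent.FlatMod

local notation "Kb" => AlgebraicClosure ℚ
local notation "GK" => (AlgebraicClosure ℚ ≃ₐ[ℚ] AlgebraicClosure ℚ)

namespace LevA

variable {p : ℕ} [Fact p.Prime]

lemma p_ne_zero : (p : Kb) ≠ 0 := by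
  exact_mod_cast (Fact.out : p.Prime).ne_zero

lemma p_mem_nonunits : (p : Kb) ∈ (Pp p).nonunits :=
  Fermat.Agent.S56.primeLocalPlace_liesOverPrime (pPrime p)

lemma pN_ne_zero : p * (p ^ 2 - 1) ≠ 0 := by
  have hp := (Fact.out : p.Prime).two_le
  have : 4 ≤ p ^ 2 := by nlinarith
  have h1 : p ^ 2 - 1 ≠ 0 := by omega
  exact mul_ne_zero (by omega) h1

lemma valGE_iff (x : Kb) (a b : ℕ) : ValGE p (Pp p) x a b ↔ VGe (Pp p) (p : Kb) x a b := Iff.rfl

lemma isRes_iff (x : Kb) (a : Kres p) : IsRes x a ↔ ResIs (Pp p) x a := Iff.rfl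

/-! ### Exponents modulo `p` -/

lemma zeta_pow_p : zetaP p ^ p = 1 := (zetaP_spec p).pow_eq_one

lemma zeta_pow_val_add (c c' : ZMod p) :
    zetaP p ^ (c + c').val = zetaP p ^ c.val * zetaP p ^ c'.val := by
  have : NeZero p := ⟨(Fact.out : p.Prime).ne_zero⟩
  rw [ZMod.val_add, ← pow_add, ← pow_eq_pow_mod _ zeta_pow_p]

lemma zeta_pow_val_neg (c : ZMod p) : zetaP p ^ (-c).val * zetaP p ^ c.val = 1 := by
  have : NeZero p := ⟨(Fact.out : p.Prime).ne_zero⟩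
  rw [← zeta_pow_val_add, neg_add_cancel, ZMod.val_zero, pow_zero]

lemma zeta_pow_val_mul (c c' : ZMod p) :
    zetaP p ^ (c * c').val = (zetaP p ^ c.val) ^ c'.val := by
  have : NeZero p := ⟨(Fact.out : p.Prime).ne_zero⟩
  rw [ZMod.val_mul, ← pow_mul, ← pow_eq_pow_mod _ zeta_pow_p]

/-! ### Kummer generators -/

variable {k : Type} [Field k] {ρbar : ResidualGaloisRep k} (s : SSStruct p ρbar)

lemma kumGE_sub_one_mem {n : ℕ} (hn : 0 < n) {χ : GK → ZMod p} {β : Kb}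
    (h : KumGE s n χ β) : β - 1 ∈ (Pp p).nonunits :=
  vge_mem_nonunits p_ne_zero p_mem_nonunits hn.ne' h.2.2

lemma mem_of_sub_one {β : Kb} (h : β - 1 ∈ (Pp p).nonunits) :
    β ∈ Pp p ∧ β⁻¹ ∈ Pp p := by
  have := one_add_unit h
  rw [add_sub_cancel] at this
  exact ⟨this.1, this.2.1⟩

end LevA

open LevA

variable (p : ℕ) [Fact p.Prime]

/-- **L0**. -/
theorem levZeroProp : LevZeroProp p := by
  intro k _ _ ρbar s _ n
  refine ⟨1, ⟨one_ne_zero, fun γ _ => ?_, ?_⟩, ?_⟩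
  · rw [map_one, ZMod.val_zero, pow_zero, one_mul]
  · rw [sub_self]
    exact vge_zero n pN_ne_zero
  · rw [one_pow, sub_self, zero_div]
    exact resIs_zero

/-- **L0'**. -/
theorem levNegProp : LevNegProp p := by
  intro k _ _ ρbar s _ n χ hn ⟨β, hβ⟩
  have hm := kumGE_sub_one_mem s hn hβ
  obtain ⟨hβP, hβi⟩ := mem_of_sub_one hm
  refine ⟨β⁻¹, inv_ne_zero hβ.1, fun γ hγ => ?_, ?_⟩
  · rw [map_inv₀, hβ.2.1 γ hγ, mul_inv]
    congr 1
    have h1 := zeta_pow_val_neg (p := p) (χ γ)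
    exact (eq_inv_of_mul_eq_one_left h1).symm ▸ rfl
  · have h1 : β⁻¹ - 1 = -((β - 1) * β⁻¹) := by
      field_simp [hβ.1]
      ring
    show VGe (Pp p) (p : Kb) (β⁻¹ - 1) n _
    rw [h1]
    exact vge_neg (vge_mul_mem hβ.2.2 hβi)

/-- **L1**. -/
theorem levExistsProp : LevExistsProp p := by
  intro k _ _ ρbar s _ n χ hn hn' ⟨β, hβ⟩
  have hmem : (β ^ p - 1) / s.ϖ ^ n ∈ Pp p := by
    have h := pow_p_sub_one_div_mem (P := Pp p) (Fact.out : p.Prime) p_ne_zero p_mem_nonunits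
      hn hn' s.ϖ_ge s.ϖ_le hβ.2.2
    rwa [add_sub_cancel] at h
  exact ⟨IsLocalRing.residue ↥(Pp p) ⟨_, hmem⟩, β, hβ, hmem, rfl⟩

/-- **L3**. -/
theorem levAddProp : LevAddProp p := by
  intro k _ _ ρbar s _ n χ χ' a a' hn ⟨β, hβ, ha⟩ ⟨β', hβ', ha'⟩
  have hm := kumGE_sub_one_mem s hn hβ
  have hm' := kumGE_sub_one_mem s hn hβ'
  obtain ⟨hβP, -⟩ := mem_of_sub_one hm
  obtain ⟨hβ'P, -⟩ := mem_of_sub_one hm'
  refine ⟨β * β', ⟨mul_ne_zero hβ.1 hβ'.1, fun γ hγ => ?_, ?_⟩, ?_⟩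
  · rw [map_mul, hβ.2.1 γ hγ, hβ'.2.1 γ hγ, zeta_pow_val_add]
    ring
  · have h1 : β * β' - 1 = (β - 1) * β' + (β' - 1) := by ring
    show VGe (Pp p) (p : Kb) (β * β' - 1) n _
    rw [h1]
    exact vge_add p_ne_zero (vge_mul_mem hβ.2.2 hβ'P) hβ'.2.2
  · have h1 : ((β * β') ^ p - 1) / s.ϖ ^ n
        = (β ^ p - 1) / s.ϖ ^ n * β' ^ p + (β' ^ p - 1) / s.ϖ ^ n := by
      rw [mul_pow]
      ring
    rw [h1]
    have h2 : ResIs (Pp p) (β' ^ p) 1 := by
      have := (resIs_one_of_sub_mem hm').pow p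
      rwa [one_pow] at this
    have h3 := (ResIs.mul ha h2).add ha'
    rwa [mul_one] at h3

/-- **L6**. -/
theorem levConjProp : LevConjProp p := by
  intro k _ _ ρbar s _ σ hσ q e hq he n χ a ⟨β, hβ, ha⟩
  have hζ : σ (zetaP p) = zetaP p ^ ((cycloChar p σ : (ZMod p)ˣ) : ZMod p).val :=
    Fermat.Agent.S56.SO.cycloc_apply_root p σ (zetaP p) zeta_pow_p
  refine ⟨σ β, ⟨?_, fun γ hγ => ?_, ?_⟩, ?_⟩
  · exact (map_ne_zero _).2 hβ.1
  · have hσi : σ⁻¹ ∈ Dp p := (Dp p).inv_mem hσ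
    have hconj : σ⁻¹ * γ * σ ∈ I1 s := by
      have := KNCoh.conj_mem_I1 s hσi hγ
      rwa [inv_inv] at this
    have h1 := hβ.2.1 _ hconj
    have h2 : γ (σ β) = σ ((σ⁻¹ * γ * σ) β) := by
      show γ (σ β) = σ (σ⁻¹ (γ (σ β)))
      exact (AlgEquiv.apply_symm_apply σ _).symm
    rw [h2, h1, map_mul, map_pow, hζ, zeta_pow_val_mul]
  · have h1 : (σ β - 1) ^ (p * (p ^ 2 - 1)) / (p : Kb) ^ n
        = σ ((β - 1) ^ (p * (p ^ 2 - 1)) / (p : Kb) ^ n) := by
      rw [map_div₀, map_pow, map_pow, map_sub, map_one, map_natCast]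
    show (σ β - 1) ^ (p * (p ^ 2 - 1)) / (p : Kb) ^ n ∈ Pp p
    rw [h1]
    exact Fermat.Agent.S56.TWGen.apply_mem (Pp p) hσ hβ.2.2
  · have hϖ : s.ϖ ≠ 0 := s.ϖ_le.1
    have h1 : ((σ β) ^ p - 1) / s.ϖ ^ n
        = (σ s.ϖ / s.ϖ) ^ n * σ ((β ^ p - 1) / s.ϖ ^ n) := by
      rw [map_div₀, map_pow, map_sub, map_pow, map_one, div_pow]
      have : σ s.ϖ ≠ 0 := (map_ne_zero _).2 hϖ
      field_simp
    rw [h1]
    obtain ⟨hX, hXa⟩ := ha
    have h2 : ResIs (Pp p) (σ ((β ^ p - 1) / s.ϖ ^ n)) (a ^ q) :=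
      (ResIs.pow ⟨hX, hXa⟩ q).congr (hq _ hX)
    exact (ResIs.pow he n).mul h2

end Fermat.Agent.S56.SS
end MergeWrap_S56_W4_C_KN_LevA

section MergeWrap_S56_W4_C_KN_LevB -- from S56/W4/C/KN/LevB.lean

set_option autoImplicit false

namespace Fermat.Agent.S56.SS

open Fermat.Agent.F4 ExtCitation Fermat.Agent.FFL Fermat.Agent.FlatMod

local notation "Kb" => AlgebraicClosure ℚ
local notation "GK" => (AlgebraicClosure ℚ ≃ₐ[ℚ] AlgebraicClosure ℚ)

namespace LevB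

variable {p : ℕ} [Fact p.Prime] {k : Type} [Field k] {ρbar : ResidualGaloisRep k}

/-! ### Generalities -/

theorem liesOver : (Pp p).LiesOverPrime p :=
  Fermat.Agent.S56.primeLocalPlace_liesOverPrime (pPrime p)

theorem N_pos : 0 < p ^ 2 - 1 := by
  have h2 : 2 ≤ p := (Fact.out : p.Prime).two_le
  have : 4 ≤ p ^ 2 := by nlinarith
  omega

theorem val_p_lt : (Pp p).valuation (p : Kb) < 1 :=
  (ValuationSubring.mem_nonunits_iff _).1 liesOver

theorem val_p_ne : (Pp p).valuation (p : Kb) ≠ 0 :=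
  (Valuation.ne_zero_iff _).2 (Nat.cast_ne_zero.2 (Fact.out : p.Prime).ne_zero)

theorem mem_of_pow_mem {z : Kb} {n : ℕ} (hn : n ≠ 0) (h : z ^ n ∈ Pp p) : z ∈ Pp p := by
  rw [← (Pp p).valuation_le_one_iff] at h ⊢
  rw [map_pow] at h
  by_contra hlt
  rw [not_le] at hlt
  exact absurd h (not_le.2 (one_lt_pow₀ hlt hn))

variable (s : SSStruct p ρbar)

theorem varpi_ne : s.ϖ ≠ 0 := s.ϖ_le.1

/-- `v(ϖ)^N = v(p)`. -/
theorem val_varpi_pow : (Pp p).valuation s.ϖ ^ (p ^ 2 - 1) = (Pp p).valuation (p : Kb) := by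
  have h1 : s.ϖ ^ (p ^ 2 - 1) / (p : Kb) ^ 1 ∈ Pp p := s.ϖ_ge
  have h2 : (p : Kb) ^ 1 / s.ϖ ^ (p ^ 2 - 1) ∈ Pp p := s.ϖ_le.2
  rw [← (Pp p).valuation_le_one_iff, map_div₀, map_pow, map_pow, pow_one] at h1 h2
  have hp0 : 0 < (Pp p).valuation (p : Kb) := zero_lt_iff.2 val_p_ne
  have hϖ0 : 0 < (Pp p).valuation s.ϖ ^ (p ^ 2 - 1) :=
    zero_lt_iff.2 (pow_ne_zero _ ((Valuation.ne_zero_iff _).2 (varpi_ne s)))
  rw [div_le_one₀ hp0] at h1
  rw [div_le_one₀ hϖ0] at h2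
  exact le_antisymm h1 h2

theorem val_varpi_lt : (Pp p).valuation s.ϖ < 1 := by
  by_contra h
  rw [not_lt] at h
  have h1 : 1 ≤ (Pp p).valuation s.ϖ ^ (p ^ 2 - 1) := one_le_pow₀ h
  rw [val_varpi_pow] at h1
  exact absurd val_p_lt (not_lt.2 h1)

theorem val_varpi_ne : (Pp p).valuation s.ϖ ≠ 0 := (Valuation.ne_zero_iff _).2 (varpi_ne s)

/-- Powers of `τ` applied to an `I₁`-fixed element only depend on the exponent modulo `N`. -/
theorem tau_pow_apply_mod {x : Kb} (hx : ∀ γ ∈ I1 s, γ x = x) (n : ℕ) :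
    (s.τ ^ n) x = (s.τ ^ (n % (p ^ 2 - 1))) x := by
  have hN : (s.τ ^ (p ^ 2 - 1)) x = x := hx _ (KNCoh.tau_pow_N_mem_I1 s)
  have hm : ∀ m : ℕ, ((s.τ ^ (p ^ 2 - 1)) ^ m) x = x := by
    intro m
    induction m with
    | zero => simp
    | succ m ih => rw [pow_succ, AlgEquiv.mul_apply, hN, ih]
  conv_lhs => rw [← Nat.mod_add_div n (p ^ 2 - 1)]
  rw [pow_add, pow_mul, AlgEquiv.mul_apply, hm]

/-- **UNIF**, valuation form. -/
theorem unif {x : Kb} (hx : x ∈ (Pp p).nonunits) (hfix : ∀ γ ∈ I1 s, γ x = x) :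
    x / s.ϖ ∈ Pp p := by
  classical
  have hN : 0 < p ^ 2 - 1 := N_pos
  -- the inertia orbit of `x` lies in `{τ^j x : j < N}`
  have hT : ∀ σ ∈ (Pp p).inertiaSubgroupIn ℚ,
      σ x ∈ (Finset.range (p ^ 2 - 1)).image (fun j : ℕ => (s.τ ^ j) x) := by
    intro σ hσ
    obtain ⟨n, γ, hγ, rfl⟩ := KNCoh.exists_pow_mul_I1 s hσ
    rw [AlgEquiv.mul_apply, hfix γ hγ, tau_pow_apply_mod s hfix n]
    exact Finset.mem_image.2 ⟨n % (p ^ 2 - 1), Finset.mem_range.2 (Nat.mod_lt _ hN), rfl⟩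
  have hcard : ((Finset.range (p ^ 2 - 1)).image (fun j : ℕ => (s.τ ^ j) x)).card ≤ p ^ 2 - 1 :=
    Finset.card_image_le.trans (by rw [Finset.card_range])
  have hval : ValGE p (Pp p) x 1 (p ^ 2 - 1) :=
    valOrbitProp p (Pp p) (Fact.out : p.Prime) liesOver x _ (p ^ 2 - 1) hx hT hcard hN
  have h1 : x ^ (p ^ 2 - 1) / (p : Kb) ^ 1 ∈ Pp p := hval
  have h2 : (p : Kb) ^ 1 / s.ϖ ^ (p ^ 2 - 1) ∈ Pp p := s.ϖ_le.2
  have hp0 : (p : Kb) ≠ 0 := Nat.cast_ne_zero.2 (Fact.out : p.Prime).ne_zero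
  refine mem_of_pow_mem hN.ne' ?_
  have h3 : (x / s.ϖ) ^ (p ^ 2 - 1) =
      x ^ (p ^ 2 - 1) / (p : Kb) ^ 1 * ((p : Kb) ^ 1 / s.ϖ ^ (p ^ 2 - 1)) := by
    rw [div_pow]
    field_simp
  rw [h3]
  exact (Pp p).mul_mem _ _ h1 h2

/-! ### Valuation arithmetic -/

theorem valGE_iff (x : Kb) (a b : ℕ) :
    ValGE p (Pp p) x a b ↔ (Pp p).valuation x ^ b ≤ (Pp p).valuation (p : Kb) ^ a := by
  unfold ValGE
  rw [← (Pp p).valuation_le_one_iff, map_div₀, map_pow, map_pow,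
    div_le_one₀ (zero_lt_iff.2 (pow_ne_zero _ val_p_ne))]

theorem pN_pos : 0 < p * (p ^ 2 - 1) :=
  Nat.mul_pos (Fact.out : p.Prime).pos N_pos

theorem lt_one_of_pow_lt_one {K₀ : Type*} [LinearOrderedCommGroupWithZero K₀] {a : K₀} {n : ℕ}
    (h : a ^ n < 1) : a < 1 := by
  by_contra hlt
  rw [not_lt] at hlt
  exact absurd h (not_lt.2 (one_le_pow₀ hlt))

/-- A Kummer generator of positive depth is congruent to `1`. -/
theorem val_sub_one_lt {n : ℕ} (hn : 0 < n) {β : Kb}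
    (h : ValGE p (Pp p) (β - 1) n (p * (p ^ 2 - 1))) : (Pp p).valuation (β - 1) < 1 := by
  rw [valGE_iff] at h
  refine lt_one_of_pow_lt_one (lt_of_le_of_lt h ?_)
  exact pow_lt_one₀ zero_le val_p_lt hn.ne'

theorem val_eq_one_of_sub {β : Kb} (h : (Pp p).valuation (β - 1) < 1) :
    (Pp p).valuation β = 1 := by
  have h1 : β = 1 + (β - 1) := by ring
  rw [h1]
  exact Valuation.map_one_add_of_lt _ h

theorem mem_of_val_sub {β : Kb} (h : (Pp p).valuation (β - 1) < 1) : β ∈ Pp p := by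
  rw [← (Pp p).valuation_le_one_iff, val_eq_one_of_sub h]

/-- `I₁` fixes `ϖ`. -/
theorem varpi_fix {γ : GK} (hγ : γ ∈ I1 s) : γ s.ϖ = s.ϖ := s.ϖ_fix γ hγ.1 hγ.2

/-- `(1 + x)^p - 1 = x^p + p x g` with `g ∈ P`. -/
theorem binom_sub_one {x : Kb} (hx : x ∈ Pp p) :
    ∃ g ∈ Pp p, (1 + x) ^ p - 1 = x ^ p + (p : Kb) * x * g := by
  obtain ⟨T, hT⟩ := Fermat.Agent.FFL.FB.fb_exists_binom p (Fact.out : p.Prime)
  have hT' := hT Kb x
  obtain ⟨t, ht, hT''⟩ : ∃ t ∈ Pp p,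
      (1 + x) ^ p = 1 + (p : Kb) * x + (p : Kb) * x ^ 2 * t + x ^ p :=
    ⟨_, ar_aeval_mem (Pp p) T hx, hT'⟩
  refine ⟨1 + x * t, (Pp p).add_mem _ _ (Pp p).one_mem ((Pp p).mul_mem _ _ hx ht), ?_⟩
  linear_combination hT''

/-- The `p`-th power of a Kummer generator is fixed by `I₁`. -/
theorem kum_pow_fix {χ : GK → ZMod p} {β : Kb}
    (hβ : ∀ γ ∈ I1 s, γ β = zetaP p ^ (χ γ).val * β) {γ : GK} (hγ : γ ∈ I1 s) :
    γ (β ^ p) = β ^ p := by
  have h1 : (zetaP p ^ (χ γ).val) ^ p = 1 := by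
    rw [← pow_mul, mul_comm, pow_mul, (zetaP_spec p).pow_eq_one, one_pow]
  rw [map_pow, hβ γ hγ, mul_pow, h1, one_mul]

/-! ### UNIQUE -/

/-- If `x` is `I₁`-fixed with `v(x) ≥ n/(pN)`, `n ≥ p² + 1`, then `v(x) ≥ (p + 1)/N`. -/
theorem div_varpi_pow_mem {x : Kb} {n : ℕ} (hn : p ^ 2 + 1 ≤ n)
    (hx : (Pp p).valuation x ^ (p * (p ^ 2 - 1)) ≤ (Pp p).valuation (p : Kb) ^ n)
    (hfix : ∀ γ ∈ I1 s, γ x = x) : x / s.ϖ ^ (p + 1) ∈ Pp p := by
  have hnon : x / s.ϖ ^ p ∈ (Pp p).nonunits := by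
    rw [ValuationSubring.mem_nonunits_iff]
    refine lt_one_of_pow_lt_one (n := p * (p ^ 2 - 1)) ?_
    have hϖpow : ((Pp p).valuation s.ϖ ^ p) ^ (p * (p ^ 2 - 1)) =
        (Pp p).valuation (p : Kb) ^ (p * p) := by
      rw [← val_varpi_pow s, ← pow_mul, ← pow_mul]
      congr 1
      ring
    rw [map_div₀, map_pow, div_pow, hϖpow]
    have hpp : 0 < (Pp p).valuation (p : Kb) ^ (p * p) :=
      zero_lt_iff.2 (pow_ne_zero _ val_p_ne)
    rw [div_lt_one₀ hpp]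
    refine lt_of_le_of_lt hx ?_
    have hlt : p * p < n := by nlinarith
    exact pow_lt_pow_right_of_lt_one₀ (zero_lt_iff.2 val_p_ne) val_p_lt hlt
  have hfix' : ∀ γ ∈ I1 s, γ (x / s.ϖ ^ p) = x / s.ϖ ^ p := by
    intro γ hγ
    rw [map_div₀, map_pow, hfix γ hγ, varpi_fix s hγ]
  have h := unif s hnon hfix'
  have h2 : x / s.ϖ ^ p / s.ϖ = x / s.ϖ ^ (p + 1) := by
    rw [div_div, ← pow_succ]
  rwa [h2] at h

/-- If `x ∈ P` has `v(x) ≥ (p + 1)/N` then `v((1 + x)^p - 1) ≥ (p² + p)/N`. -/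
theorem binom_div_mem {x : Kb} (hx : x / s.ϖ ^ (p + 1) ∈ Pp p) :
    ((1 + x) ^ p - 1) / s.ϖ ^ (p ^ 2 + p) ∈ Pp p := by
  have hϖ : s.ϖ ≠ 0 := varpi_ne s
  have hϖP : s.ϖ ∈ Pp p := ((Pp p).valuation_le_one_iff _).1 (val_varpi_lt s).le
  have hxP : x ∈ Pp p := by
    have h1 : x = x / s.ϖ ^ (p + 1) * s.ϖ ^ (p + 1) := by field_simp
    rw [h1]
    exact (Pp p).mul_mem _ _ hx (pow_mem hϖP _)
  obtain ⟨g, hg, hbin⟩ := binom_sub_one hxP
  have hpϖ : (p : Kb) ^ 1 / s.ϖ ^ (p ^ 2 - 1) ∈ Pp p := s.ϖ_le.2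
  have hsplit : p ^ 2 + p = (p ^ 2 - 1) + (p + 1) := by
    have := N_pos (p := p)
    omega
  have hsplit2 : p ^ 2 + p = (p + 1) * p := by ring
  have h1 : ((1 + x) ^ p - 1) / s.ϖ ^ (p ^ 2 + p) =
      (x / s.ϖ ^ (p + 1)) ^ p +
        (p : Kb) ^ 1 / s.ϖ ^ (p ^ 2 - 1) * (x / s.ϖ ^ (p + 1)) * g := by
    rw [hbin, add_div]
    congr 1
    · rw [div_pow, ← pow_mul, ← hsplit2]
    · rw [hsplit, pow_add, pow_one]
      field_simp
  rw [h1]
  exact (Pp p).add_mem _ _ (pow_mem hx _) ((Pp p).mul_mem _ _ ((Pp p).mul_mem _ _ hpϖ hx) hg)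

theorem mem_nonunits_of_div_pow {z : Kb} {m n : ℕ} (hmn : n < m) (h : z / s.ϖ ^ m ∈ Pp p) :
    z / s.ϖ ^ n ∈ (Pp p).nonunits := by
  have hϖ : s.ϖ ≠ 0 := varpi_ne s
  have h1 : z / s.ϖ ^ n = z / s.ϖ ^ m * s.ϖ ^ (m - n) := by
    have h0 : s.ϖ ^ m = s.ϖ ^ n * s.ϖ ^ (m - n) := by
      rw [← pow_add]
      congr 1
      omega
    rw [h0]
    field_simp
  rw [h1, ValuationSubring.mem_nonunits_iff, map_mul, map_pow]
  have h2 : (Pp p).valuation (z / s.ϖ ^ m) ≤ 1 := ((Pp p).valuation_le_one_iff _).2 h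
  have h3 : (Pp p).valuation s.ϖ ^ (m - n) < 1 :=
    pow_lt_one₀ zero_le (val_varpi_lt s) (by omega)
  calc (Pp p).valuation (z / s.ϖ ^ m) * (Pp p).valuation s.ϖ ^ (m - n)
      ≤ 1 * (Pp p).valuation s.ϖ ^ (m - n) := mul_le_mul_left h2 _
    _ < 1 := by rw [one_mul]; exact h3

/-- Equality of residues from a congruence. -/
theorem isRes_unique {x x' : Kb} {a a' : Kres p} (hx : IsRes x a) (hx' : IsRes x' a')
    (h : x - x' ∈ (Pp p).nonunits) : a = a' := by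
  obtain ⟨h1, rfl⟩ := hx
  obtain ⟨h2, rfl⟩ := hx'
  rw [← sub_eq_zero, ← map_sub, IsLocalRing.residue_eq_zero_iff]
  obtain ⟨h3, h4⟩ := (ValuationSubring.mem_nonunits_iff_exists_mem_maximalIdeal).1 h
  exact h4

theorem levUnique (n : ℕ) (χ : GK → ZMod p) (a a' : Kres p) (hn : p ^ 2 + 1 ≤ n)
    (hn2 : n < p ^ 2 + p) (h : LcIs s n χ a) (h' : LcIs s n χ a') : a = a' := by
  obtain ⟨β, ⟨hβ0, hβ, hβv⟩, hres⟩ := h
  obtain ⟨β', ⟨hβ'0, hβ', hβ'v⟩, hres'⟩ := h'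
  have hn0 : 0 < n := by omega
  have hv1 := val_sub_one_lt hn0 hβv
  have hv1' := val_sub_one_lt hn0 hβ'v
  have hvβ' : (Pp p).valuation β' = 1 := val_eq_one_of_sub hv1'
  have hβ'P : β' ∈ Pp p := mem_of_val_sub hv1'
  -- `x = β/β' - 1`
  set x : Kb := β / β' - 1 with hx
  have hxfix : ∀ γ ∈ I1 s, γ x = x := by
    intro γ hγ
    have hζ : zetaP p ^ (χ γ).val ≠ 0 := pow_ne_zero _ ((zetaP_spec p).ne_zero
      (Fact.out : p.Prime).ne_zero)
    rw [hx, map_sub, map_one, map_div₀, hβ γ hγ, hβ' γ hγ, mul_div_mul_left _ _ hζ]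
  have hxval : (Pp p).valuation x ^ (p * (p ^ 2 - 1)) ≤ (Pp p).valuation (p : Kb) ^ n := by
    have h1 : x = ((β - 1) - (β' - 1)) / β' := by
      rw [hx]; field_simp; ring
    rw [valGE_iff] at hβv hβ'v
    rw [h1, map_div₀, hvβ', div_one]
    rcases le_total ((Pp p).valuation (β - 1)) ((Pp p).valuation (β' - 1)) with hle | hle
    · refine le_trans (pow_le_pow_left₀ zero_le ?_ _) hβ'v
      exact (Valuation.map_sub _ _ _).trans (max_le hle le_rfl)
    · refine le_trans (pow_le_pow_left₀ zero_le ?_ _) hβv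
      exact (Valuation.map_sub _ _ _).trans (max_le le_rfl hle)
  have hx1 := div_varpi_pow_mem s hn hxval hxfix
  have hx2 := binom_div_mem s hx1
  have hx3 := mem_nonunits_of_div_pow s hn2 hx2
  refine isRes_unique hres hres' ?_
  have hw : 1 + x = β / β' := by rw [hx]; ring
  rw [hw] at hx3
  have h4 : (β ^ p - 1) / s.ϖ ^ n - (β' ^ p - 1) / s.ϖ ^ n =
      ((β / β') ^ p - 1) / s.ϖ ^ n * β' ^ p := by
    have e : (β / β') ^ p * β' ^ p = β ^ p := by
      rw [div_pow, div_mul_cancel₀ _ (pow_ne_zero _ hβ'0)]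
    rw [← sub_div, div_mul_eq_mul_div, sub_mul, one_mul, e]
    congr 1
    ring
  rw [h4]
  exact Fermat.Agent.FFL.red_mul_mem_nonunits_right (Pp p) hx3 (pow_mem hβ'P _)

/-! ### NEXT -/

theorem levNext (n : ℕ) (χ : GK → ZMod p) (hn : p ^ 2 + 1 ≤ n) (hn2 : n < p ^ 2 + p)
    (h : LcIs s n χ 0) : GoodAt s (n + 1) χ := by
  obtain ⟨β, ⟨hβ0, hβ, hβv⟩, hP, hres⟩ := h
  refine ⟨β, hβ0, hβ, ?_⟩
  have hn0 : 0 < n := by omega
  have hv1 := val_sub_one_lt hn0 hβv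
  -- `(β^p - 1)/ϖ^n` is an `I₁`-fixed nonunit
  have hnon : (β ^ p - 1) / s.ϖ ^ n ∈ (Pp p).nonunits := by
    rw [IsLocalRing.residue_eq_zero_iff] at hres
    exact (ValuationSubring.mem_nonunits_iff_exists_mem_maximalIdeal).2 ⟨hP, hres⟩
  have hfix : ∀ γ ∈ I1 s, γ ((β ^ p - 1) / s.ϖ ^ n) = (β ^ p - 1) / s.ϖ ^ n := by
    intro γ hγ
    rw [map_div₀, map_sub, map_one, map_pow γ s.ϖ, kum_pow_fix s hβ hγ, varpi_fix s hγ]
  have h1 := unif s hnon hfix
  have h2 : (β ^ p - 1) / s.ϖ ^ n / s.ϖ = (β ^ p - 1) / s.ϖ ^ (n + 1) := by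
    rw [div_div, ← pow_succ]
  rw [h2, ← (Pp p).valuation_le_one_iff, map_div₀, map_pow,
    div_le_one₀ (zero_lt_iff.2 (pow_ne_zero _ (val_varpi_ne s)))] at h1
  -- `y = β - 1`
  have hyP : β - 1 ∈ Pp p := ((Pp p).valuation_le_one_iff _).1 hv1.le
  obtain ⟨g, hg, hbin⟩ := binom_sub_one hyP
  have hβy : 1 + (β - 1) = β := by ring
  rw [hβy] at hbin
  rw [valGE_iff]
  have hgv : (Pp p).valuation g ≤ 1 := ((Pp p).valuation_le_one_iff _).2 hg
  have hpN : p * (p ^ 2 - 1) = (p - 1) * (p ^ 2 + p) := by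
    have h1 : 1 ≤ p := (Fact.out : p.Prime).pos
    have h2 : 1 ≤ p ^ 2 := Nat.one_le_pow _ _ h1
    zify [h1, h2]
    ring
  rcases le_or_gt ((Pp p).valuation (β - 1) ^ (p - 1)) ((Pp p).valuation (p : Kb)) with hc | hc
  · -- `v(y) ≥ 1/(p-1)`
    rw [hpN, pow_mul]
    refine (pow_le_pow_left₀ zero_le hc _).trans ?_
    exact pow_le_pow_of_le_one zero_le val_p_lt.le (by omega)
  · -- `v(y) < 1/(p-1)`: `β^p - 1 = y^p · unit`
    have hy0 : (Pp p).valuation (β - 1) ≠ 0 := by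
      intro h0
      have hp1 : p - 1 ≠ 0 := by
        have := (Fact.out : p.Prime).two_le
        omega
      rw [h0, zero_pow hp1] at hc
      exact absurd hc (not_lt.2 zero_le)
    have hlt : (Pp p).valuation ((p : Kb) * (β - 1) * g) < (Pp p).valuation ((β - 1) ^ p) := by
      rw [map_mul, map_mul, map_pow]
      have hp1 : p = (p - 1) + 1 := by
        have := (Fact.out : p.Prime).pos
        omega
      calc (Pp p).valuation (p : Kb) * (Pp p).valuation (β - 1) * (Pp p).valuation g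
          ≤ (Pp p).valuation (p : Kb) * (Pp p).valuation (β - 1) * 1 := mul_le_mul_right hgv _
        _ = (Pp p).valuation (p : Kb) * (Pp p).valuation (β - 1) := mul_one _
        _ < (Pp p).valuation (β - 1) ^ (p - 1) * (Pp p).valuation (β - 1) :=
            mul_lt_mul_of_pos_right hc (zero_lt_iff.2 hy0)
        _ = (Pp p).valuation (β - 1) ^ p := by rw [← pow_succ, ← hp1]
    have hval : (Pp p).valuation (β ^ p - 1) = (Pp p).valuation (β - 1) ^ p := by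
      rw [hbin, Valuation.map_add_eq_of_lt_left _ hlt, map_pow]
    rw [hval] at h1
    rw [mul_comm p, pow_mul']
    calc ((Pp p).valuation (β - 1) ^ p) ^ (p ^ 2 - 1)
        ≤ ((Pp p).valuation s.ϖ ^ (n + 1)) ^ (p ^ 2 - 1) := pow_le_pow_left₀ zero_le h1 _
      _ = (Pp p).valuation (p : Kb) ^ (n + 1) := by
          rw [← pow_mul, mul_comm, pow_mul, val_varpi_pow s]

end LevB

/-- **UNIF**: an `I₁`-fixed nonunit of `P` is divisible by `ϖ`. -/
theorem unifProp (p : ℕ) [Fact p.Prime] : UnifProp p := by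
  intro k _ _ ρbar s _ x hx hfix
  exact LevB.unif s hx hfix

/-- **L2**: leading coefficients at the levels `p² + 1 ≤ n < p² + p` are unique. -/
theorem levUniqueProp (p : ℕ) [Fact p.Prime] : LevUniqueProp p := by
  intro k _ _ ρbar s _ _ n χ a a' hn hn2 h h'
  exact LevB.levUnique s n χ a a' hn hn2 h h'

/-- **L4**: leading coefficient `0` at level `n` ⟹ good at level `n + 1`. -/
theorem levNextProp (p : ℕ) [Fact p.Prime] : LevNextProp p := by
  intro k _ _ ρbar s _ _ n χ hn hn2 h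
  exact LevB.levNext s n χ hn hn2 h

end Fermat.Agent.S56.SS
end MergeWrap_S56_W4_C_KN_LevB

section MergeWrap_S56_W4_C_KN_LevC -- from S56/W4/C/KN/LevC.lean

set_option autoImplicit false
set_option linter.unusedVariables false

namespace Fermat.Agent.S56.SS

open Fermat.Agent.F4 ExtCitation Fermat.Agent.FFL Fermat.Agent.FlatMod

local notation "Kb" => AlgebraicClosure ℚ
local notation "GK" => (AlgebraicClosure ℚ ≃ₐ[ℚ] AlgebraicClosure ℚ)

variable {p : ℕ} [Fact p.Prime] {k : Type} [Field k]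

/-- `ζ_p` is fixed by `I₁` (determinant cyclotomic, `ρbar = 1` on `I₁`). -/
theorem levc_zeta_fixed {ρbar : ResidualGaloisRep k} (s : SSStruct p ρbar)
    (hdet : DetCyc p ρbar) {γ : GK} (hγ : γ ∈ I1 s) {μ : Kb} (hμ : μ ^ p = 1) : γ μ = μ := by
  have hp : p.Prime := Fact.out
  have hρ : ρbar.ρ γ = 1 := KNCoh.rho_eq_one_of_mem_I1 s hγ
  have ha := Fermat.Agent.S56.SO.cycloc_apply_root p γ
  have hd := Fermat.Agent.S56.arch_det_eq p ρbar hdet γ _ ha
  rw [hρ, map_one] at hd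
  have hp0 : (p : k) = 0 := Fermat.Agent.S56.arch_p_eq_zero p ρbar hdet
  have hchar : CharP k p := (CharP.charP_iff_prime_eq_zero hp).2 hp0
  have h1 : (((cycloChar p γ : (ZMod p)ˣ) : ZMod p).val : k) = ((1 : ℕ) : k) := by
    rw [Nat.cast_one]
    exact hd.symm
  have h2 := (CharP.natCast_eq_natCast k p).1 h1
  rw [ha μ hμ, pow_eq_pow_mod _ hμ, h2, ← pow_eq_pow_mod _ hμ, pow_one]

/-- **LEV-C**: a character with a Kummer generator `β`, `v(β - 1) ≥ 1/(p - 1)`, is trivial on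
`I₁`. -/
theorem levTopProp : LevTopProp p := by
  intro k _ _ ρbar s hp2 hdet χ hgood γ hγ
  obtain ⟨β, hβ0, hβ, hval⟩ := hgood
  have hp : p.Prime := Fact.out
  have hP : (Pp p).LiesOverPrime p := Fermat.Agent.S56.SO.so_liesOver p
  have hζ : IsPrimitiveRoot (zetaP p) p := zetaP_spec p
  have hζp : zetaP p ^ p = 1 := hζ.pow_eq_one
  have hζ1 : zetaP p ≠ 1 := hζ.ne_one hp.one_lt
  have hγζ : γ (zetaP p) = zetaP p := levc_zeta_fixed s hdet hγ hζp
  have hγI : γ ∈ Ip p := hγ.1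
  have hp0 : (p : Kb) ≠ 0 := ar_p_ne_zero hp
  have hvp0 : (Pp p).valuation (p : Kb) ≠ 0 := (Valuation.ne_zero_iff _).2 hp0
  have hvζ : (Pp p).valuation (zetaP p - 1) ^ (p - 1) = (Pp p).valuation (p : Kb) :=
    FB.val_root_sub_one_pow hp hζp hζ1
  have hζ10 : zetaP p - 1 ≠ 0 := sub_ne_zero.2 hζ1
  have hvζ0 : (Pp p).valuation (zetaP p - 1) ≠ 0 := (Valuation.ne_zero_iff _).2 hζ10
  have hvp : (Pp p).valuation (p : Kb) < 1 := ar_val_p_lt hP
  have hvζlt : (Pp p).valuation (zetaP p - 1) < 1 := by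
    by_contra h
    rw [not_lt] at h
    have h1 : 1 ≤ (Pp p).valuation (zetaP p - 1) ^ (p - 1) := one_le_pow₀ h
    rw [hvζ] at h1
    exact absurd hvp (not_lt.2 h1)
  have hζP : zetaP p ∈ Pp p := by
    have h1 : (Pp p).valuation (zetaP p) ^ p = 1 := by rw [← map_pow, hζp, map_one]
    have h2 := (pow_eq_one_iff_of_nonneg zero_le hp.ne_zero).1 h1
    exact ((Pp p).valuation_le_one_iff _).1 h2.le
  -- `y = (β - 1) / (ζ - 1) ∈ P`
  have hexp : (p - 1) * (p ^ 2 + p) = p * (p ^ 2 - 1) := by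
    obtain ⟨q, rfl⟩ : ∃ q, p = q + 1 := ⟨p - 1, by have := hp.pos; omega⟩
    have h1 : (q + 1) ^ 2 - 1 = q * (q + 2) := by
      have : (q + 1) ^ 2 = q * (q + 2) + 1 := by ring
      omega
    rw [h1, Nat.add_sub_cancel]
    ring
  have hexp0 : p * (p ^ 2 - 1) ≠ 0 := by
    have h1 : 2 ≤ p := hp.two_le
    have h2 : 4 ≤ p ^ 2 := by nlinarith
    exact Nat.mul_ne_zero hp.ne_zero (by omega)
  have hle : (Pp p).valuation (β - 1) ≤ (Pp p).valuation (zetaP p - 1) := by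
    have h1 := ((Pp p).valuation_le_one_iff _).2 hval
    rw [map_div₀, map_pow, map_pow, div_le_iff₀ (pow_pos (zero_lt_iff.2 hvp0) _), one_mul,
      ← hvζ, ← pow_mul, hexp] at h1
    exact (pow_le_pow_iff_left₀ zero_le zero_le hexp0).1 h1
  have hyP : (β - 1) / (zetaP p - 1) ∈ Pp p := by
    rw [← (Pp p).valuation_le_one_iff, map_div₀, div_le_iff₀ (zero_lt_iff.2 hvζ0), one_mul]
    exact hle
  have hβy : β = 1 + (zetaP p - 1) * ((β - 1) / (zetaP p - 1)) := by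
    field_simp
    ring
  have hγβ : γ β = zetaP p ^ (χ γ).val * β := hβ γ hγ
  -- the key identity
  have hkey : (∑ i ∈ Finset.range (χ γ).val, zetaP p ^ i) * β =
      γ ((β - 1) / (zetaP p - 1)) - (β - 1) / (zetaP p - 1) := by
    have h1 : γ β = 1 + (zetaP p - 1) * γ ((β - 1) / (zetaP p - 1)) := by
      conv_lhs => rw [hβy]
      rw [map_add, map_one, map_mul, map_sub, map_one, hγζ]
    have h2 : (zetaP p - 1) * ((∑ i ∈ Finset.range (χ γ).val, zetaP p ^ i) * β) =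
        (zetaP p - 1) * (γ ((β - 1) / (zetaP p - 1)) - (β - 1) / (zetaP p - 1)) := by
      have h3 : (zetaP p - 1) * ((∑ i ∈ Finset.range (χ γ).val, zetaP p ^ i) * β) =
          (zetaP p ^ (χ γ).val - 1) * β := by
        rw [← geom_sum_mul]
        ring
      rw [h3, sub_mul, one_mul, ← hγβ, h1, mul_sub, ← sub_eq_zero]
      nth_rewrite 2 [hβy]
      ring
    exact mul_left_cancel₀ hζ10 h2
  have hdiff : γ ((β - 1) / (zetaP p - 1)) - (β - 1) / (zetaP p - 1) ∈ (Pp p).nonunits :=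
    Fermat.Agent.Cyclo.inertia_sub_mem_nonunits (Pp p) hγI hyP
  have hvβ : (Pp p).valuation β = 1 := by
    have h1 : β = 1 + (β - 1) := by ring
    rw [h1]
    exact Valuation.map_one_add_of_lt _ (lt_of_le_of_lt hle hvζlt)
  have hG : ∑ i ∈ Finset.range (χ γ).val, zetaP p ^ i ∈ (Pp p).nonunits := by
    rw [← hkey, ValuationSubring.mem_nonunits_iff, map_mul, hvβ, mul_one] at hdiff
    exact (ValuationSubring.mem_nonunits_iff _).2 hdiff
  have hGc : (∑ i ∈ Finset.range (χ γ).val, zetaP p ^ i) - ((χ γ).val : Kb) ∈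
      (Pp p).nonunits := by
    have h1 : (∑ i ∈ Finset.range (χ γ).val, zetaP p ^ i) - ((χ γ).val : Kb) =
        ∑ i ∈ Finset.range (χ γ).val, (zetaP p ^ i - 1) := by
      rw [Finset.sum_sub_distrib, Finset.sum_const, Finset.card_range, nsmul_eq_mul, mul_one]
    rw [h1, ValuationSubring.mem_nonunits_iff]
    refine Valuation.map_sum_lt _ one_ne_zero (fun i _ => ?_)
    have h2 : zetaP p ^ i - 1 = (∑ j ∈ Finset.range i, zetaP p ^ j) * (zetaP p - 1) :=
      (geom_sum_mul _ _).symm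
    rw [h2, map_mul]
    have h3 : (Pp p).valuation (∑ j ∈ Finset.range i, zetaP p ^ j) ≤ 1 :=
      ((Pp p).valuation_le_one_iff _).2 (sum_mem (fun j _ => pow_mem hζP j))
    calc (Pp p).valuation (∑ j ∈ Finset.range i, zetaP p ^ j) *
          (Pp p).valuation (zetaP p - 1) ≤ 1 * (Pp p).valuation (zetaP p - 1) :=
          mul_le_mul_left h3 _
      _ = (Pp p).valuation (zetaP p - 1) := one_mul _
      _ < 1 := hvζlt
  have hc : ((χ γ).val : Kb) ∈ (Pp p).nonunits := by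
    have h1 : ((χ γ).val : Kb) = (∑ i ∈ Finset.range (χ γ).val, zetaP p ^ i) -
        ((∑ i ∈ Finset.range (χ γ).val, zetaP p ^ i) - ((χ γ).val : Kb)) := by ring
    rw [h1]
    exact red_sub_mem_nonunits _ hG hGc
  have hne : NeZero p := ⟨hp.ne_zero⟩
  by_contra hχ
  have hval0 : (χ γ).val ≠ 0 := fun h => hχ ((ZMod.val_eq_zero _).1 h)
  have hlt : (χ γ).val < p := ZMod.val_lt _
  have hnd : ¬ (p : ℤ) ∣ (((χ γ).val : ℕ) : ℤ) := by
    rw [Int.natCast_dvd_natCast]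
    exact fun h => hval0 (Nat.eq_zero_of_dvd_of_lt h hlt)
  have h1 := ar_val_int_eq_one hp hP hnd
  rw [ValuationSubring.mem_nonunits_iff] at hc
  rw [Int.cast_natCast] at h1
  rw [h1] at hc
  exact lt_irrefl _ hc

end Fermat.Agent.S56.SS
end MergeWrap_S56_W4_C_KN_LevC

section MergeWrap_S56_W4_C_KN_FieldGen -- from S56/W4/C/KN/FieldGen.lean

set_option autoImplicit false

namespace Fermat.Agent.S56.SS.KNGen

open Module

section
variable (p : ℕ) [Fact p.Prime] (k : Type) [Field k] [CharP k p] [Algebra (ZMod p) k]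

/-- every element of `𝔽_p(ν)` is fixed by `x ↦ x^(p²)` when `ν` is. -/
theorem pow_sq_eq_of_mem {ν : k} (hν2 : ν ^ (p ^ 2) = ν) {a : k}
    (ha : a ∈ IntermediateField.adjoin (ZMod p) {ν}) : a ^ (p ^ 2) = a := by
  induction ha using IntermediateField.adjoin_induction with
  | mem x hx =>
    rw [Set.mem_singleton_iff] at hx
    rw [hx, hν2]
  | algebraMap c =>
    rw [← map_pow, pow_two, pow_mul, ZMod.pow_card, ZMod.pow_card]
  | add x y _ _ hx hy => rw [add_pow_char_pow, hx, hy]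
  | inv x _ hx => rw [inv_pow, hx]
  | mul x y _ _ hx hy => rw [mul_pow, hx, hy]

variable [Finite k]

theorem card_adjoin {ν : k} (hν2 : ν ^ (p ^ 2) = ν) (hν1 : ν ^ p ≠ ν) :
    Nat.card (IntermediateField.adjoin (ZMod p) {ν}) = p ^ 2 := by
  set F := IntermediateField.adjoin (ZMod p) {ν} with hF
  have hp : p.Prime := Fact.out
  have hνF : ν ∈ F := IntermediateField.subset_adjoin _ _ (Set.mem_singleton ν)
  have hcard : Nat.card F = p ^ finrank (ZMod p) F := by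
    rw [Module.natCard_eq_pow_finrank (K := ZMod p) (V := F), Nat.card_zmod]
  have hpos : 0 < finrank (ZMod p) F := Module.finrank_pos
  -- upper bound
  have hle : finrank (ZMod p) F ≤ 2 := by
    obtain ⟨g, hg⟩ := IsCyclic.exists_generator (α := Fˣ)
    have h1 : orderOf g = Nat.card Fˣ := orderOf_eq_card_of_forall_mem_zpowers hg
    have h2 : Nat.card Fˣ = Nat.card F - 1 := Nat.card_units F
    have h3 : g ^ (p ^ 2 - 1) = 1 := by
      have h4 : ((g : F) : k) ^ (p ^ 2) = ((g : F) : k) := pow_sq_eq_of_mem p k hν2 (g : F).2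
      have h5 : ((g : F) : k) ≠ 0 := by
        intro h0
        exact g.ne_zero (Subtype.ext h0)
      have hp2 : 1 ≤ p ^ 2 := Nat.one_le_pow _ _ hp.pos
      have h6 : ((g : F) : k) ^ (p ^ 2 - 1) = 1 := by
        apply mul_left_cancel₀ h5
        rw [← pow_succ', Nat.sub_add_cancel hp2, h4, mul_one]
      ext
      push_cast
      exact h6
    have h7 : orderOf g ∣ p ^ 2 - 1 := orderOf_dvd_of_pow_eq_one h3
    rw [h1, h2, hcard] at h7
    have hp2 : 1 < p ^ 2 := Nat.one_lt_pow (by norm_num) hp.one_lt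
    have h8 : p ^ finrank (ZMod p) F - 1 ≤ p ^ 2 - 1 := Nat.le_of_dvd (by omega) h7
    have h9 : p ^ finrank (ZMod p) F ≤ p ^ 2 := by omega
    exact (Nat.pow_le_pow_iff_right hp.one_lt).1 h9
  -- lower bound
  have hne : finrank (ZMod p) F ≠ 1 := by
    intro h1
    rw [h1, pow_one] at hcard
    let _ : Fintype F := Fintype.ofFinite F
    have h2 : Fintype.card F = p := by rw [← Nat.card_eq_fintype_card, hcard]
    have h3 := FiniteField.pow_card (⟨ν, hνF⟩ : F)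
    rw [h2] at h3
    exact hν1 (congrArg Subtype.val h3)
  have : finrank (ZMod p) F = 2 := by omega
  rw [hcard, this]

end

theorem fieldGen_core (p : ℕ) [Fact p.Prime] (k : Type) [Field k] [Finite k] (hp : (p : k) = 0)
    (ν : k) (hν2 : ν ^ (p ^ 2) = ν) (hν1 : ν ^ p ≠ ν) :
    ∃ (g : ℕ) (x : Fin g → k),
      AddSubgroup.closure {y : k | ∃ (n : ℕ) (j : Fin g), y = ν ^ n * x j} = ⊤ ∧
      (p ^ 2) ^ g = Nat.card k := by
  have : CharP k p := (CharP.charP_iff_prime_eq_zero Fact.out).2 hp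
  let _ : Algebra (ZMod p) k := ZMod.algebra k p
  set F := IntermediateField.adjoin (ZMod p) {ν} with hF
  let b := Module.finBasis F k
  refine ⟨finrank F k, fun j => b j, ?_, ?_⟩
  · set M := AddSubgroup.closure {y : k | ∃ (n : ℕ) (j : Fin (finrank F k)), y = ν ^ n * b j}
      with hM
    have hmulν : ∀ m ∈ M, ν * m ∈ M := by
      intro m hm
      induction hm using AddSubgroup.closure_induction with
      | mem x hx =>
        obtain ⟨n, j, rfl⟩ := hx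
        exact AddSubgroup.subset_closure ⟨n + 1, j, by rw [pow_succ']; ring⟩
      | zero => rw [mul_zero]; exact zero_mem _
      | add x y _ _ hx hy => rw [mul_add]; exact add_mem hx hy
      | neg x _ hx => rw [mul_neg]; exact neg_mem hx
    have hFM : ∀ a ∈ F, ∀ m ∈ M, a * m ∈ M := by
      intro a ha
      have halg : IsAlgebraic (ZMod p) ν := Algebra.IsAlgebraic.isAlgebraic ν
      have ha' : a ∈ Algebra.adjoin (ZMod p) {ν} := by
        rw [← IntermediateField.adjoin_simple_toSubalgebra_of_isAlgebraic halg]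
        exact ha
      induction ha' using Algebra.adjoin_induction with
      | mem x hx =>
        rw [Set.mem_singleton_iff] at hx
        rw [hx]
        exact hmulν
      | algebraMap c =>
        intro m hm
        have h1 : algebraMap (ZMod p) k c = ((c.val : ℕ) : k) := by
          conv_lhs => rw [← ZMod.natCast_zmod_val c]
          rw [map_natCast]
        rw [h1, ← nsmul_eq_mul]
        exact nsmul_mem hm _
      | add x y _ _ hx hy =>
        intro m hm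
        rw [add_mul]
        exact add_mem (hx (by
          rw [← IntermediateField.adjoin_simple_toSubalgebra_of_isAlgebraic halg] at *
          assumption) m hm) (hy (by
          rw [← IntermediateField.adjoin_simple_toSubalgebra_of_isAlgebraic halg] at *
          assumption) m hm)
      | mul x y _ _ hx hy =>
        intro m hm
        rw [mul_assoc]
        exact hx (by
          rw [← IntermediateField.adjoin_simple_toSubalgebra_of_isAlgebraic halg] at *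
          assumption) _ (hy (by
          rw [← IntermediateField.adjoin_simple_toSubalgebra_of_isAlgebraic halg] at *
          assumption) m hm)
    rw [eq_top_iff]
    intro y _
    rw [← b.sum_repr y]
    refine sum_mem fun j _ => ?_
    have h1 : (b.repr y j) • b j = ((b.repr y j : F) : k) * b j := rfl
    rw [h1]
    exact hFM _ (b.repr y j).2 _ (AddSubgroup.subset_closure ⟨0, j, by rw [pow_zero, one_mul]⟩)
  · rw [← card_adjoin p k hν2 hν1, ← Module.natCard_eq_pow_finrank]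

end Fermat.Agent.S56.SS.KNGen

namespace Fermat.Agent.S56.SS

/-- **GEN** -/
theorem fieldGenProp (p : ℕ) [Fact p.Prime] : FieldGenProp p := by
  intro k _ _ hp ν hν2 hν1
  exact KNGen.fieldGen_core p k hp ν hν2 hν1

end Fermat.Agent.S56.SS
end MergeWrap_S56_W4_C_KN_FieldGen

section MergeWrap_S56_W4_C_KN_Final -- from S56/W4/C/KN/Final.lean

set_option autoImplicit false

namespace Fermat.Agent.S56.SS

/-- **Block KN**, modulo TAME. -/
theorem countProp_of_tame (p : ℕ) [Fact p.Prime] (htame : TameProp p) : CountProp p :=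
  countProp p
    (KNFam.goodGrpProp (levZeroProp p) (levNegProp p) (levExistsProp p) (levAddProp p))
    (KNFam.diagProp (levExistsProp p) (levUniqueProp p) (levAddProp p) (levNextProp p)
      (levTopProp : LevTopProp p) (levConjProp p) htame)
    (KNFam.keyProp (levZeroProp p) (levNegProp p) (levExistsProp p) (levUniqueProp p)
      (levAddProp p) (levNextProp p) (levTopProp : LevTopProp p) (levConjProp p) htame (fieldGenProp p))

/-- **Block KN**: the good classes restrict to at most `|k|` local classes. -/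
theorem countPropKN (p : ℕ) [Fact p.Prime] : CountProp p :=
  countProp_of_tame p (tameProp p)

end Fermat.Agent.S56.SS
end MergeWrap_S56_W4_C_KN_Final
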